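import Mathlib

/-!
# GATE-J / J2-DICT-5 (a): Lagrange interpolation multiplied by the discriminant

For families `f θ : ι → R` in a commutative ring, the polynomial
`lag f θ = ∑ q, C (f q * E θ q) * ∏ k ≠ q, (X - C (θ k))` satisfies
`(lag f θ).eval (θ q) = f q * disc θ`, is invariant under simultaneous permutation of the two
families, and commutes with ring homomorphisms.  No denominators are used.
-/

set_option autoImplicit false

open Polynomial Finset

noncomputable section

namespace Fermat.Agent.GJ.Dict.Lagrange

variable {ι : Type*} [Fintype ι] [DecidableEq ι] {R : Type*} [CommRing R]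

/-- the discriminant-like product `∏_{a ≠ b} (θ a - θ b)` -/
def disc (θ : ι → R) : R := ∏ a, ∏ b ∈ univ.erase a, (θ a - θ b)

/-- the cofactor `∏_{a ≠ q} ∏_{b ≠ a} (θ a - θ b)` -/
def cof (θ : ι → R) (q : ι) : R := ∏ a ∈ univ.erase q, ∏ b ∈ univ.erase a, (θ a - θ b)

/-- Lagrange interpolation polynomial through `(θ q, f q * disc θ)` -/
def lag (f θ : ι → R) : R[X] :=
  ∑ q, C (f q * cof θ q) * ∏ k ∈ univ.erase q, (X - C (θ k))

theorem disc_eq_mul_cof (θ : ι → R) (q : ι) :
    disc θ = (∏ b ∈ univ.erase q, (θ q - θ b)) * cof θ q := by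
  unfold disc cof
  rw [← Finset.mul_prod_erase univ _ (mem_univ q)]

theorem inner_perm (θ : ι → R) (π : Equiv.Perm ι) (a : ι) :
    ∏ b ∈ univ.erase a, (θ (π a) - θ (π b)) = ∏ b ∈ univ.erase (π a), (θ (π a) - θ b) := by
  refine Finset.prod_bij (fun b _ => π b) ?_ ?_ ?_ ?_
  · intro b hb
    simp only [mem_erase, mem_univ, and_true] at hb ⊢
    exact fun h => hb (π.injective h)
  · intro b _ b' _ h
    exact π.injective h
  · intro c hc
    simp only [mem_erase, mem_univ, and_true] at hc
    refine ⟨π.symm c, ?_, by simp⟩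
    simp only [mem_erase, mem_univ, and_true]
    intro h
    apply hc
    rw [← h]; simp
  · intro b _
    rfl

theorem disc_perm (θ : ι → R) (π : Equiv.Perm ι) : disc (θ ∘ π) = disc θ := by
  unfold disc
  simp only [Function.comp_apply]
  simp_rw [inner_perm θ π]
  exact Equiv.prod_comp π fun a => ∏ b ∈ univ.erase a, (θ a - θ b)

theorem cof_perm (θ : ι → R) (π : Equiv.Perm ι) (q : ι) : cof (θ ∘ π) q = cof θ (π q) := by
  unfold cof
  simp only [Function.comp_apply]
  simp_rw [inner_perm θ π]
  refine Finset.prod_bij (fun a _ => π a) ?_ ?_ ?_ ?_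
  · intro a ha
    simp only [mem_erase, mem_univ, and_true] at ha ⊢
    exact fun h => ha (π.injective h)
  · intro b _ b' _ h
    exact π.injective h
  · intro c hc
    simp only [mem_erase, mem_univ, and_true] at hc
    refine ⟨π.symm c, ?_, by simp⟩
    simp only [mem_erase, mem_univ, and_true]
    intro h
    apply hc
    rw [← h]; simp
  · intro b _
    rfl

theorem lag_perm (f θ : ι → R) (π : Equiv.Perm ι) : lag (f ∘ π) (θ ∘ π) = lag f θ := by
  unfold lag
  simp only [Function.comp_apply, cof_perm]
  have h : ∀ q, ∏ k ∈ univ.erase q, (X - C (θ (π k))) =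
      ∏ k ∈ univ.erase (π q), (X - C (θ k)) := by
    intro q
    refine Finset.prod_bij (fun a _ => π a) ?_ ?_ ?_ ?_
    · intro a ha
      simp only [mem_erase, mem_univ, and_true] at ha ⊢
      exact fun h => ha (π.injective h)
    · intro b _ b' _ h
      exact π.injective h
    · intro c hc
      simp only [mem_erase, mem_univ, and_true] at hc
      refine ⟨π.symm c, ?_, by simp⟩
      simp only [mem_erase, mem_univ, and_true]
      intro h
      apply hc
      rw [← h]; simp
    · intro b _
      rfl
  simp_rw [h]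
  exact Equiv.sum_comp π fun q => C (f q * cof θ q) * ∏ k ∈ univ.erase q, (X - C (θ k))

variable {R' : Type*} [CommRing R']

theorem map_disc (φ : R →+* R') (θ : ι → R) : φ (disc θ) = disc (φ ∘ θ) := by
  unfold disc
  simp [map_prod, map_sub]

theorem map_cof (φ : R →+* R') (θ : ι → R) (q : ι) : φ (cof θ q) = cof (φ ∘ θ) q := by
  unfold cof
  simp [map_prod, map_sub]

theorem map_lag (φ : R →+* R') (f θ : ι → R) :
    (lag f θ).map φ = lag (φ ∘ f) (φ ∘ θ) := by
  unfold lag
  rw [Polynomial.map_sum]
  refine Finset.sum_congr rfl fun q _ => ?_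
  rw [Polynomial.map_mul, Polynomial.map_C, Polynomial.map_prod, map_mul, map_cof]
  congr 1
  refine Finset.prod_congr rfl fun k _ => ?_
  rw [Polynomial.map_sub, Polynomial.map_X, Polynomial.map_C]
  rfl

/-- **Interpolation property** (no denominators). -/
theorem eval_lag (f θ : ι → R) (q : ι) : (lag f θ).eval (θ q) = f q * disc θ := by
  unfold lag
  rw [eval_finsetSum, Finset.sum_eq_single q]
  · rw [eval_mul, eval_C, eval_prod, disc_eq_mul_cof θ q]
    simp only [eval_sub, eval_X, eval_C]
    ring
  · intro q' _ hq'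
    rw [eval_mul, eval_prod]
    have : ∏ k ∈ univ.erase q', eval (θ q) (X - C (θ k)) = 0 := by
      apply Finset.prod_eq_zero (i := q)
      · simp only [mem_erase, mem_univ, and_true]
        exact fun h => hq' h.symm
      · simp
    rw [this, mul_zero]
  · intro h
    exact absurd (mem_univ q) h

/-- the discriminant is nonzero when the `θ q` are pairwise distinct (in a domain) -/
theorem disc_ne_zero [IsDomain R] {θ : ι → R} (hθ : Function.Injective θ) : disc θ ≠ 0 := by
  unfold disc
  rw [Finset.prod_ne_zero_iff]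
  intro a _
  rw [Finset.prod_ne_zero_iff]
  intro b hb
  simp only [mem_erase, mem_univ, and_true] at hb
  exact sub_ne_zero.mpr fun h => hb (hθ h).symm

/-- Expansion of the interpolation identity in powers of `θ q`. -/
theorem mul_disc_eq_sum (f θ : ι → R) (q : ι) :
    f q * disc θ = ∑ r ∈ range ((lag f θ).natDegree + 1), (lag f θ).coeff r * θ q ^ r := by
  rw [← eval_lag f θ q, eval_eq_sum_range]

end Fermat.Agent.GJ.Dict.Lagrange
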