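import Mathlib
import Fermat.Agent.S24_helper82.Realize

/-!
# GATE-J / J2-DICT (1): realisation of the function field of `X₀(N)` over `ℂ`

`FC N = ℂ(j(q^d) : d ∣ N) = laurentBaseChange ℂ (modularFunctionFieldFull N)` is realised inside
the field `Mer` of meromorphic functions on the upper half plane by `j(q^d) ↦ j(d z)`.
This is the `ℂ`-version of `S24_helper82.realize` (which is over `ℚ̄`).
-/

set_option autoImplicit false

noncomputable section

namespace Fermat.Agent.GJ.Dict

open UpperHalfPlane ModularCurve Fermat.Agent.S24 Fermat.Agent.S28 Fermat.Agent.S28.CuspExp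
open Fermat.Agent.S24_helper62 Fermat.Agent.S24_helper82
open scoped MatrixGroups Manifold

/-- the function field of `X₀(N)` over `ℂ` -/
abbrev FCfield (N : ℕ) : IntermediateField ℂ (LaurentSeries ℂ) :=
  laurentBaseChange ℂ (modularFunctionFieldFull N)

/-- the function field of `X₀(N)` over `ℂ`, as a type -/
abbrev FC (N : ℕ) : Type := ↥(FCfield N)

section Kernel

variable (N : ℕ) [NeZero N]

theorem jFam_eq_cuspExp (d : DivIdx N) : jFam ℂ N d = cuspExp 1 (genFn N d) := by
  rw [genFn, cuspExp_jDil, jFam]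

theorem cuspExp_polyFn (P : MvPolynomial (DivIdx N) ℂ) :
    cuspExp 1 (polyFn N P) = MvPolynomial.aeval (jFam ℂ N) P := by
  show cuspExp 1 (fun τ => MvPolynomial.eval (fun d => genFn N d τ) P) = _
  rw [(meroExp_isCE one_pos).exp_eval (genFn N) (isCE_genFn N)]
  have h : (fun d => cuspExp 1 (genFn N d)) = fun d => jFam ℂ N d :=
    funext fun d => (jFam_eq_cuspExp N d).symm
  rw [h]

theorem aeval_jFam_eq_zero_iff_polyFn (P : MvPolynomial (DivIdx N) ℂ) :
    MvPolynomial.aeval (jFam ℂ N) P = 0 ↔ polyFn N P = 0 := by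
  rw [← cuspExp_polyFn]
  constructor
  · intro h
    exact (isCE_polyFn N _).eq_zero_of_cuspExp_eq_zero h
  · intro h
    rw [h]
    have : cuspExp 1 (0 : ℍ → ℂ) = HahnSeries.C (0 : ℂ) := cuspExp_const one_pos 0
    rw [this, map_zero]

theorem aeval_genM_C (P : MvPolynomial (DivIdx N) ℂ) :
    MvPolynomial.aeval (genM N) P = algebraMap Hol Mer (MvPolynomial.aeval (genHol N) P) := by
  have h2 := MvPolynomial.comp_aeval_apply (f := genHol N) (IsScalarTower.toAlgHom ℂ Hol Mer) P
  exact h2.symm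

theorem aeval_genM_eq_zero_iff_polyFn (P : MvPolynomial (DivIdx N) ℂ) :
    MvPolynomial.aeval (genM N) P = 0 ↔ polyFn N P = 0 := by
  rw [aeval_genM_C, ← coe_aeval_genHol, coe_eq_zero_iff]
  exact (map_eq_zero_iff _ (IsFractionRing.injective Hol Mer))

/-- **Kernel comparison over `ℂ`**: the `q`-expansions `j(q^d)` and the functions `j(d z)` satisfy
the same polynomial relations over `ℂ`. -/
theorem aeval_jFam_eq_zero_iff (P : MvPolynomial (DivIdx N) ℂ) :
    MvPolynomial.aeval (jFam ℂ N) P = 0 ↔ MvPolynomial.aeval (genM N) P = 0 := by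
  rw [aeval_jFam_eq_zero_iff_polyFn, aeval_genM_eq_zero_iff_polyFn]

end Kernel

section Realize

variable (N : ℕ) [NeZero N]

theorem FC_eq_adjoin :
    FCfield N = IntermediateField.adjoin ℂ (Set.range (jFam ℂ N)) := by
  rw [FCfield, laurentBaseChange_full, modularFunctionFieldFullC_eq_adjoin_range]

/-- the realisation on `ℂ(j(q^d) : d ∣ N)` -/
def realAdjoinC : IntermediateField.adjoin ℂ (Set.range (jFam ℂ N)) →ₐ[ℂ] Mer :=
  (exists_algHom_adjoin_field_two (jFam ℂ N) (genM N) (aeval_jFam_eq_zero_iff N)).choose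

theorem realAdjoinC_gen (d : DivIdx N) :
    realAdjoinC N ⟨jFam ℂ N d, IntermediateField.subset_adjoin ℂ _ ⟨d, rfl⟩⟩ = genM N d :=
  (exists_algHom_adjoin_field_two (jFam ℂ N) (genM N) (aeval_jFam_eq_zero_iff N)).choose_spec d

/-- **The realisation** of the function field of `X₀(N)` over `ℂ` as a field of meromorphic
functions on the upper half plane: `j(q^d) ↦ j(d z)`. -/
def realizeC : FC N →ₐ[ℂ] Mer :=
  (realAdjoinC N).comp (IntermediateField.equivOfEq (FC_eq_adjoin N)).toAlgHom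

theorem jFam_mem_FC (d : DivIdx N) : jFam ℂ N d ∈ FCfield N := by
  rw [FC_eq_adjoin]
  exact IntermediateField.subset_adjoin ℂ _ ⟨d, rfl⟩

/-- the element `j(q^d)` of `FC N` -/
def jdC (d : ℕ) [NeZero d] (hd : d ∣ N) : FC N := ⟨jFam ℂ N ⟨d, hd⟩, jFam_mem_FC N ⟨d, hd⟩⟩

/-- the element `j` of `FC N` -/
def jC : FC N := jdC N 1 (one_dvd N)

theorem coe_jdC (d : ℕ) [NeZero d] (hd : d ∣ N) :
    ((jdC N d hd : FC N) : LaurentSeries ℂ) = qExpand ℂ d (jqModC ℂ) := rfl

theorem coe_jC : ((jC N : FC N) : LaurentSeries ℂ) = jqModC ℂ := by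
  show qExpand ℂ 1 (jqModC ℂ) = jqModC ℂ
  rw [qExpand_one_apply]

theorem realizeC_jdC (d : ℕ) [NeZero d] (hd : d ∣ N) :
    realizeC N (jdC N d hd) =
      algebraMap Hol Mer (jDilHol d (Nat.pos_of_ne_zero (NeZero.ne d))) := by
  have h := realAdjoinC_gen N ⟨d, hd⟩
  have h2 : (IntermediateField.equivOfEq (FC_eq_adjoin N)) (jdC N d hd) =
      ⟨jFam ℂ N ⟨d, hd⟩, IntermediateField.subset_adjoin ℂ _ ⟨⟨d, hd⟩, rfl⟩⟩ := by
    apply Subtype.ext
    rfl
  show realAdjoinC N ((IntermediateField.equivOfEq (FC_eq_adjoin N)) (jdC N d hd)) = _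
  rw [h2, h]
  rfl

theorem realizeC_injective : Function.Injective (realizeC N) := (realizeC N).toRingHom.injective

end Realize

section HomExt

variable (N : ℕ) [NeZero N]

theorem algHom_ext_FC {L : Type*} [Field L] [Algebra ℂ L] ⦃φ ψ : FC N →ₐ[ℂ] L⦄
    (h : ∀ (d : ℕ) [NeZero d] (hd : d ∣ N), φ (jdC N d hd) = ψ (jdC N d hd)) : φ = ψ := by
  apply IntermediateField.algHom_ext_of_eq_adjoin ℂ (FC_eq_adjoin N)
  rintro x ⟨d, rfl⟩
  have h1 := h d.1 d.2
  exact h1

end HomExt

section Translates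

variable (N : ℕ) [NeZero N]

/-- `compM g` as a `ℂ`-algebra endomorphism of `Mer` -/
def compMC (g : SL(2, ℤ)) : Mer →ₐ[ℂ] Mer where
  __ := compM g
  commutes' c := by
    show compM g (algebraMap ℂ Mer c) = algebraMap ℂ Mer c
    rw [compM_const]

@[simp] theorem compMC_apply (g : SL(2, ℤ)) (m : Mer) : compMC g m = compM g m := rfl

/-- **`Γ₀(N)`-invariance** of the realisation. -/
theorem compM_realizeC_of_mem_Gamma0 {γ : SL(2, ℤ)} (hγ : γ ∈ CongruenceSubgroup.Gamma0 N)
    (f : FC N) : compM γ (realizeC N f) = realizeC N f := by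
  have h : (compMC γ).comp (realizeC N) = realizeC N := by
    apply algHom_ext_FC
    intro d _ hd
    show compM γ (realizeC N (jdC N d hd)) = realizeC N (jdC N d hd)
    rw [realizeC_jdC, compM_algebraMap, compSL_jDilHol N _ hd hγ]
  exact DFunLike.congr_fun h f

/-- the translate of the realisation by `g ∈ SL(2, ℤ)`: `f ↦ (realizeC f) ∘ g⁻¹` -/
def SigC (g : SL(2, ℤ)) : FC N →ₐ[ℂ] Mer := (compMC g⁻¹).comp (realizeC N)

theorem SigC_apply (g : SL(2, ℤ)) (f : FC N) : SigC N g f = compM g⁻¹ (realizeC N f) := rfl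

theorem SigC_one (f : FC N) : SigC N 1 f = realizeC N f := by
  rw [SigC_apply, inv_one, compM_one]

/-- the translates only depend on the coset `g Γ₀(N)` -/
theorem SigC_mul_of_mem_Gamma0 (g : SL(2, ℤ)) {γ : SL(2, ℤ)}
    (hγ : γ ∈ CongruenceSubgroup.Gamma0 N) (f : FC N) : SigC N (g * γ) f = SigC N g f := by
  rw [SigC_apply, SigC_apply, mul_inv_rev, compM_mul,
    compM_realizeC_of_mem_Gamma0 N (inv_mem hγ)]

/-- left multiplication of the coset corresponds to precomposition -/
theorem SigC_mul_left (ε g : SL(2, ℤ)) (f : FC N) :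
    SigC N (ε * g) f = compM ε⁻¹ (SigC N g f) := by
  rw [SigC_apply, SigC_apply, mul_inv_rev, compM_mul]

theorem SigC_eq_of_coset_eq {g g' : SL(2, ℤ)}
    (h : (g : I0 N) = (g' : I0 N)) (f : FC N) : SigC N g f = SigC N g' f := by
  have h1 : g⁻¹ * g' ∈ CongruenceSubgroup.Gamma0 N := QuotientGroup.eq.mp h
  have h2 : g' = g * (g⁻¹ * g') := by group
  rw [h2, SigC_mul_of_mem_Gamma0 N g h1]

/-- `j` is realised by the `SL(2,ℤ)`-invariant function `jFun` -/
theorem realizeC_jC : realizeC N (jC N) = algebraMap Hol Mer (jDilHol 1 one_pos) :=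
  realizeC_jdC N 1 _

/-- all the translates agree at `j` -/
theorem SigC_jC (g : SL(2, ℤ)) : SigC N g (jC N) = algebraMap Hol Mer (jDilHol 1 one_pos) := by
  rw [SigC_apply, realizeC_jC, compM_algebraMap, compSL_jDilHol_one]

end Translates

end Fermat.Agent.GJ.Dict
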