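import Mathlib
import Fermat.Agent.GJ.J2.Dict.RealizeC
import Fermat.Agent.GJ.J2.Dict.Lagrange
import Fermat.Agent.S28.CosetSymJ
import Fermat.Agent.S28.AnalyticInst
import Fermat.Agent.S24_helper66.CosetSepJ

/-!
# GATE-J / J2-DICT-5 (b): field generation over `ℂ`

A holomorphic function on the upper half plane that is `Γ₀(N)`-invariant and of moderate growth
at every cusp lies in `ℂ(j(z), j(N z))`, hence is `realizeC N f` for some `f` in the function
field `FC N` of `X₀(N)` over `ℂ`.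

The proof is Lagrange interpolation on the cosets `SL(2,ℤ)/Γ₀(N)` with nodes the conjugates of
`θ = j(N z)` (which are pairwise distinct), multiplied by the discriminant: all the coefficients
are holomorphic, `SL(2,ℤ)`-invariant and of moderate growth, hence polynomials in `j`.
-/

set_option autoImplicit false
set_option linter.unusedSectionVars false

noncomputable section

namespace Fermat.Agent.GJ.Dict.FieldGen

open UpperHalfPlane ModularCurve Fermat.Agent.S24 Fermat.Agent.S28 Fermat.Agent.S28.CuspExp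
open Fermat.Agent.S24_helper62 Fermat.Agent.S24_helper82 Fermat.Agent.GJ.Dict
open Fermat.Agent.S28.CosetSym
open CongruenceSubgroup Function.Periodic Polynomial
open scoped MatrixGroups Manifold

/-- moderate growth (in the variable `q_N = exp (2πi z / N)`) of every `SL(2,ℤ)`-translate -/
def ModerateGrowth (N : ℕ) (f : ℍ → ℂ) : Prop :=
  ∀ g : SL(2, ℤ), ∃ m : ℕ,
    IsBoundedAtImInfty fun z : ℍ => qParam (N : ℝ) (z : ℂ) ^ m * f (g • z)

section Growth

variable {N : ℕ} [NeZero N]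

theorem natCast_pos' : (0 : ℝ) < (N : ℝ) := Nat.cast_pos.mpr (NeZero.pos N)

omit [NeZero N] in
theorem moderateGrowth_const (c : ℂ) : ModerateGrowth N fun _ => c := by
  intro g
  refine ⟨0, ?_⟩
  simp only [pow_zero, one_mul]
  exact Filter.const_boundedAtFilter _ c

theorem ModerateGrowth.add {f f' : ℍ → ℂ} (hf : ModerateGrowth N f) (hf' : ModerateGrowth N f') :
    ModerateGrowth N (f + f') := by
  intro g
  obtain ⟨m, hm⟩ := hf g
  obtain ⟨m', hm'⟩ := hf' g
  refine ⟨max m m', ?_⟩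
  have h1 := isBoundedAtImInfty_qParam_pow_mul_of_le (natCast_pos' (N := N)) (le_max_left m m') hm
  have h2 := isBoundedAtImInfty_qParam_pow_mul_of_le (natCast_pos' (N := N)) (le_max_right m m') hm'
  have := h1.add h2
  refine this.congr' ?_ (Filter.EventuallyEq.refl _ _)
  exact Filter.Eventually.of_forall fun z => by
    simp only [Pi.add_apply]; ring

omit [NeZero N] in
theorem ModerateGrowth.mul {f f' : ℍ → ℂ} (hf : ModerateGrowth N f) (hf' : ModerateGrowth N f') :
    ModerateGrowth N (f * f') := by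
  intro g
  obtain ⟨m, hm⟩ := hf g
  obtain ⟨m', hm'⟩ := hf' g
  refine ⟨m + m', ?_⟩
  have := hm.mul hm'
  refine this.congr' ?_ (Filter.EventuallyEq.refl _ _)
  exact Filter.Eventually.of_forall fun z => by
    simp only [Pi.mul_apply]; ring

omit [NeZero N] in
theorem ModerateGrowth.comp_smul {f : ℍ → ℂ} (hf : ModerateGrowth N f) (γ : SL(2, ℤ)) :
    ModerateGrowth N fun z => f (γ • z) := by
  intro g
  obtain ⟨m, hm⟩ := hf (γ * g)
  refine ⟨m, ?_⟩
  simpa only [mul_smul] using hm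

end Growth

section Algebra

variable (N : ℕ) [NeZero N]

/-- holomorphic functions of moderate growth at all cusps, as a subalgebra of `Hol` -/
def MG : Subalgebra ℂ Hol where
  carrier := {f | ModerateGrowth N (f : ℍ → ℂ)}
  mul_mem' := fun {_ _} hf hg => hf.mul hg
  one_mem' := moderateGrowth_const 1
  add_mem' := fun {_ _} hf hg => hf.add hg
  zero_mem' := moderateGrowth_const 0
  algebraMap_mem' := fun c => moderateGrowth_const c

theorem mem_MG_iff {f : Hol} : f ∈ MG N ↔ ModerateGrowth N (f : ℍ → ℂ) := Iff.rfl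

theorem compSL_mem_MG (g : SL(2, ℤ)) {f : Hol} (hf : f ∈ MG N) : compSL g f ∈ MG N :=
  ModerateGrowth.comp_smul (N := N) hf g

/-- the action of `SL(2,ℤ)` on `MG N` -/
def act (g : SL(2, ℤ)) : MG N →ₐ[ℂ] MG N :=
  ((compSL g).comp (MG N).val).codRestrict (MG N) fun f => compSL_mem_MG N g f.2

@[simp] theorem coe_act (g : SL(2, ℤ)) (f : MG N) : ((act N g f : MG N) : Hol) = compSL g f := rfl

end Algebra

/-- `j` as a holomorphic function (`= S24_helper82.jH`) -/
abbrev jH : Hol := jDilHol 1 one_pos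

theorem jH_apply (z : ℍ) : (jH : ℍ → ℂ) z = jFun z := jDil_one z

section LevelOne

variable (N : ℕ) [NeZero N]

/-- **Level one**: an `SL(2,ℤ)`-invariant holomorphic function of moderate growth is a
polynomial in `j`. -/
theorem exists_poly_of_invariant (c : Hol) (hc : c ∈ MG N)
    (hinv : ∀ g : SL(2, ℤ), compSL g c = c) : ∃ P : ℂ[X], c = aeval jH P := by
  obtain ⟨m, hm⟩ := hc 1
  have hb : IsBoundedAtImInfty fun z : ℍ => qParam 1 (z : ℂ) ^ m * (c : ℍ → ℂ) z := by
    simp only [one_smul] at hm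
    refine Asymptotics.IsBigO.trans (Asymptotics.isBigO_of_le _ fun z => ?_) hm
    rw [norm_mul, norm_mul]
    refine mul_le_mul_of_nonneg_right
      (norm_qParam_one_pow_le (natCast_pos' (N := N)) ?_ z) (norm_nonneg _)
    have h1 : (1 : ℝ) ≤ (N : ℝ) := by exact_mod_cast NeZero.pos N
    have h0 : (0 : ℝ) ≤ (m : ℝ) := Nat.cast_nonneg m
    nlinarith
  obtain ⟨P, -, hP⟩ := hauptmodul_jFun.levelOnePoly (c : ℍ → ℂ) c.2
    (fun γ z => congrFun (congrArg Subtype.val (hinv γ)) z) m hb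
  refine ⟨P, Subtype.ext (funext fun z => ?_)⟩
  rw [aeval_apply, jH_apply]
  exact hP z

end LevelOne

section Conj

variable (N : ℕ) [NeZero N]

/-- the conjugate `f ∘ q⁻¹` of a function attached to a coset `q = g Γ₀(N)` -/
def conj (f : Hol) (q : I0 N) : Hol := compSL (Quotient.out q)⁻¹ f

omit [NeZero N] in
theorem coe_conj (f : Hol) (q : I0 N) :
    (conj N f q : ℍ → ℂ) = cosetFun (Gamma0 N) (f : ℍ → ℂ) q := rfl

variable {N}

omit [NeZero N] in
theorem fun_inv {f : Hol} (hinv : ∀ γ ∈ Gamma0 N, compSL γ f = f) :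
    ∀ γ ∈ Gamma0 N, ∀ z, (f : ℍ → ℂ) (γ • z) = (f : ℍ → ℂ) z :=
  fun γ hγ z => congrFun (congrArg Subtype.val (hinv γ hγ)) z

theorem conj_mk {f : Hol} (hinv : ∀ γ ∈ Gamma0 N, compSL γ f = f) (g : SL(2, ℤ)) :
    conj N f (g : I0 N) = compSL g⁻¹ f := by
  apply Subtype.ext
  funext z
  rw [coe_conj]
  exact cosetFun_mk (fun_inv hinv) g z

theorem conj_one {f : Hol} (hinv : ∀ γ ∈ Gamma0 N, compSL γ f = f) :
    conj N f ((1 : SL(2, ℤ)) : I0 N) = f := by
  rw [conj_mk hinv, inv_one, compSL_one]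

theorem compSL_conj {f : Hol} (hinv : ∀ γ ∈ Gamma0 N, compSL γ f = f) (δ : SL(2, ℤ))
    (q : I0 N) : compSL δ (conj N f q) = conj N f (δ⁻¹ • q) := by
  apply Subtype.ext
  funext z
  show (conj N f q : ℍ → ℂ) (δ • z) = (conj N f (δ⁻¹ • q) : ℍ → ℂ) z
  rw [coe_conj, coe_conj]
  exact cosetFun_smul (fun_inv hinv) δ q z

theorem conj_mem_MG {f : Hol} (hf : f ∈ MG N) (q : I0 N) : conj N f q ∈ MG N :=
  compSL_mem_MG N _ hf

end Conj

section Main

variable {N : ℕ} [NeZero N]

open Fermat.Agent.GJ.Dict.Lagrange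

/-- **Lagrange interpolation on the cosets.**  If `F` and `Θ` are `Γ₀(N)`-invariant holomorphic
functions of moderate growth and the conjugates of `Θ` are pairwise distinct, then
`R(j) * F = ∑ P_r(j) * Θ ^ r` with `R(j) ≠ 0`. -/
theorem exists_poly_relation_of_separating {F Θ : Hol} (hF : F ∈ MG N) (hΘ : Θ ∈ MG N)
    (hFinv : ∀ γ ∈ Gamma0 N, compSL γ F = F) (hΘinv : ∀ γ ∈ Gamma0 N, compSL γ Θ = Θ)
    (hsep : Function.Injective (conj N Θ)) :
    ∃ (R : ℂ[X]) (P : ℕ → ℂ[X]) (n : ℕ), aeval jH R ≠ 0 ∧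
      aeval jH R * F = ∑ r ∈ Finset.range n, aeval jH (P r) * Θ ^ r := by
  classical
  set fS : I0 N → MG N := fun q => ⟨conj N F q, conj_mem_MG hF q⟩ with hfS
  set θS : I0 N → MG N := fun q => ⟨conj N Θ q, conj_mem_MG hΘ q⟩ with hθS
  have hθinj : Function.Injective θS := fun q q' h => hsep (congrArg Subtype.val h)
  -- the action permutes both families simultaneously
  have hactf : ∀ δ : SL(2, ℤ), (act N δ) ∘ fS = fS ∘ (MulAction.toPerm δ⁻¹ : Equiv.Perm (I0 N)) := by
    intro δ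
    funext q
    apply Subtype.ext
    exact compSL_conj hFinv δ q
  have hactθ : ∀ δ : SL(2, ℤ), (act N δ) ∘ θS = θS ∘ (MulAction.toPerm δ⁻¹ : Equiv.Perm (I0 N)) := by
    intro δ
    funext q
    apply Subtype.ext
    exact compSL_conj hΘinv δ q
  have hLinv : ∀ δ : SL(2, ℤ), (lag fS θS).map (act N δ).toRingHom = lag fS θS := by
    intro δ
    have h0 := map_lag (R := MG N) (R' := MG N) (act N δ).toRingHom fS θS
    have h1 : ((act N δ).toRingHom : MG N → MG N) ∘ fS = (act N δ) ∘ fS := rfl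
    have h2 : ((act N δ).toRingHom : MG N → MG N) ∘ θS = (act N δ) ∘ θS := rfl
    rw [h1, h2, hactf, hactθ, lag_perm] at h0
    exact h0
  have hDinv : ∀ δ : SL(2, ℤ), act N δ (disc θS) = disc θS := by
    intro δ
    have h0 := map_disc (R := MG N) (R' := MG N) (act N δ).toRingHom θS
    have h2 : ((act N δ).toRingHom : MG N → MG N) ∘ θS = (act N δ) ∘ θS := rfl
    rw [h2, hactθ, disc_perm] at h0
    exact h0
  -- coefficients are polynomials in `j`
  have hcoeff : ∀ r : ℕ, ∃ P : ℂ[X], (((lag fS θS).coeff r : MG N) : Hol) = aeval jH P := by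
    intro r
    refine exists_poly_of_invariant N _ ((lag fS θS).coeff r).2 fun δ => ?_
    have := congrArg (fun p => Polynomial.coeff p r) (hLinv δ)
    simp only [Polynomial.coeff_map] at this
    exact congrArg Subtype.val this
  obtain ⟨R, hR⟩ : ∃ R : ℂ[X], ((disc θS : MG N) : Hol) = aeval jH R :=
    exists_poly_of_invariant N _ (disc θS).2 fun δ => congrArg Subtype.val (hDinv δ)
  choose P hP using hcoeff
  have hD0 : disc θS ≠ 0 := disc_ne_zero hθinj
  refine ⟨R, P, (lag fS θS).natDegree + 1, ?_, ?_⟩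
  · rw [← hR]
    exact fun h => hD0 (Subtype.ext h)
  · have key := mul_disc_eq_sum fS θS ((1 : SL(2, ℤ)) : I0 N)
    have key' := congrArg (Subtype.val : MG N → Hol) key
    have e1 : (fS ((1 : SL(2, ℤ)) : I0 N) : Hol) = F := conj_one hFinv
    have e2 : (θS ((1 : SL(2, ℤ)) : I0 N) : Hol) = Θ := conj_one hΘinv
    rw [← hR, mul_comm]
    simp only [Subalgebra.coe_mul, AddSubmonoidClass.coe_finsetSum, Subalgebra.coe_pow, e1, e2]
      at key'
    rw [key']
    exact Finset.sum_congr rfl fun r _ => by rw [hP r]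

end Main

section Generators

variable (N : ℕ) [NeZero N]

/-- the generators `j(d z)`, `d ∣ N`, have moderate growth at every cusp -/
theorem jDilHol_mem_MG {d : ℕ} (hd : 0 < d) (hdN : d ∣ N) : jDilHol d hd ∈ MG N := by
  intro g
  have h := (analyticFacts N).bdd _ ((analyticFacts N).isMC_gen g (⟨d, hdN⟩, 0))
  exact h

theorem jH_mem_MG : jH ∈ MG N := jDilHol_mem_MG N one_pos (one_dvd N)

theorem compSL_jH (g : SL(2, ℤ)) : compSL g jH = jH := compSL_jDilHol_one g

/-- the conjugates of `j(N z)` are pairwise distinct -/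
theorem conj_jDilHol_injective :
    Function.Injective (conj N (jDilHol N (NeZero.pos N))) := by
  intro q q' h
  have h1 : ((Quotient.out q : SL(2, ℤ)) : SL(2, ℤ) ⧸ Gamma0 N) = (Quotient.out q' : SL(2, ℤ)) := by
    apply Fermat.Agent.S24_helper66.CosetSep.coset_eq_of_jDil_eq (NeZero.pos N)
    intro τ
    exact congrFun (congrArg Subtype.val h) τ
  have e1 : ((Quotient.out q : SL(2, ℤ)) : SL(2, ℤ) ⧸ Gamma0 N) = q := Quotient.out_eq' q
  have e2 : ((Quotient.out q' : SL(2, ℤ)) : SL(2, ℤ) ⧸ Gamma0 N) = q' := Quotient.out_eq' q'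
  rw [← e1, ← e2]
  exact h1

/-- **(F1)** every `Γ₀(N)`-invariant holomorphic function of moderate growth at the cusps
satisfies `R(j) * H = ∑ P_r(j) * j(N z) ^ r` with `R(j) ≠ 0`. -/
theorem exists_poly_relation (H : Hol) (hinv : ∀ γ ∈ Gamma0 N, compSL γ H = H)
    (hgr : ModerateGrowth N (H : ℍ → ℂ)) :
    ∃ (R : ℂ[X]) (P : ℕ → ℂ[X]) (n : ℕ), aeval jH R ≠ 0 ∧
      aeval jH R * H = ∑ r ∈ Finset.range n, aeval jH (P r) * (jDilHol N (NeZero.pos N)) ^ r :=
  exists_poly_relation_of_separating (N := N) hgr (jDilHol_mem_MG N (NeZero.pos N) dvd_rfl) hinv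
    (fun _ hγ => compSL_jDilHol N _ dvd_rfl hγ) (conj_jDilHol_injective N)

end Generators

section RealizeC

variable (N : ℕ) [NeZero N]

theorem realizeC_aeval_jC (Q : ℂ[X]) :
    realizeC N (aeval (jC N) Q) = algebraMap Hol Mer (aeval jH Q) := by
  rw [← Polynomial.aeval_algHom_apply, realizeC_jC]
  exact Polynomial.aeval_algHom_apply (IsScalarTower.toAlgHom ℂ Hol Mer) jH Q

/-- **(F2)** a `Γ₀(N)`-invariant holomorphic function of moderate growth at the cusps is in the
image of the function field `FC N` of `X₀(N)` over `ℂ`. -/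
theorem exists_realizeC_eq_hol (H : Hol) (hinv : ∀ γ ∈ Gamma0 N, compSL γ H = H)
    (hgr : ModerateGrowth N (H : ℍ → ℂ)) : ∃ f : FC N, realizeC N f = algebraMap Hol Mer H := by
  obtain ⟨R, P, n, hR, hrel⟩ := exists_poly_relation N H hinv hgr
  refine ⟨(∑ r ∈ Finset.range n, aeval (jC N) (P r) * (jdC N N dvd_rfl) ^ r) / aeval (jC N) R, ?_⟩
  have hR' : algebraMap Hol Mer (aeval jH R) ≠ 0 := algebraMap_ne_zero hR
  rw [map_div₀, realizeC_aeval_jC, div_eq_iff hR', map_sum]
  have h2 := congrArg (algebraMap Hol Mer) hrel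
  rw [map_mul, map_sum] at h2
  rw [mul_comm, h2]
  refine Finset.sum_congr rfl fun r _ => ?_
  rw [map_mul, map_mul, map_pow, map_pow, realizeC_aeval_jC, realizeC_jdC]

/-- **(F3)** quotients: `F = H / Q` with `H`, `Q` invariant holomorphic of moderate growth. -/
theorem exists_realizeC_eq_div (H Q : Hol) (hQ : Q ≠ 0)
    (hHinv : ∀ γ ∈ Gamma0 N, compSL γ H = H) (hHgr : ModerateGrowth N (H : ℍ → ℂ))
    (hQinv : ∀ γ ∈ Gamma0 N, compSL γ Q = Q) (hQgr : ModerateGrowth N (Q : ℍ → ℂ))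
    (F : Mer) (hF : algebraMap Hol Mer Q * F = algebraMap Hol Mer H) :
    ∃ f : FC N, realizeC N f = F := by
  obtain ⟨h, hh⟩ := exists_realizeC_eq_hol N H hHinv hHgr
  obtain ⟨q, hq⟩ := exists_realizeC_eq_hol N Q hQinv hQgr
  refine ⟨h / q, ?_⟩
  have hQ' : algebraMap Hol Mer Q ≠ 0 := algebraMap_ne_zero hQ
  rw [map_div₀, hh, hq, div_eq_iff hQ', mul_comm, hF]

end RealizeC

end Fermat.Agent.GJ.Dict.FieldGen
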