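import Mathlib
import Fermat.Agent.S24_helper82.HolOrd

/-!
# GATE-J / J2-DICT-5 (c): removable singularities in `Mer = Frac Hol`

* `dvd_of_ordNat_le` : in the ring `Hol` of holomorphic functions on `ℍ`, `b ∣ a` as soon as
  `ord_τ b ≤ ord_τ a` at every point `τ`.
* `exists_hol_of_ordM_nonneg` : an element of `Mer` all of whose orders are `≥ 0` is holomorphic.
* `exists_hol_of_pow` : `Hol` is "root closed" in `Mer`: `m ^ p ∈ Hol`, `0 < p` ⇒ `m ∈ Hol`.
-/

set_option autoImplicit false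

noncomputable section

namespace Fermat.Agent.GJ.Dict.OrdHol

open UpperHalfPlane Complex Filter Topology Fermat.Agent.S24_helper82
open scoped Manifold

theorem analyticOrderAt_coe {f : Hol} (hf : f ≠ 0) (τ : ℍ) :
    analyticOrderAt ((f : ℍ → ℂ) ∘ ofComplex) (τ : ℂ) = (ordNat τ f : ℕ∞) :=
  (coe_ordNat hf τ).symm

theorem meromorphicOrderAt_coe {f : Hol} (hf : f ≠ 0) (τ : ℍ) :
    meromorphicOrderAt ((f : ℍ → ℂ) ∘ ofComplex) (τ : ℂ) = ((ordNat τ f : ℤ) : WithTop ℤ) := by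
  rw [(analyticAt_of_mem_Hol f.2 τ).meromorphicOrderAt_eq, analyticOrderAt_coe hf τ,
    ENat.map_natCast]

theorem eventually_ne_zero {f : Hol} (hf : f ≠ 0) (τ : ℍ) :
    ∀ᶠ z in 𝓝[≠] (τ : ℂ), ((f : ℍ → ℂ) ∘ ofComplex) z ≠ 0 := by
  rcases (analyticAt_of_mem_Hol f.2 τ).eventually_eq_zero_or_eventually_ne_zero with h | h
  · exfalso
    have h1 : ordAt τ (f : ℍ → ℂ) = ⊤ := analyticOrderAt_eq_top.mpr h
    exact ordAt_ne_top hf τ h1
  · exact h

/-- **Divisibility in `Hol` is detected by the orders.** -/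
theorem dvd_of_ordNat_le {a b : Hol} (hb : b ≠ 0) (h : ∀ τ : ℍ, ordNat τ b ≤ ordNat τ a) :
    b ∣ a := by
  by_cases ha : a = 0
  · subst ha; exact dvd_zero b
  set A : ℂ → ℂ := (a : ℍ → ℂ) ∘ ofComplex with hA
  set B : ℂ → ℂ := (b : ℍ → ℂ) ∘ ofComplex with hB
  have hAan : AnalyticOnNhd ℂ A uhpSet := analyticOnNhd_of_mem_Hol a.2
  have hBan : AnalyticOnNhd ℂ B uhpSet := analyticOnNhd_of_mem_Hol b.2
  have hG : MeromorphicOn (A / B) uhpSet := fun z hz =>
    (hAan z hz).meromorphicAt.div (hBan z hz).meromorphicAt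
  set C : ℂ → ℂ := toMeromorphicNFOn (A / B) uhpSet with hC
  -- `C` is analytic on the upper half plane
  have hCan : AnalyticOnNhd ℂ C uhpSet := by
    intro z hz
    have hnf : MeromorphicNFAt C z := meromorphicNFOn_toMeromorphicNFOn (A / B) uhpSet hz
    rw [← hnf.meromorphicOrderAt_nonneg_iff_analyticAt, hC,
      meromorphicOrderAt_toMeromorphicNFOn hG hz,
      meromorphicOrderAt_div (hAan z hz).meromorphicAt (hBan z hz).meromorphicAt]
    have e1 := meromorphicOrderAt_coe ha ⟨z, hz⟩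
    have e2 := meromorphicOrderAt_coe hb ⟨z, hz⟩
    have e3 : ((⟨z, hz⟩ : ℍ) : ℂ) = z := rfl
    rw [e3] at e1 e2
    rw [← hA] at e1
    rw [← hB] at e2
    rw [e1, e2]
    have := h ⟨z, hz⟩
    have h4 : ((ordNat ⟨z, hz⟩ a : ℤ) : WithTop ℤ) - ((ordNat ⟨z, hz⟩ b : ℤ) : WithTop ℤ)
        = (((ordNat ⟨z, hz⟩ a : ℤ) - (ordNat ⟨z, hz⟩ b : ℤ) : ℤ) : WithTop ℤ) := by
      norm_cast
    rw [h4]
    have h5 : (0 : ℤ) ≤ (ordNat ⟨z, hz⟩ a : ℤ) - (ordNat ⟨z, hz⟩ b : ℤ) := by omega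
    exact_mod_cast h5
  -- `A = B * C` on the upper half plane
  have hEq : Set.EqOn A (B * C) uhpSet := by
    have hI : ((UpperHalfPlane.I : ℍ) : ℂ) ∈ uhpSet := coe_mem_uhpSet _
    refine hAan.eqOn_of_preconnected_of_frequently_eq (hBan.mul hCan) isPreconnected_uhpSet hI ?_
    apply Filter.Eventually.frequently
    have h1 : C =ᶠ[𝓝[≠] ((UpperHalfPlane.I : ℍ) : ℂ)] (A / B) :=
      hG.toMeromorphicNFOn_eq_self_on_nhdsNE hI
    filter_upwards [h1, eventually_ne_zero hb UpperHalfPlane.I] with z hz1 hz2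
    have hz3 : B z ≠ 0 := hz2
    rw [Pi.mul_apply, hz1, Pi.div_apply, mul_div_cancel₀ _ hz3]
  -- back to the upper half plane
  have hcmem : (fun τ : ℍ => C (τ : ℂ)) ∈ Hol := by
    rw [mem_Hol_iff, UpperHalfPlane.mdifferentiable_iff]
    have h1 : DifferentiableOn ℂ C uhpSet := hCan.differentiableOn
    refine h1.congr fun z hz => ?_
    show C ((ofComplex z : ℍ) : ℂ) = C z
    rw [ofComplex_apply_of_im_pos hz]
  refine ⟨⟨fun τ : ℍ => C (τ : ℂ), hcmem⟩, ?_⟩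
  apply Subtype.ext
  funext τ
  have := hEq (coe_mem_uhpSet τ)
  simp only [hA, hB, Function.comp_apply, Pi.mul_apply, ofComplex_apply] at this
  exact this

/-- **Removable singularities**: a meromorphic function with no poles is holomorphic. -/
theorem exists_hol_of_ordM_nonneg (m : Mer) (h : ∀ τ : ℍ, 0 ≤ ordM τ m) :
    ∃ f : Hol, algebraMap Hol Mer f = m := by
  by_cases hm : m = 0
  · exact ⟨0, by rw [hm, map_zero]⟩
  obtain ⟨a, b, ha, hb, rfl⟩ := exists_div_eq m hm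
  have hle : ∀ τ : ℍ, ordNat τ b ≤ ordNat τ a := by
    intro τ
    have := h τ
    rw [ordM_mk τ ha hb] at this
    omega
  obtain ⟨c, hc⟩ := dvd_of_ordNat_le hb hle
  refine ⟨c, ?_⟩
  rw [eq_div_iff (algebraMap_ne_zero hb), hc, map_mul, mul_comm]

/-- `Hol` is root closed in `Mer`. -/
theorem exists_hol_of_pow {p : ℕ} (hp : 0 < p) (m : Mer) (G : Hol)
    (h : m ^ p = algebraMap Hol Mer G) : ∃ f : Hol, algebraMap Hol Mer f = m := by
  by_cases hG : G = 0
  · refine ⟨0, ?_⟩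
    rw [hG, map_zero] at h
    rw [map_zero, (pow_eq_zero_iff hp.ne').mp h]
  apply exists_hol_of_ordM_nonneg
  intro τ
  have h1 : ordM τ (m ^ p) = (ordNat τ G : ℤ) := by rw [h, ordM_algebraMap τ hG]
  rw [ordM_pow] at h1
  have hp' : (0 : ℤ) < (p : ℤ) := by exact_mod_cast hp
  have h2 : (0 : ℤ) ≤ (p : ℤ) * ordM τ m := by rw [h1]; positivity
  by_contra hneg
  push Not at hneg
  nlinarith

end Fermat.Agent.GJ.Dict.OrdHol
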