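import Mathlib
import Fermat.Agent.GJ.J2.Dict.FieldGen
import Fermat.Agent.GJ.J2.Dict.OrdHol

/-!
# GATE-J / J2-DICT-5 (d): corollaries of field generation over `ℂ`

* `IMG N` : the `ℂ`-algebra of `Γ₀(N)`-invariant holomorphic functions of moderate growth;
* `mem_range_realizeC_iff` : the image of `FC N` in `Mer` is exactly the set of quotients of
  elements of `IMG N`;
* `exists_realizeC_eq_of_pow` (**F5**, the core of the Kummer map): a `Γ₀(N)`-invariant element of
  `Mer` whose `p`-th power is in the image of `FC N` is itself in the image;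
* `eq_const_of_bounded` (**F7**): an invariant holomorphic function bounded at all cusps is
  constant.
-/

set_option autoImplicit false
set_option linter.unusedSectionVars false

noncomputable section

namespace Fermat.Agent.GJ.Dict.FieldGen

open UpperHalfPlane ModularCurve Fermat.Agent.S24 Fermat.Agent.S28 Fermat.Agent.S28.CuspExp
open Fermat.Agent.S24_helper62 Fermat.Agent.S24_helper82 Fermat.Agent.GJ.Dict
open Fermat.Agent.GJ.Dict.OrdHol
open CongruenceSubgroup Function.Periodic Polynomial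
open scoped MatrixGroups Manifold ModularForm

section IMG

variable (N : ℕ) [NeZero N]

/-- `Γ₀(N)`-invariant holomorphic functions of moderate growth at all cusps -/
def IMG : Subalgebra ℂ Hol where
  carrier := {f | f ∈ MG N ∧ ∀ γ ∈ Gamma0 N, compSL γ f = f}
  mul_mem' := fun {_ _} hf hg => ⟨(MG N).mul_mem hf.1 hg.1, fun γ hγ => by
    rw [map_mul, hf.2 γ hγ, hg.2 γ hγ]⟩
  one_mem' := ⟨(MG N).one_mem, fun γ _ => map_one _⟩
  add_mem' := fun {_ _} hf hg => ⟨(MG N).add_mem hf.1 hg.1, fun γ hγ => by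
    rw [map_add, hf.2 γ hγ, hg.2 γ hγ]⟩
  zero_mem' := ⟨(MG N).zero_mem, fun γ _ => map_zero _⟩
  algebraMap_mem' := fun c => ⟨(MG N).algebraMap_mem c, fun γ _ => AlgHom.commutes _ c⟩

theorem mem_IMG_iff {f : Hol} :
    f ∈ IMG N ↔ ModerateGrowth N (f : ℍ → ℂ) ∧ ∀ γ ∈ Gamma0 N, compSL γ f = f := Iff.rfl

theorem genHol_mem_IMG (d : DivIdx N) : genHol N d ∈ IMG N :=
  ⟨jDilHol_mem_MG N _ d.2, fun _ hγ => compSL_jDilHol N _ d.2 hγ⟩

theorem aeval_genHol_mem_IMG (P : MvPolynomial (DivIdx N) ℂ) :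
    MvPolynomial.aeval (genHol N) P ∈ IMG N := by
  have h : MvPolynomial.aeval (genHol N) P ∈ Algebra.adjoin ℂ (Set.range (genHol N)) := by
    rw [Algebra.adjoin_range_eq_range_aeval]
    exact ⟨P, rfl⟩
  exact Algebra.adjoin_le (S := IMG N) (by rintro _ ⟨d, rfl⟩; exact genHol_mem_IMG N d) h

/-- the generators of `FC N` -/
def genC (d : DivIdx N) : FC N := ⟨jFam ℂ N d, jFam_mem_FC N d⟩

theorem realizeC_genC (d : DivIdx N) : realizeC N (genC N d) = genM N d :=
  realizeC_jdC N d.1 d.2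

theorem realizeC_aeval_genC (P : MvPolynomial (DivIdx N) ℂ) :
    realizeC N (MvPolynomial.aeval (genC N) P) =
      algebraMap Hol Mer (MvPolynomial.aeval (genHol N) P) := by
  have h0 := MvPolynomial.comp_aeval_apply (f := genC N) (realizeC N) P
  have h : (fun d => realizeC N (genC N d)) = genM N := funext (realizeC_genC N)
  rw [h0, h, aeval_genM_C]

/-- every element of `FC N` is a quotient of polynomials in the generators -/
theorem exists_aeval_div (f : FC N) : ∃ r s : MvPolynomial (DivIdx N) ℂ,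
    f = MvPolynomial.aeval (genC N) r / MvPolynomial.aeval (genC N) s := by
  have hf : (f : LaurentSeries ℂ) ∈ IntermediateField.adjoin ℂ (Set.range (jFam ℂ N)) := by
    rw [← FC_eq_adjoin]
    exact f.2
  obtain ⟨r, s, hrs⟩ := (IntermediateField.mem_adjoin_range_iff ℂ (jFam ℂ N) _).mp hf
  refine ⟨r, s, Subtype.ext ?_⟩
  have hval : ∀ P : MvPolynomial (DivIdx N) ℂ,
      ((MvPolynomial.aeval (genC N) P : FC N) : LaurentSeries ℂ) =
        MvPolynomial.aeval (jFam ℂ N) P := by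
    intro P
    have := MvPolynomial.comp_aeval_apply (f := genC N) (FCfield N).val P
    exact this
  rw [hrs]
  show _ = ((FCfield N).val (MvPolynomial.aeval (genC N) r / MvPolynomial.aeval (genC N) s))
  rw [map_div₀]
  show _ = ((MvPolynomial.aeval (genC N) r : FC N) : LaurentSeries ℂ) /
    ((MvPolynomial.aeval (genC N) s : FC N) : LaurentSeries ℂ)
  rw [hval, hval]

/-- **Image of the function field**: every element of `realizeC N (FC N)` is a quotient of
`Γ₀(N)`-invariant holomorphic functions of moderate growth. -/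
theorem exists_IMG_div (f : FC N) : ∃ H Q : Hol, H ∈ IMG N ∧ Q ∈ IMG N ∧ Q ≠ 0 ∧
    algebraMap Hol Mer Q * realizeC N f = algebraMap Hol Mer H := by
  obtain ⟨r, s, rfl⟩ := exists_aeval_div N f
  by_cases hs : MvPolynomial.aeval (genHol N) s = 0
  · refine ⟨0, 1, (IMG N).zero_mem, (IMG N).one_mem, one_ne_zero, ?_⟩
    rw [map_div₀, realizeC_aeval_genC N s, hs, map_zero, div_zero, mul_zero]
  · refine ⟨MvPolynomial.aeval (genHol N) r, MvPolynomial.aeval (genHol N) s,
      aeval_genHol_mem_IMG N r, aeval_genHol_mem_IMG N s, hs, ?_⟩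
    rw [map_div₀, realizeC_aeval_genC, realizeC_aeval_genC,
      mul_div_cancel₀ _ (algebraMap_ne_zero hs)]

/-- **Characterisation of the image of `FC N` in `Mer`.** -/
theorem mem_range_realizeC_iff (F : Mer) :
    (∃ f : FC N, realizeC N f = F) ↔ ∃ H Q : Hol, H ∈ IMG N ∧ Q ∈ IMG N ∧ Q ≠ 0 ∧
      algebraMap Hol Mer Q * F = algebraMap Hol Mer H := by
  constructor
  · rintro ⟨f, rfl⟩
    exact exists_IMG_div N f
  · rintro ⟨H, Q, hH, hQ, hQ0, h⟩
    exact exists_realizeC_eq_div N H Q hQ0 hH.2 hH.1 hQ.2 hQ.1 F h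

end IMG

section Root

variable {N : ℕ} [NeZero N]

/-- moderate growth passes to `p`-th roots -/
theorem ModerateGrowth.of_pow {p : ℕ} (hp : 0 < p) {f : ℍ → ℂ}
    (h : ModerateGrowth N (f ^ p)) : ModerateGrowth N f := by
  intro g
  obtain ⟨m, hm⟩ := h g
  refine ⟨m, ?_⟩
  rw [UpperHalfPlane.isBoundedAtImInfty_iff] at hm ⊢
  obtain ⟨M, A, hMA⟩ := hm
  refine ⟨max M 1, A, fun z hz => ?_⟩
  have h1 := hMA z hz
  simp only [Pi.pow_apply] at h1
  set x := ‖qParam (N : ℝ) (z : ℂ) ^ m * f (g • z)‖ with hx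
  have hq : ‖qParam (N : ℝ) (z : ℂ)‖ ≤ 1 :=
    (norm_qParam_lt_one (natCast_pos' (N := N)) z.im_pos).le
  have hxp : x ^ p ≤ M := by
    have e : x ^ p = ‖qParam (N : ℝ) (z : ℂ)‖ ^ (m * (p - 1)) *
        ‖qParam (N : ℝ) (z : ℂ) ^ m * f (g • z) ^ p‖ := by
      rw [hx, norm_mul, norm_mul, norm_pow, norm_pow, mul_pow, ← pow_mul, ← mul_assoc, ← pow_add]
      congr 2
      obtain ⟨k, rfl⟩ : ∃ k, p = k + 1 := ⟨p - 1, by omega⟩
      simp only [Nat.add_sub_cancel]
      ring
    rw [e]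
    calc _ ≤ 1 * ‖qParam (N : ℝ) (z : ℂ) ^ m * f (g • z) ^ p‖ :=
          mul_le_mul_of_nonneg_right (pow_le_one₀ (norm_nonneg _) hq) (norm_nonneg _)
      _ ≤ M := by rw [one_mul]; exact h1
  rcases le_total x 1 with hx1 | hx1
  · exact hx1.trans (le_max_right _ _)
  · exact (le_self_pow₀ hx1 hp.ne').trans (hxp.trans (le_max_left _ _))

variable (N)

/-- **(F5) Invariant `p`-th roots of modular functions are modular functions.**  This is the core
of the injectivity of the Kummer map `κ_ℂ`. -/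
theorem exists_realizeC_eq_of_pow {p : ℕ} (hp : 0 < p) (F : Mer)
    (hinv : ∀ γ ∈ Gamma0 N, compM γ F = F) (f : FC N) (hpow : F ^ p = realizeC N f) :
    ∃ f' : FC N, realizeC N f' = F := by
  obtain ⟨H, Q, hH, hQ, hQ0, hrel⟩ := exists_IMG_div N f
  -- `(Q F)^p = H Q^(p-1)` is holomorphic
  obtain ⟨k, rfl⟩ : ∃ k, p = k + 1 := ⟨p - 1, by omega⟩
  have h1 : (algebraMap Hol Mer Q * F) ^ (k + 1) = algebraMap Hol Mer (H * Q ^ k) := by
    rw [mul_pow, hpow, pow_succ, mul_assoc, hrel, map_mul, map_pow, mul_comm]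
  obtain ⟨W, hW⟩ := exists_hol_of_pow hp _ _ h1
  have hWp : W ^ (k + 1) = H * Q ^ k := by
    apply IsFractionRing.injective Hol Mer
    rw [map_pow, hW, h1]
  have hWmem : W ∈ IMG N := by
    refine ⟨?_, fun γ hγ => ?_⟩
    · apply ModerateGrowth.of_pow (N := N) hp
      have : ((W : ℍ → ℂ)) ^ (k + 1) = ((W ^ (k + 1) : Hol) : ℍ → ℂ) := rfl
      rw [this, hWp]
      exact ((IMG N).mul_mem hH ((IMG N).pow_mem hQ k)).1
    · apply IsFractionRing.injective Hol Mer
      rw [← compM_algebraMap, hW, map_mul, hinv γ hγ, compM_algebraMap, hQ.2 γ hγ]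
  exact (mem_range_realizeC_iff N F).mpr ⟨W, Q, hWmem, hQ, hQ0, hW.symm⟩

end Root

section Const

variable (N : ℕ) [NeZero N]

/-- **(F7)** a `Γ₀(N)`-invariant holomorphic function that is bounded at every cusp is constant. -/
theorem eq_const_of_bounded (H : Hol) (hinv : ∀ γ ∈ Gamma0 N, compSL γ H = H)
    (hbdd : ∀ g : SL(2, ℤ), IsBoundedAtImInfty fun z : ℍ => (H : ℍ → ℂ) (g • z)) :
    ∃ c : ℂ, H = algebraMap ℂ Hol c := by
  have hslash : ∀ γ : SL(2, ℤ), ((H : ℍ → ℂ) ∣[(0 : ℤ)] γ) = fun z => (H : ℍ → ℂ) (γ • z) := by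
    intro γ
    funext z
    rw [ModularForm.SL_slash_apply]
    simp
  let F : ModularForm (Gamma0 N) 0 :=
    { toFun := (H : ℍ → ℂ)
      slash_action_eq' := by
        rintro _ ⟨γ, hγ, rfl⟩
        show ((H : ℍ → ℂ) ∣[(0 : ℤ)] γ) = _
        rw [hslash]
        funext z
        exact congrFun (congrArg Subtype.val (hinv γ hγ)) z
      holo' := H.2
      bdd_at_cusps' := fun {c} hc => by
        rw [OnePoint.isBoundedAt_iff_forall_SL2Z (hc.mono (Subgroup.map_le_range _ _))]
        intro γ _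
        rw [hslash]
        exact hbdd γ }
  obtain ⟨c, hc⟩ := ModularForm.eq_const_of_weight_zero F
  refine ⟨c, Subtype.ext ?_⟩
  exact hc

end Const

end Fermat.Agent.GJ.Dict.FieldGen
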