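import Mathlib
import Fermat.Agent.S24_helper82.Realize2
import Fermat.Agent.GJ.J2.Dict.RealizeC

/-!
# T24 / M7: the interior valuations `ord_{τ₀} ∘ SigC g` on the function field of `X₀(N)`

For `τ₀ : ℍ` and `g ∈ SL(2,ℤ)` the integer valuation `VC N τ₀ g f = ord_{τ₀} (f~ ∘ g⁻¹)` on
`FC N`; it only depends on the coset `g Γ₀(N)`.  We provide the inputs `hVx`, `hsymm`, `hg`, `hdiv`
of `LOC.orbit_lemma` and the injectivity of `q ↦ SigC N q.out`.
-/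

set_option autoImplicit false

noncomputable section

namespace Fermat.Agent.GJ.Dict

open UpperHalfPlane ModularCurve Fermat.Agent.S24 Fermat.Agent.S28 Fermat.Agent.S28.CuspExp
open Fermat.Agent.S24_helper62 Fermat.Agent.S20_helper25 Fermat.Agent.S24_helper82
open scoped MatrixGroups Manifold

/-! ### The valuation `ord_{τ₀}` on `Mer` -/

/-- the valuation `ord_{τ₀}` on `Mer` as an `IntVal` over `ℚ̄` -/
def merIntValC (τ₀ : ℍ) : IntVal ℂ Mer where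
  toFun := ordM τ₀
  map_mul' hf hg := ordM_mul τ₀ hf hg
  map_add' hf hg hfg := min_ordM_le_add τ₀ hf hg hfg
  map_algebraMap' c hc := by
    exact ordM_const τ₀ hc

@[simp] theorem merIntValC_apply (τ₀ : ℍ) (m : Mer) : merIntValC τ₀ m = ordM τ₀ m := rfl

section Val

variable (N : ℕ) [NeZero N]

/-- the valuation `f ↦ ord_{τ₀} (f~ ∘ g⁻¹)` on `FC N` -/
def VC (τ₀ : ℍ) (g : SL(2, ℤ)) : IntVal ℂ (FC N) := IntVal.comap (SigC N g) (merIntValC τ₀)

theorem VC_apply (τ₀ : ℍ) (g : SL(2, ℤ)) (f : FC N) : VC N τ₀ g f = ordM τ₀ (SigC N g f) := rfl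

theorem VC_apply' (τ₀ : ℍ) (g : SL(2, ℤ)) (f : FC N) :
    VC N τ₀ g f = ordM (g⁻¹ • τ₀) (realizeC N f) := by
  rw [VC_apply, SigC_apply, ordM_compM]

theorem VC_eq_of_coset_eq (τ₀ : ℍ) {g g' : SL(2, ℤ)} (h : (g : I0 N) = (g' : I0 N)) :
    VC N τ₀ g = VC N τ₀ g' := by
  ext f
  rw [VC_apply, VC_apply, SigC_eq_of_coset_eq N h]

/-- the valuation attached to a coset -/
def VqC (τ₀ : ℍ) (q : I0 N) : IntVal ℂ (FC N) := VC N τ₀ q.out

theorem VqC_mk (τ₀ : ℍ) (g : SL(2, ℤ)) : VqC N τ₀ (g : I0 N) = VC N τ₀ g :=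
  VC_eq_of_coset_eq N τ₀ (QuotientGroup.out_eq' (g : I0 N))

theorem VqC_mk_apply (τ₀ : ℍ) (g : SL(2, ℤ)) (f : FC N) :
    VqC N τ₀ (g : I0 N) f = ordM (g⁻¹ • τ₀) (realizeC N f) := by
  rw [VqC_mk, VC_apply']

/-! ### `hsymm` -/

/-- **hsymm**: left multiplication by an element of the stabiliser of `τ₀` does not change the
valuation. -/
theorem VC_mul_left_of_fixed {τ₀ : ℍ} {s : SL(2, ℤ)} (hs : s • τ₀ = τ₀) (g : SL(2, ℤ)) :
    VC N τ₀ (s * g) = VC N τ₀ g := by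
  ext f
  have hs' : s⁻¹ • τ₀ = τ₀ := by
    rw [inv_smul_eq_iff, hs]
  rw [VC_apply, VC_apply, SigC_mul_left, ordM_compM, hs']

theorem VqC_smul_of_fixed {τ₀ : ℍ} {s : SL(2, ℤ)} (hs : s • τ₀ = τ₀) (q : I0 N) (f : FC N) :
    VqC N τ₀ (s • q) f = VqC N τ₀ q f := by
  induction q using QuotientGroup.induction_on with
  | H g =>
    have : s • (g : I0 N) = ((s * g : SL(2, ℤ)) : I0 N) := rfl
    rw [this, VqC_mk, VqC_mk, VC_mul_left_of_fixed N hs]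

/-! ### `hg` -/

/-! ### `hdiv` -/

/-- an element fixing the coset of `g` fixes the translate `SigC N g f` -/
theorem compM_SigC_of_smul_eq {t g : SL(2, ℤ)} (h : t • (g : I0 N) = (g : I0 N)) (f : FC N) :
    compM t (SigC N g f) = SigC N g f := by
  have h1 : t • (g : I0 N) = ((t * g : SL(2, ℤ)) : I0 N) := rfl
  rw [h1, QuotientGroup.eq] at h
  -- `(t g)⁻¹ g = g⁻¹ t⁻¹ g ∈ Γ₀(N)`
  have h2 : g⁻¹ * t * g ∈ CongruenceSubgroup.Gamma0 N := by
    have := inv_mem h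
    rwa [mul_inv_rev, inv_inv, ← mul_assoc] at this
  have h3 : g⁻¹ * t = (g⁻¹ * t * g) * g⁻¹ := by group
  rw [SigC_apply, ← compM_mul, h3, compM_mul, compM_realizeC_of_mem_Gamma0 N h2]

/-- **hdiv, core**: if `t` fixes `τ₀` with multiplier a primitive `k`-th root of unity and `t` fixes
the coset `q`, then `k` divides all values of `VqC N τ₀ q`. -/
theorem dvd_VqC_of_fixed {τ₀ : ℍ} {t : SL(2, ℤ)} (ht : t • τ₀ = τ₀) {k : ℕ}
    (hk : IsPrimitiveRoot (mult t τ₀) k) {q : I0 N} (hq : t • q = q) (f : FC N) :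
    (k : ℤ) ∣ VqC N τ₀ q f := by
  induction q using QuotientGroup.induction_on with
  | H g =>
    rw [VqC_mk, VC_apply]
    exact dvd_ordM_of_fixed ht hk (compM_SigC_of_smul_eq N hq f)

end Val

/-! ### `hVx`: the value at `j - c` -/

section Value

variable (N : ℕ) [NeZero N]

theorem SigC_jC_sub (g : SL(2, ℤ)) (c : ℂ) :
    SigC N g (jC N - algebraMap ℂ (FC N) c) =
      algebraMap Hol Mer (jHol - algebraMap ℂ Hol c) := by
  rw [map_sub, SigC_jC, AlgHom.commutes, map_sub,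
    ← IsScalarTower.algebraMap_apply ℂ Hol Mer]
  rfl

/-- **hVx**: the common value of all the `VC N τ₀ g` at `j - c`, `c = j(τ₀)`. -/
theorem VC_jC_sub {τ₀ : ℍ} {c : ℂ} (hc : jFun τ₀ = c) (g : SL(2, ℤ)) :
    VC N τ₀ g (jC N - algebraMap ℂ (FC N) c) = ((Nat.card (Stab τ₀) / 2 : ℕ) : ℤ) := by
  rw [VC_apply, SigC_jC_sub, ordM_algebraMap τ₀ (jHol_sub_ne_zero _), ordNat, ← hc,
    ordAt_jHol_sub]
  rfl

theorem VqC_jC_sub {τ₀ : ℍ} {c : ℂ} (hc : jFun τ₀ = c) (q : I0 N) :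
    VqC N τ₀ q (jC N - algebraMap ℂ (FC N) c) = ((Nat.card (Stab τ₀) / 2 : ℕ) : ℤ) :=
  VC_jC_sub N hc _

theorem jC_sub_ne_zero (c : ℂ) : jC N - algebraMap ℂ (FC N) c ≠ 0 := by
  intro h
  have h1 := congrArg (SigC N 1) h
  rw [SigC_jC_sub, map_zero] at h1
  exact algebraMap_ne_zero (jHol_sub_ne_zero _) h1

/-- the `OrbitData` at an interior point `τ₀` with `j(τ₀) = c` -/
def interiorDataC {τ₀ : ℍ} {c : ℂ} (hc : jFun τ₀ = c) :
    OrbitData ℂ (jC N - algebraMap ℂ (FC N) c) (I0 N) where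
  V := VqC N τ₀
  e₀ := Nat.card (Stab τ₀) / 2
  he₀ := card_Stab_div_two_pos τ₀
  hx0 := jC_sub_ne_zero N c
  hVx q := VqC_jC_sub N hc q

@[simp] theorem interiorDataC_V {τ₀ : ℍ} {c : ℂ} (hc : jFun τ₀ = c) (q : I0 N) :
    (interiorDataC N hc).V q = VqC N τ₀ q := rfl

@[simp] theorem interiorDataC_e₀ {τ₀ : ℍ} {c : ℂ} (hc : jFun τ₀ = c) :
    (interiorDataC N hc).e₀ = Nat.card (Stab τ₀) / 2 := rfl

end Value

/-! ### Injectivity on cosets -/

section Inj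

variable (N : ℕ) [NeZero N]

theorem SigC_jdC (g : SL(2, ℤ)) (d : ℕ) [NeZero d] (hd : d ∣ N) :
    SigC N g (jdC N d hd) =
      algebraMap Hol Mer (compSL g⁻¹ (jDilHol d (Nat.pos_of_ne_zero (NeZero.ne d)))) := by
  rw [SigC_apply, realizeC_jdC, compM_algebraMap]

/-- **Distinctness** of the translates: `SigC N g = SigC N g'` only if `g Γ₀(N) = g' Γ₀(N)`. -/
theorem coset_eq_of_SigC_eq {g g' : SL(2, ℤ)}
    (h : SigC N g (jdC N N dvd_rfl) = SigC N g' (jdC N N dvd_rfl)) : (g : I0 N) = (g' : I0 N) := by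
  rw [SigC_jdC, SigC_jdC] at h
  have h1 := IsFractionRing.injective Hol Mer h
  refine Fermat.Agent.S24_helper66.CosetSep.coset_eq_of_jDil_eq
    (Nat.pos_of_ne_zero (NeZero.ne N)) g g' (fun τ => ?_)
  have h2 := congrArg (fun f : Hol => (f : ℍ → ℂ) τ) h1
  exact h2

/-- the family of embeddings indexed by the cosets -/
def SigQC (q : I0 N) : FC N →ₐ[ℂ] Mer := SigC N q.out

theorem SigQC_mk (g : SL(2, ℤ)) : SigQC N (g : I0 N) = SigC N g :=
  AlgHom.ext fun f => SigC_eq_of_coset_eq N (QuotientGroup.out_eq' (g : I0 N)) f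

theorem SigQC_injective : Function.Injective (SigQC N) := by
  intro q q' h
  have h1 := coset_eq_of_SigC_eq N (g := q.out) (g' := q'.out) (DFunLike.congr_fun h _)
  rwa [QuotientGroup.out_eq', QuotientGroup.out_eq'] at h1

theorem SigQC_jC (q : I0 N) : SigQC N q (jC N) = algebraMap Hol Mer jHol := SigC_jC N _

theorem VqC_apply (τ₀ : ℍ) (q : I0 N) (f : FC N) : VqC N τ₀ q f = ordM τ₀ (SigQC N q f) := rfl

end Inj

/-! ### The specialised forms of `hdiv` -/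

section Div

variable (N : ℕ) [NeZero N]

/-- **hdiv** in the shape of `LOC.orbit_lemma`, for `e₀ = 1`. -/
theorem hdiv_oneC (τ₀ : ℍ) (s : SL(2, ℤ)) (q : I0 N) (h : ℕ) (hh : h ∣ 1) (_hq : s ^ h • q = q)
    (f : FC N) (_hf : f ≠ 0) : (((1 : ℕ) / h : ℕ) : ℤ) ∣ VqC N τ₀ q f := by
  rw [Nat.dvd_one.mp hh]
  simp

/-- **hdiv** in the shape of `LOC.orbit_lemma`, for `e₀ = 2` (`s` of trace `0` fixing `τ₀`). -/
theorem hdiv_twoC {τ₀ : ℍ} {s : SL(2, ℤ)} (hs : s • τ₀ = τ₀) (htr : s 0 0 + s 1 1 = 0)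
    (q : I0 N) (h : ℕ) (hh : h ∣ 2) (hq : s ^ h • q = q) (f : FC N) (_hf : f ≠ 0) :
    (((2 : ℕ) / h : ℕ) : ℤ) ∣ VqC N τ₀ q f := by
  rcases (Nat.dvd_prime Nat.prime_two).mp hh with rfl | rfl
  · rw [pow_one] at hq
    exact dvd_VqC_of_fixed N hs (isPrimitiveRoot_mult_of_trace_zero hs htr) hq f
  · simp

/-- **hdiv** in the shape of `LOC.orbit_lemma`, for `e₀ = 3` (`s` of trace `±1` fixing `τ₀`). -/
theorem hdiv_threeC {τ₀ : ℍ} {s : SL(2, ℤ)} (hs : s • τ₀ = τ₀) (htr : (s 0 0 + s 1 1) ^ 2 = 1)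
    (q : I0 N) (h : ℕ) (hh : h ∣ 3) (hq : s ^ h • q = q) (f : FC N) (_hf : f ≠ 0) :
    (((3 : ℕ) / h : ℕ) : ℤ) ∣ VqC N τ₀ q f := by
  rcases (Nat.dvd_prime Nat.prime_three).mp hh with rfl | rfl
  · rw [pow_one] at hq
    exact dvd_VqC_of_fixed N hs (isPrimitiveRoot_mult_of_trace_sq_one hs htr) hq f
  · simp

end Div

end Fermat.Agent.GJ.Dict
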