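import Mathlib
import Fermat.Agent.S24.Degree
import Fermat.Agent.S28.AnalyticInst
import Fermat.Agent.S28.CosetSymJ
import Fermat.Agent.S24.Comb
import Fermat.Agent.GJ.J2.Dict.InteriorValC

/-!
# GATE-J / J2-DICT (3): the degree `[FC N : ℂ(j)] = [SL₂(ℤ) : Γ₀(N)]` and the norm formula

The translates `SigQC N q : FC N →ₐ[ℂ] Mer`, `q ∈ SL₂(ℤ)/Γ₀(N)`, are ALL the `ℂ`-embeddings of
`FC N` into `Mer` which send `j` to `j`; `[FC N : ℂ(j)]` is their number and the norm/trace are the
product/sum over them.  (Generic core: `S24_helper66.NormEmb`; trace hypothesis: `S28.CosetSym`.)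
-/

set_option autoImplicit false

noncomputable section

namespace Fermat.Agent.GJ.Dict

open UpperHalfPlane ModularCurve IntermediateField Polynomial
open Fermat.Agent.S24 Fermat.Agent.S28 Fermat.Agent.S28.CuspExp
open Fermat.Agent.S24_helper62 Fermat.Agent.S24_helper82 Fermat.Agent.S24_helper66
open scoped MatrixGroups Manifold

variable (N : ℕ) [NeZero N]

/-! ### transcendence of `j` and generators -/

/-- `j` is transcendental over `ℂ` in the function field of `X₀(N)`. -/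
theorem transcendental_jC : Transcendental ℂ (jC N) := by
  have h : Transcendental ℂ ((FCfield N).val (jC N)) := by
    show Transcendental ℂ ((jC N : FC N) : LaurentSeries ℂ)
    rw [coe_jC]
    exact Fermat.Agent.S24.Degree.transcendental_jqModC' ℂ
  intro halg
  exact h (IsAlgebraic.algHom (FCfield N).val halg)

/-- the family of generators `j(q^d)`, `d ∣ N` -/
def genC (d : DivIdx N) : FC N := jdC N d.1 d.2

theorem coe_genC (d : DivIdx N) : ((genC N d : FC N) : LaurentSeries ℂ) = jFam ℂ N d := rfl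

theorem realizeC_genC (d : DivIdx N) : realizeC N (genC N d) = genM N d :=
  realizeC_jdC N d.1 d.2

/-- **FieldGen**: `FC N = ℂ(j(q^d) : d ∣ N)` -/
theorem fieldGenC : IntermediateField.adjoin ℂ (Set.range (genC N)) = ⊤ := by
  apply IntermediateField.map_injective (FCfield N).val
  rw [IntermediateField.adjoin_map]
  have h2 : (⊤ : IntermediateField ℂ (FC N)).map (FCfield N).val = FCfield N := by
    rw [← AlgHom.fieldRange_eq_map, IntermediateField.fieldRange_val]
  rw [h2]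
  have h1 : ((FCfield N).val '' Set.range (genC N) : Set (LaurentSeries ℂ))
      = Set.range (jFam ℂ N) := by
    rw [← Set.range_comp]
    rfl
  rw [h1]
  exact (FC_eq_adjoin N).symm

/-- the `ℂ`-algebra `ℂ[j(q^d) : d ∣ N]` -/
def RNC : Subalgebra ℂ (FC N) := Algebra.adjoin ℂ (Set.range (genC N))

theorem adjoin_RNC : IntermediateField.adjoin ℂ ((RNC N).toSubring : Set (FC N)) = ⊤ := by
  rw [eq_top_iff, ← fieldGenC N]
  exact IntermediateField.adjoin.mono _ _ _ Algebra.subset_adjoin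

theorem mem_RNC_iff {a : FC N} :
    a ∈ RNC N ↔ ∃ P : MvPolynomial (DivIdx N) ℂ, MvPolynomial.aeval (genC N) P = a := by
  rw [RNC, Algebra.adjoin_range_eq_range_aeval]
  rfl

theorem realizeC_aeval_genC (P : MvPolynomial (DivIdx N) ℂ) :
    realizeC N (MvPolynomial.aeval (genC N) P) =
      algebraMap Hol Mer (MvPolynomial.aeval (genHol N) P) := by
  have h : (fun i => realizeC N (genC N i)) = genM N := funext (realizeC_genC N)
  rw [MvPolynomial.comp_aeval_apply, ← aeval_genM_C, h]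

/-! ### the trace hypothesis -/

/-- moderate growth at every cusp of the polynomial expressions in the `j(d z)` -/
theorem exists_bdd_polyFn (P : MvPolynomial (DivIdx N) ℂ) (g : SL(2, ℤ)) :
    ∃ m : ℕ, UpperHalfPlane.IsBoundedAtImInfty fun z : ℍ =>
      Function.Periodic.qParam (N : ℝ) (z : ℂ) ^ m * polyFn N P (g • z) := by
  have h1 : (analyticFacts N).IsMC (fun τ => MvPolynomial.eval
      (fun d : DivIdx N => genFn N d (g • τ)) P) :=
    (analyticFacts N).H.isMC_eval (fun (d : DivIdx N) τ => genFn N d (g • τ))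
      (fun d => (analyticFacts N).isMC_gen g (d, 0)) P
  exact (analyticFacts N).bdd _ h1

theorem polyFn_smul_of_mem_Gamma0 (P : MvPolynomial (DivIdx N) ℂ) {γ : SL(2, ℤ)}
    (hγ : γ ∈ CongruenceSubgroup.Gamma0 N) (z : ℍ) : polyFn N P (γ • z) = polyFn N P z := by
  unfold polyFn
  have e : (fun d => genFn N d (γ • z)) = fun d => genFn N d z :=
    funext fun d => jDil_smul_of_mem_Gamma0 (DivIdx.pos N d) d.2 hγ z
  rw [e]

/-- the sum of the conjugates of a polynomial expression in the `j(d z)` is a polynomial in `j` -/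
theorem exists_poly_sum_cosetFun (P : MvPolynomial (DivIdx N) ℂ) :
    ∃ Q : ℂ[X], ∀ z : ℍ,
      ∑ q : I0 N, polyFn N P ((Quotient.out q : SL(2, ℤ))⁻¹ • z) = Q.eval (jFun z) := by
  obtain ⟨Q, hQ⟩ := CosetSym.exists_poly_esymmFun_Gamma0 (N := N) (J := jFun)
    hauptmodul_jFun.levelOnePoly (f := polyFn N P)
    ((isCE_polyFn N P).mdifferentiable one_pos)
    (fun γ hγ z => polyFn_smul_of_mem_Gamma0 N P hγ z)
    (fun g => exists_bdd_polyFn N P g) 1
  refine ⟨Q, fun z => ?_⟩
  rw [← hQ z, CosetSym.esymmFun, Finset.powersetCard_one, Finset.sum_map]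
  refine Finset.sum_congr rfl fun q _ => ?_
  simp [CosetSym.cosetFun]

/-- **htr**: the trace over the translates of an element of `ℂ[j(q^d)]` is a polynomial in `j` -/
theorem htrC (a : FC N) (ha : a ∈ RNC N) :
    ∃ Q : ℂ[X], aeval (algebraMap Hol Mer jHol) Q = ∑ q, SigQC N q a := by
  obtain ⟨P, rfl⟩ := (mem_RNC_iff N).mp ha
  obtain ⟨Q, hQ⟩ := exists_poly_sum_cosetFun N P
  refine ⟨Q, ?_⟩
  have h1 : ∀ q : I0 N, SigQC N q (MvPolynomial.aeval (genC N) P) =
      algebraMap Hol Mer (compSL (Quotient.out q : SL(2, ℤ))⁻¹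
        (MvPolynomial.aeval (genHol N) P)) := by
    intro q
    show SigC N q.out _ = _
    rw [SigC_apply, realizeC_aeval_genC, compM_algebraMap]
  have h3 : aeval (algebraMap Hol Mer jHol) Q = algebraMap Hol Mer (aeval jHol Q) :=
    Polynomial.aeval_algHom_apply (IsScalarTower.toAlgHom ℂ Hol Mer) jHol Q
  rw [Finset.sum_congr rfl fun q _ => h1 q, ← map_sum, h3]
  congr 1
  apply Subtype.ext
  funext z
  rw [aeval_apply, jHol_apply, ← hQ z]
  have h2 : ((∑ q : I0 N, compSL (Quotient.out q : SL(2, ℤ))⁻¹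
      (MvPolynomial.aeval (genHol N) P) : Hol) : ℍ → ℂ) z =
      ∑ q : I0 N, ((compSL (Quotient.out q : SL(2, ℤ))⁻¹
        (MvPolynomial.aeval (genHol N) P) : Hol) : ℍ → ℂ) z := by
    rw [← evalAt_apply, map_sum]
    rfl
  rw [h2]
  refine Finset.sum_congr rfl fun q _ => ?_
  rw [compSL_apply, coe_aeval_genHol]

/-! ### the degree, the norm, and "all embeddings" -/

/-- the base coset -/
abbrev i0C : I0 N := Fermat.Agent.S24.Degree.i0 N

/-- a polynomial in `j` as an element of `ℂ(j)` -/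
def polyJC (P : ℂ[X]) : ℂ⟮jC N⟯ := aeval (AdjoinSimple.gen ℂ (jC N)) P

theorem coe_polyJC (P : ℂ[X]) : ((polyJC N P : ℂ⟮jC N⟯) : FC N) = aeval (jC N) P := by
  have h := Polynomial.aeval_algHom_apply (ℂ⟮jC N⟯).val (AdjoinSimple.gen ℂ (jC N)) P
  rw [polyJC]
  exact h.symm

theorem map_polyJC {L : Type*} [Field L] [Algebra ℂ L] (φ : FC N →ₐ[ℂ] L) (P : ℂ[X]) :
    φ ((polyJC N P : ℂ⟮jC N⟯) : FC N) = aeval (φ (jC N)) P := by
  rw [coe_polyJC, Polynomial.aeval_algHom_apply]

theorem hjC (q : I0 N) : SigQC N q (jC N) = SigQC N (i0C N) (jC N) := by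
  rw [SigQC_jC, SigQC_jC]

theorem htrC' : ∀ a ∈ (RNC N).toSubring, ∃ c : ℂ⟮jC N⟯,
    ∑ q, SigQC N q a = SigQC N (i0C N) c := by
  intro a ha
  obtain ⟨Q, hQ⟩ := htrC N a ha
  exact ⟨polyJC N Q, by rw [map_polyJC, SigQC_jC, hQ]⟩

/-- `FC N / ℂ(j)` is finite. -/
theorem finiteDimensional_jC : FiniteDimensional ℂ⟮jC N⟯ (FC N) :=
  finiteDimensional_adjoin_simple (i₀ := i0C N) (hjC N) (SigQC_injective N) (RNC N).toSubring
    (adjoin_RNC N) (htrC' N)

/-- `[FC N : ℂ(j)] = [SL₂(ℤ) : Γ₀(N)]`. -/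
theorem finrank_jC : Module.finrank ℂ⟮jC N⟯ (FC N) = Fintype.card (I0 N) :=
  finrank_adjoin_simple_eq_card (i₀ := i0C N) (hjC N) (SigQC_injective N) (RNC N).toSubring
    (adjoin_RNC N) (htrC' N)

/-- **norm formula**: the realisation of the norm is the product of all translates -/
theorem SigQC_norm (f : FC N) (q₀ : I0 N) :
    SigQC N q₀ ((Algebra.norm ℂ⟮jC N⟯ f : ℂ⟮jC N⟯) : FC N) = ∏ q, SigQC N q f := by
  rw [← emb_norm_eq_prod (i₀ := i0C N) (hjC N) (SigQC_injective N) (RNC N).toSubring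
    (adjoin_RNC N) (htrC' N) f]
  exact algHom_eq_on_adjoin_simple (SigQC N q₀) (SigQC N (i0C N)) (jC N) (hjC N q₀) _

/-- **trace formula** -/
theorem SigQC_trace (f : FC N) (q₀ : I0 N) :
    SigQC N q₀ ((Algebra.trace ℂ⟮jC N⟯ (FC N) f : ℂ⟮jC N⟯) : FC N) = ∑ q, SigQC N q f := by
  rw [← emb_trace_eq_sum (i₀ := i0C N) (hjC N) (SigQC_injective N) (RNC N).toSubring
    (adjoin_RNC N) (htrC' N) f]
  exact algHom_eq_on_adjoin_simple (SigQC N q₀) (SigQC N (i0C N)) (jC N) (hjC N q₀) _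

/-- every `ℂ`-embedding of `FC N` into `Mer` which sends `j` to `j` is one of the translates -/
theorem exists_eq_SigQC (τ : FC N →ₐ[ℂ] Mer) (hτ : τ (jC N) = algebraMap Hol Mer jHol) :
    ∃ q, τ = SigQC N q :=
  algHom_mem_range_of_fixes (i₀ := i0C N) (hjC N) (SigQC_injective N) (RNC N).toSubring
    (adjoin_RNC N) (htrC' N) τ (by rw [hτ, SigQC_jC])

theorem card_I0_eq_dedekindPsi : Fintype.card (I0 N) = dedekindPsi N := (Fermat.Agent.S24.Comb.m11 N).1

end Fermat.Agent.GJ.Dict
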