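import Fermat.Agent.GJ.J2.Dict.InteriorOrbitC
import Fermat.Agent.GJ.J2.Dict.DegreeC
import Fermat.Agent.S24.Norm
import Fermat.Agent.S24.DegOne
import Fermat.Agent.S24.InteriorCounts

/-!
# GATE-J / J2-DICT (E1) + (E3, finite part): the places of `ℂ(X₀(N))` at the points of `ℍ`

* `placeAt N τ : Place ℂ (FC N)`, `eAt N τ`, `ordM τ (realizeC N f) = eAt N τ * (placeAt N τ).ord f`;
* `eAt_spec` : `eAt N τ` is the order of an elliptic element of `Γ₀(N)` fixing `τ`;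
* `placeAt_eq_iff` : `placeAt N τ = placeAt N τ'` iff `τ' ∈ Γ₀(N) τ`;
* `exists_placeAt_eq` : every place at which `j` has no pole is some `placeAt N τ`.
-/

set_option autoImplicit false

noncomputable section

namespace Fermat.Agent.GJ.Dict

open UpperHalfPlane ModularCurve IntermediateField AlgebraicCurve MulAction
open Fermat.Agent.S24 Fermat.Agent.S24_helper82 Fermat.Agent.S24_helper62
open Fermat.Agent.S28 Fermat.Agent.S28.CuspExp
open Fermat.Agent.LevelOne_helper29 (jInv jInv_smul)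
open Fermat.Agent.S20_helper25 (Stab mem_Stab card_Stab_smul)
open scoped MatrixGroups

variable (N : ℕ) [NeZero N]

/-- the realization of `FC N` by meromorphic functions on `ℍ`, as a `RealizationC` -/
def realizationC : Interior.RealizationC N where
  ι := RingHom.id ℂ
  R := (realizeC N : FC N →+* Mer)
  R_const a := by
    rw [RingHom.coe_coe, AlgHom.commutes]
    rfl
  jH := jDilHol 1 one_pos
  jH_apply τ := Fermat.Agent.S24.InteriorCounts.jDil_one_eq_jInv τ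
  R_j := realizeC_jC N
  R_inv _ hγ f := compM_realizeC_of_mem_Gamma0 N hγ f

@[simp] theorem realizationC_ι : (realizationC N).ι = RingHom.id ℂ := rfl

@[simp] theorem realizationC_R (f : FC N) : (realizationC N).R f = realizeC N f := rfl

instance isGen_jC : IsGen ℂ (jC N) := ⟨transcendental_jC N, finiteDimensional_jC N⟩

/-- the product formula `hprod` of `InteriorOrbitC` -/
theorem hprodC (f : FC N) (i₀ : I0 N) :
    compM (Quotient.out i₀)⁻¹ ((realizationC N).R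
        (algebraMap ℂ⟮jC N⟯ (FC N) (Algebra.norm ℂ⟮jC N⟯ f)))
      = ∏ i : I0 N, compM (Quotient.out i)⁻¹ ((realizationC N).R f) :=
  SigQC_norm N f i₀

theorem transcendental_jC_sub (c : ℂ) : Transcendental ℂ (jC N - algebraMap ℂ (FC N) c) :=
  Norm.transcendental_sub_algebraMap (transcendental_jC N) c

/-- the `NORM` package at `x = j - c`, with `k = ℂ(j)` -/
theorem norm_packageC (c : ℂ) :
    Finite (Fibre ℂ (jC N - algebraMap ℂ (FC N) c)) ∧
    (∀ f : FC N, f ≠ 0 → ∀ w₀ : Place ℂ (FC N),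
      0 < w₀.ord (jC N - algebraMap ℂ (FC N) c) →
      w₀.ord (algebraMap ℂ⟮jC N⟯ (FC N) (Algebra.norm ℂ⟮jC N⟯ f)) =
        w₀.ord (jC N - algebraMap ℂ (FC N) c) *
          ∑ᶠ w : Fibre ℂ (jC N - algebraMap ℂ (FC N) c), w.1.ord f) ∧
    (∀ w : Fibre ℂ (jC N - algebraMap ℂ (FC N) c), ∃ f : FC N, f ≠ 0 ∧
      w.1.ord f = 1 ∧ ∀ w' : Fibre ℂ (jC N - algebraMap ℂ (FC N) c), w' ≠ w →
        w'.1.ord f = 0) := by
  haveI := finiteDimensional_jC N
  have hk : ℂ⟮jC N⟯ = ℂ⟮jC N - algebraMap ℂ (FC N) c⟯ :=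
    (Norm.adjoin_simple_sub_algebraMap (jC N) c).symm
  haveI : FiniteDimensional ℂ⟮jC N - algebraMap ℂ (FC N) c⟯ (FC N) := by
    rw [← hk]; infer_instance
  exact Norm.fibre_package (jC N - algebraMap ℂ (FC N) c) (transcendental_jC_sub N c)
    ℂ⟮jC N⟯ hk

/-! ### the place at a point of `ℍ` -/

theorem valAt_jC_sub (τ : ℍ) :
    (realizationC N).valAt τ (jC N - algebraMap ℂ (FC N) (jInv τ)) =
      (Nat.card (Stab τ) / 2 : ℕ) := by
  have h := (realizationC N).valAt_sub_const (τ₀ := τ) (c := jInv τ) rfl 1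
  rwa [one_smul] at h

theorem valAt_nontrivial (τ : ℍ) : ((realizationC N).valAt τ).IsNontrivial :=
  ⟨jC N - algebraMap ℂ (FC N) (jInv τ), (realizationC N).sub_const_ne_zero _, by
    rw [valAt_jC_sub]
    exact_mod_cast (Interior.RealizationC.half_card_Stab_pos τ).ne'⟩

/-- the place of `ℂ(X₀(N))` at the image of `τ ∈ ℍ` -/
def placeAt (τ : ℍ) : Place ℂ (FC N) := IntVal.placeOf (valAt_nontrivial N τ)

/-- the ramification index of `ℍ → X₀(N)` at `τ` (`= #Stab_{Γ₀(N)}(τ)/2`, see `eAt_spec`) -/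
def eAt (τ : ℍ) : ℤ := IntVal.mult (valAt_nontrivial N τ)

theorem eAt_pos (τ : ℍ) : 0 < eAt N τ := IntVal.mult_pos _

/-- **(E1)** the order of vanishing of the realisation at `τ` -/
theorem ordM_realizeC (τ : ℍ) {f : FC N} (hf : f ≠ 0) :
    ordM τ (realizeC N f) = eAt N τ * (placeAt N τ).ord f :=
  IntVal.eq_mult_mul_ord (valAt_nontrivial N τ) hf

theorem eAt_mul_ord_jC_sub (τ : ℍ) :
    eAt N τ * (placeAt N τ).ord (jC N - algebraMap ℂ (FC N) (jInv τ)) =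
      (Nat.card (Stab τ) / 2 : ℕ) := by
  rw [← valAt_jC_sub N τ]
  exact (IntVal.eq_mult_mul_ord (valAt_nontrivial N τ)
    ((realizationC N).sub_const_ne_zero _)).symm

theorem ord_placeAt_jC_sub_pos (τ : ℍ) :
    0 < (placeAt N τ).ord (jC N - algebraMap ℂ (FC N) (jInv τ)) := by
  have h := eAt_mul_ord_jC_sub N τ
  have h1 := eAt_pos N τ
  have h2 : (0 : ℤ) < (Nat.card (Stab τ) / 2 : ℕ) := by
    exact_mod_cast Interior.RealizationC.half_card_Stab_pos τ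
  rw [← h] at h2
  by_contra hle
  rw [not_lt] at hle
  nlinarith

theorem placeAt_congr {τ τ' : ℍ}
    (h : ∀ f, (realizationC N).valAt τ f = (realizationC N).valAt τ' f) :
    placeAt N τ = placeAt N τ' ∧ eAt N τ = eAt N τ' :=
  IntVal.placeOf_congr (valAt_nontrivial N τ) (valAt_nontrivial N τ') h

/-- the place only depends on the `Γ₀(N)`-orbit -/
theorem placeAt_smul_of_mem {γ : SL(2, ℤ)} (hγ : γ ∈ CongruenceSubgroup.Gamma0 N) (τ : ℍ) :
    placeAt N (γ • τ) = placeAt N τ ∧ eAt N (γ • τ) = eAt N τ :=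
  placeAt_congr N fun f => (realizationC N).valAt_smul_of_mem hγ τ f

/-! ### base points and the orbit lemma at every finite value of `j` -/

open ModularGroup in
open scoped Modular in
/-- a base point over every value of `j`, with a generator of its stabiliser modulo `±1` -/
theorem exists_base (c : ℂ) : ∃ (τ₀ : ℍ) (s : SL(2, ℤ)), jInv τ₀ = c ∧ s • τ₀ = τ₀ ∧
    (s ^ (Nat.card (Stab τ₀) / 2) = 1 ∨ s ^ (Nat.card (Stab τ₀) / 2) = -1) ∧
    (Nat.card (Stab τ₀) / 2 = 2 → s 0 0 + s 1 1 = 0) ∧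
    (Nat.card (Stab τ₀) / 2 = 3 → (s 0 0 + s 1 1) ^ 2 = 1) := by
  by_cases h1 : c = 1728
  · refine ⟨UpperHalfPlane.I, S, ?_, mem_Stab.mp Fermat.Agent.S20_helper25.S_mem_Stab_I, ?_,
      fun _ => by decide, ?_⟩
    · rw [h1]; exact Fermat.Agent.LevelOne_helper29.jInv_I
    · rw [Fermat.Agent.S20_helper25.card_Stab_I]
      exact Or.inr Fermat.Agent.S20_helper25.S_sq
    · intro h; rw [Fermat.Agent.S20_helper25.card_Stab_I] at h; omega
  by_cases h0 : c = 0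
  · refine ⟨ρ, S * T, ?_, mem_Stab.mp Fermat.Agent.S20_helper25.ST_mem_Stab_rho, ?_, ?_,
      fun _ => by decide⟩
    · rw [h0]; exact Fermat.Agent.LevelOne_helper29.jInv_rho
    · rw [Fermat.Agent.S20_helper25.card_Stab_rho]
      exact Or.inr Fermat.Agent.S20_helper25.ST_pow_three
    · intro h; rw [Fermat.Agent.S20_helper25.card_Stab_rho] at h; omega
  · obtain ⟨τ₀, hτ₀⟩ := Fermat.Agent.S24.LocalOrder.exists_jInv_eq c
    have hcard : Nat.card (Stab τ₀) = 2 := by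
      refine Fermat.Agent.S20_helper25.card_Stab_of_generic (fun g hg => h1 ?_) (fun g hg => h0 ?_)
      · rw [← hτ₀]; exact (Fermat.Agent.S24.LocalOrder.jInv_eq_1728_iff_orbit τ₀).mpr ⟨g, hg⟩
      · rw [← hτ₀]; exact (Fermat.Agent.S24.LocalOrder.jInv_eq_zero_iff_orbit τ₀).mpr ⟨g, hg⟩
    refine ⟨τ₀, 1, hτ₀, one_smul _ _, Or.inl (one_pow _), ?_, ?_⟩ <;> intro h <;>
      rw [hcard] at h <;> omega

/-- **The orbit lemma at `j = j(τ₀)` over `ℂ`**, in terms of `placeAt`, `eAt`. -/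
theorem orbit_equivC {τ₀ : ℍ} {s : SL(2, ℤ)} (hs : s • τ₀ = τ₀)
    (hpow : s ^ (Nat.card (Stab τ₀) / 2) = 1 ∨ s ^ (Nat.card (Stab τ₀) / 2) = -1)
    (h2 : Nat.card (Stab τ₀) / 2 = 2 → s 0 0 + s 1 1 = 0)
    (h3 : Nat.card (Stab τ₀) / 2 = 3 → (s 0 0 + s 1 1) ^ 2 = 1) :
    ∃ φ : orbitRel.Quotient (Subgroup.zpowers s) (I0 N) ≃
        Fibre ℂ (jC N - algebraMap ℂ (FC N) (jInv τ₀)),
      (∀ i : I0 N, (φ (Quotient.mk'' i)).1 = placeAt N ((Quotient.out i)⁻¹ • τ₀)) ∧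
      ∀ i : I0 N, eAt N ((Quotient.out i)⁻¹ • τ₀) *
        (Nat.card (orbit (Subgroup.zpowers s) i) : ℤ) = (Nat.card (Stab τ₀) / 2 : ℕ) := by
  haveI := finiteDimensional_jC N
  obtain ⟨hfin, hN, hWA⟩ := norm_packageC N (jInv τ₀)
  haveI := hfin
  have hc : jInv τ₀ = (realizationC N).ι (jInv τ₀) := rfl
  obtain ⟨φ, hφ1, hφ2⟩ := (realizationC N).orbit_equiv hc ℂ⟮jC N⟯ hN hWA (hprodC N) hs hpow h2 h3
  refine ⟨φ, fun i => ?_, fun i => ?_⟩
  · rw [hφ1 i]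
    rfl
  · have h4 := ((realizationC N).orbitData hc).mult_mul_ord_x i
    have h5 := hφ2 (Quotient.mk'' i)
    rw [hφ1 i] at h5
    rw [h5, orbitRel.Quotient.orbit_mk] at h4
    exact h4

/-! ### exhaustion -/

/-- **(E3), finite part**: every place of `ℂ(X₀(N))` at which `j` has no pole is the place at a
point of `ℍ`. -/
theorem exists_placeAt_eq (P : Place ℂ (FC N)) (hP : ¬ P.ord (jC N) < 0) :
    ∃ τ : ℍ, P = placeAt N τ := by
  rcases PlaceB.pole_or_center P (jC N) with h | ⟨c, hc⟩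
  · exact absurd h hP
  obtain ⟨τ₀, s, hτ₀, hs, hpow, h2, h3⟩ := exists_base c
  subst hτ₀
  obtain ⟨φ, hφ1, -⟩ := orbit_equivC N hs hpow h2 h3
  obtain ⟨o, ho⟩ := φ.surjective ⟨P, hc⟩
  induction o using Quotient.inductionOn' with
  | h i =>
    refine ⟨(Quotient.out i)⁻¹ • τ₀, ?_⟩
    rw [← hφ1 i]
    exact (congrArg Subtype.val ho).symm

/-! ### the ramification index and the fibres of `τ ↦ placeAt N τ` -/

theorem valAt_out_inv_smul (τ₀ : ℍ) (g : SL(2, ℤ)) (f : FC N) :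
    (realizationC N).valAt ((Quotient.out (g : I0 N))⁻¹ • τ₀) f =
      (realizationC N).valAt (g⁻¹ • τ₀) f :=
  (realizationC N).V_mk τ₀ g f

theorem placeAt_out_inv_smul (τ₀ : ℍ) (g : SL(2, ℤ)) :
    placeAt N ((Quotient.out (g : I0 N))⁻¹ • τ₀) = placeAt N (g⁻¹ • τ₀) ∧
      eAt N ((Quotient.out (g : I0 N))⁻¹ • τ₀) = eAt N (g⁻¹ • τ₀) :=
  placeAt_congr N fun f => valAt_out_inv_smul N τ₀ g f

theorem mult_one (τ : ℍ) : mult 1 τ = 1 := by
  simp [mult, den]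

omit [NeZero N] in
theorem conj_mem_Gamma0_of_smul_eq {s g : SL(2, ℤ)} (hi : s • (g : I0 N) = (g : I0 N)) :
    g⁻¹ * s * g ∈ CongruenceSubgroup.Gamma0 N := by
  rw [MulAction.Quotient.smul_mk, QuotientGroup.eq, smul_eq_mul] at hi
  have := inv_mem hi
  simpa [mul_assoc] using this

/-- **(E1), ramification**: `eAt N τ` is the order of an elliptic element of `Γ₀(N)` fixing `τ`
(more precisely of its multiplier). In particular, if `h ∈ Mer` is invariant under the elements of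
`Γ₀(N)` fixing `τ` then `eAt N τ ∣ ordM τ h` (`dvd_ordM_of_fixed`). -/
theorem eAt_spec (τ : ℍ) : ∃ γ ∈ CongruenceSubgroup.Gamma0 N, γ • τ = τ ∧
    IsPrimitiveRoot (mult γ τ) (eAt N τ).toNat := by
  obtain ⟨τ₀, s, hτ₀, hs, hpow, h2, h3⟩ := exists_base (jInv τ)
  obtain ⟨γ, hγ⟩ := (Fermat.Agent.S24.LocalOrder.jInv_eq_iff τ₀ τ).mp hτ₀
  have hτ : τ = (γ⁻¹)⁻¹ • τ₀ := by rw [inv_inv]; exact hγ
  obtain ⟨φ, -, hφ2⟩ := orbit_equivC N hs hpow h2 h3
  have h4 := hφ2 ((γ⁻¹ : SL(2, ℤ)) : I0 N)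
  rw [(placeAt_out_inv_smul N τ₀ γ⁻¹).2, ← hτ] at h4
  have hpos := eAt_pos N τ
  by_cases h1 : eAt N τ = 1
  · refine ⟨1, one_mem _, one_smul _ _, ?_⟩
    rw [h1, mult_one]
    exact IsPrimitiveRoot.one
  · -- the orbit of the coset is a point
    set n := Nat.card (orbit (Subgroup.zpowers s) ((γ⁻¹ : SL(2, ℤ)) : I0 N)) with hn
    have he₀ : Nat.card (Stab τ₀) / 2 = 1 ∨ Nat.card (Stab τ₀) / 2 = 2 ∨
        Nat.card (Stab τ₀) / 2 = 3 := by
      rcases Fermat.Agent.S20_helper25.card_Stab τ₀ with h | h | h <;> rw [h] <;> simp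
    have hn1 : n = 1 ∧ eAt N τ = (Nat.card (Stab τ₀) / 2 : ℕ) := by
      have ha2 : 2 ≤ eAt N τ := by omega
      rcases Nat.lt_or_ge n 2 with hlt | hge
      · interval_cases n
        · rcases he₀ with h | h | h <;> rw [h] at h4 <;> simp at h4
        · exact ⟨rfl, by simpa using h4⟩
      · exfalso
        have : (2 : ℤ) ≤ (n : ℤ) := by exact_mod_cast hge
        rcases he₀ with h | h | h <;> rw [h] at h4 <;> push_cast at h4 <;> nlinarith
    have hfix : s • ((γ⁻¹ : SL(2, ℤ)) : I0 N) = ((γ⁻¹ : SL(2, ℤ)) : I0 N) := by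
      have hsub : Subsingleton (orbit (Subgroup.zpowers s) ((γ⁻¹ : SL(2, ℤ)) : I0 N)) :=
        (Nat.card_eq_one_iff_unique.mp hn1.1).1
      have h5 : s • ((γ⁻¹ : SL(2, ℤ)) : I0 N) ∈
          orbit (Subgroup.zpowers s) ((γ⁻¹ : SL(2, ℤ)) : I0 N) :=
        ⟨⟨s, Subgroup.mem_zpowers s⟩, rfl⟩
      have h6 := hsub.elim ⟨_, h5⟩ ⟨_, mem_orbit_self _⟩
      exact congrArg Subtype.val h6
    have hmem := conj_mem_Gamma0_of_smul_eq N hfix
    have hfixτ : ((γ⁻¹)⁻¹ * s * γ⁻¹) • τ = τ := by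
      rw [hτ, mul_smul, mul_smul, smul_inv_smul, hs]
    refine ⟨(γ⁻¹)⁻¹ * s * γ⁻¹, hmem, hfixτ, ?_⟩
    rw [hn1.2, Int.toNat_natCast]
    rcases he₀ with h | h | h
    · rw [h] at hn1; exact absurd (by simpa using hn1.2) h1
    · rw [h]
      refine isPrimitiveRoot_mult_of_trace_zero hfixτ ?_
      rw [Interior.RealizationC.trace_conj]
      exact h2 h
    · rw [h]
      refine isPrimitiveRoot_mult_of_trace_sq_one hfixτ ?_
      rw [Interior.RealizationC.trace_conj]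
      exact h3 h

theorem eAt_le_three (τ : ℍ) : eAt N τ ≤ 3 := by
  have h := eAt_mul_ord_jC_sub N τ
  have h1 := ord_placeAt_jC_sub_pos N τ
  have h2 := eAt_pos N τ
  have h3 : (Nat.card (Stab τ) / 2 : ℕ) ≤ 3 := by
    rcases Fermat.Agent.S20_helper25.card_Stab τ with h | h | h <;> rw [h] <;> norm_num
  have h4 : ((Nat.card (Stab τ) / 2 : ℕ) : ℤ) ≤ 3 := by exact_mod_cast h3
  nlinarith

theorem zpowers_smul_eq {s : SL(2, ℤ)} {τ₀ : ℍ} (hs : s • τ₀ = τ₀) {z : SL(2, ℤ)}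
    (hz : z ∈ Subgroup.zpowers s) : z • τ₀ = τ₀ := by
  have hle : Subgroup.zpowers s ≤ MulAction.stabilizer SL(2, ℤ) τ₀ :=
    Subgroup.zpowers_le.mpr (MulAction.mem_stabilizer_iff.mpr hs)
  exact MulAction.mem_stabilizer_iff.mp (hle hz)

/-- **(E1), fibres**: two points of `ℍ` give the same place iff they are `Γ₀(N)`-equivalent. -/
theorem placeAt_eq_iff (τ τ' : ℍ) :
    placeAt N τ = placeAt N τ' ↔ ∃ γ ∈ CongruenceSubgroup.Gamma0 N, γ • τ = τ' := by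
  constructor
  · intro h
    have h1 := ord_placeAt_jC_sub_pos N τ
    have h2 := ord_placeAt_jC_sub_pos N τ'
    rw [← h] at h2
    have hj : jInv τ = jInv τ' := PlaceB.center_unique (placeAt N τ) h1 h2
    obtain ⟨τ₀, s, hτ₀, hs, hpow, h2', h3⟩ := exists_base (jInv τ)
    obtain ⟨γ, hγ⟩ := (Fermat.Agent.S24.LocalOrder.jInv_eq_iff τ₀ τ).mp hτ₀
    obtain ⟨γ', hγ'⟩ := (Fermat.Agent.S24.LocalOrder.jInv_eq_iff τ₀ τ').mp (hτ₀.trans hj)
    have hτ : τ = (γ⁻¹)⁻¹ • τ₀ := by rw [inv_inv]; exact hγ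
    have hτ' : τ' = (γ'⁻¹)⁻¹ • τ₀ := by rw [inv_inv]; exact hγ'
    obtain ⟨φ, hφ1, -⟩ := orbit_equivC N hs hpow h2' h3
    have e1 : (φ (Quotient.mk'' ((γ⁻¹ : SL(2, ℤ)) : I0 N))).1 = placeAt N τ := by
      rw [hφ1, (placeAt_out_inv_smul N τ₀ γ⁻¹).1, ← hτ]
    have e2 : (φ (Quotient.mk'' ((γ'⁻¹ : SL(2, ℤ)) : I0 N))).1 = placeAt N τ' := by
      rw [hφ1, (placeAt_out_inv_smul N τ₀ γ'⁻¹).1, ← hτ']
    have e3 : φ (Quotient.mk'' ((γ⁻¹ : SL(2, ℤ)) : I0 N)) =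
        φ (Quotient.mk'' ((γ'⁻¹ : SL(2, ℤ)) : I0 N)) :=
      Subtype.ext (e1.trans (h.trans e2.symm))
    have e4 := φ.injective e3
    have e5 : ((γ⁻¹ : SL(2, ℤ)) : I0 N) ∈
        orbit (Subgroup.zpowers s) ((γ'⁻¹ : SL(2, ℤ)) : I0 N) := Quotient.exact' e4
    obtain ⟨⟨z, hz⟩, hzg⟩ := e5
    have hzτ := zpowers_smul_eq hs hz
    -- `z γ'⁻¹ Γ₀(N) = γ⁻¹ Γ₀(N)`
    have e6 : ((z * γ'⁻¹ : SL(2, ℤ)) : I0 N) = ((γ⁻¹ : SL(2, ℤ)) : I0 N) := hzg
    have e7 : (z * γ'⁻¹)⁻¹ * γ⁻¹ ∈ CongruenceSubgroup.Gamma0 N := QuotientGroup.eq.mp e6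
    refine ⟨((z * γ'⁻¹)⁻¹ * γ⁻¹), e7, ?_⟩
    rw [hγ, hγ', mul_smul, inv_smul_smul, mul_inv_rev, inv_inv, mul_smul]
    congr 1
    rw [inv_smul_eq_iff, hzτ]
  · rintro ⟨γ, hγ, rfl⟩
    exact (placeAt_smul_of_mem N hγ τ).1.symm

end Fermat.Agent.GJ.Dict
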