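import Mathlib
import Fermat.Agent.GJ.J2.Dict.RealizeC
import Fermat.Agent.S24.Degree

/-!
# GATE-J / J2-DICT-4 (helper71), part 1: degree glue for `FC N / ℂ(j)` from a family of embeddings

Port to `ℂ` of the `Kbar`-specific sections of `S24/Degree.lean` (the machinery of
`S24_helper66/NormEmb.lean` is field-generic and used as is).

* `transcendental_jC` : `j` is transcendental over `ℂ` in `FC N`;
* `RNC N` : the `ℂ`-algebra `ℂ[j(q^d) : d ∣ N] ⊆ FC N`, `adjoin_RNC`;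
* `finiteDimensional_of_embeddingsC`, `finrank_of_embeddingsC`, `norm_of_embeddingsC`,
  `algHom_mem_range_of_embeddingsC`, `htr_of_hsymC`.
-/

set_option autoImplicit false

noncomputable section

namespace Fermat.Agent.GJ.Dict.Cusp

open ModularCurve IntermediateField Polynomial Fermat.Agent.S24 Fermat.Agent.GJ.Dict
open Fermat.Agent.S24_helper62
open scoped MatrixGroups

/-- `j` is transcendental over `ℂ` in the function field of `X₀(N)` over `ℂ`. -/
theorem transcendental_jC (N : ℕ) [NeZero N] : Transcendental ℂ (jC N) := by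
  have h : Transcendental ℂ ((FCfield N).val (jC N)) := by
    show Transcendental ℂ ((jC N : FC N) : LaurentSeries ℂ)
    rw [coe_jC]
    exact Degree.transcendental_jqModC' ℂ
  intro halg
  exact h (IsAlgebraic.algHom (FCfield N).val halg)

theorem jC_ne_zero (N : ℕ) [NeZero N] : jC N ≠ 0 := fun h =>
  transcendental_jC N (h ▸ isAlgebraic_zero)

section FieldGen

variable (N : ℕ) [NeZero N]

/-- the set of generators `j(q^d)`, `d ∣ N`, of the function field over `ℂ` -/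
def genSetC : Set (FC N) :=
  {x | ∃ (d : ℕ) (_ : NeZero d) (hd : d ∣ N), x = jdC N d hd}

theorem jdC_mem_genSetC (d : ℕ) [NeZero d] (hd : d ∣ N) : jdC N d hd ∈ genSetC N :=
  ⟨d, ‹_›, hd, rfl⟩

theorem jC_mem_genSetC : jC N ∈ genSetC N := jdC_mem_genSetC N 1 (one_dvd N)

theorem val_image_genSetC :
    ((FCfield N).val '' genSetC N : Set (LaurentSeries ℂ)) = Set.range (jFam ℂ N) := by
  ext x
  constructor
  · rintro ⟨y, ⟨d, hne, hd, rfl⟩, rfl⟩
    exact ⟨⟨d, hd⟩, rfl⟩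
  · rintro ⟨d, rfl⟩
    exact ⟨jdC N d.1 d.2, ⟨d.1, inferInstance, d.2, rfl⟩, rfl⟩

/-- `FC N = ℂ(j(q^d) : d ∣ N)` -/
theorem fieldGenC : IntermediateField.adjoin ℂ (genSetC N) = ⊤ := by
  apply IntermediateField.map_injective (FCfield N).val
  rw [IntermediateField.adjoin_map]
  have h2 : (⊤ : IntermediateField ℂ (FC N)).map (FCfield N).val = FCfield N := by
    rw [← AlgHom.fieldRange_eq_map, IntermediateField.fieldRange_val]
  rw [h2, val_image_genSetC]
  exact (FC_eq_adjoin N).symm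

/-- the `ℂ`-algebra `ℂ[j(q^d) : d ∣ N]` -/
def RNC : Subalgebra ℂ (FC N) := Algebra.adjoin ℂ (genSetC N)

theorem genSetC_subset_RNC : genSetC N ⊆ (RNC N : Set (FC N)) := Algebra.subset_adjoin

theorem jC_mem_RNC : jC N ∈ RNC N := genSetC_subset_RNC N (jC_mem_genSetC N)

theorem adjoin_RNC : IntermediateField.adjoin ℂ ((RNC N).toSubring : Set (FC N)) = ⊤ := by
  rw [eq_top_iff, ← fieldGenC N]
  exact IntermediateField.adjoin.mono _ _ _ (genSetC_subset_RNC N)

end FieldGen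

section Glue

open Fermat.Agent.S24_helper66

variable (N : ℕ) [NeZero N] {L : Type*} [Field L] [Algebra ℂ L]
variable (σ : I0 N → (FC N →ₐ[ℂ] L))

/-- a polynomial in `j` as an element of `ℂ(j)` -/
def polyJC (P : ℂ[X]) : ℂ⟮jC N⟯ := aeval (AdjoinSimple.gen ℂ (jC N)) P

theorem coe_polyJC (P : ℂ[X]) : ((polyJC N P : ℂ⟮jC N⟯) : FC N) = aeval (jC N) P := by
  have h := Polynomial.aeval_algHom_apply (ℂ⟮jC N⟯).val (AdjoinSimple.gen ℂ (jC N)) P
  rw [polyJC]
  exact h.symm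

theorem map_polyJC (φ : FC N →ₐ[ℂ] L) (P : ℂ[X]) :
    φ ((polyJC N P : ℂ⟮jC N⟯) : FC N) = aeval (φ (jC N)) P := by
  rw [coe_polyJC, Polynomial.aeval_algHom_apply]

variable {N σ}
variable (hinj : Function.Injective σ) (J : L) (hJ : ∀ q, σ q (jC N) = J)
  (htr : ∀ a ∈ RNC N, ∃ P : ℂ[X], aeval J P = ∑ q, σ q a)
include hinj hJ htr

omit hinj htr in
theorem hj_of_hJC : ∀ q, σ q (jC N) = σ (Degree.i0 N) (jC N) := fun q => by
  rw [hJ q, hJ (Degree.i0 N)]

omit hinj in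
theorem htr_of_polyC :
    ∀ a ∈ (RNC N).toSubring, ∃ c : ℂ⟮jC N⟯, ∑ q, σ q a = σ (Degree.i0 N) c := by
  intro a ha
  obtain ⟨P, hP⟩ := htr a ha
  exact ⟨polyJC N P, by rw [map_polyJC, hJ (Degree.i0 N), hP]⟩

/-- `FC N / ℂ(j)` is finite. -/
theorem finiteDimensional_of_embeddingsC : FiniteDimensional ℂ⟮jC N⟯ (FC N) :=
  finiteDimensional_adjoin_simple (i₀ := Degree.i0 N) (hj_of_hJC J hJ) hinj (RNC N).toSubring
    (adjoin_RNC N) (htr_of_polyC J hJ htr)

/-- `[FC N : ℂ(j)]` is the number of embeddings. -/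
theorem finrank_of_embeddingsC : Module.finrank ℂ⟮jC N⟯ (FC N) = Fintype.card (I0 N) :=
  finrank_adjoin_simple_eq_card (i₀ := Degree.i0 N) (hj_of_hJC J hJ) hinj (RNC N).toSubring
    (adjoin_RNC N) (htr_of_polyC J hJ htr)

/-- norm formula: the expansion of the norm is the product of all expansions -/
theorem norm_of_embeddingsC (f : FC N) (q₀ : I0 N) :
    σ q₀ ((Algebra.norm ℂ⟮jC N⟯ f : ℂ⟮jC N⟯) : FC N) = ∏ q, σ q f := by
  rw [← emb_norm_eq_prod (i₀ := Degree.i0 N) (hj_of_hJC J hJ) hinj (RNC N).toSubring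
    (adjoin_RNC N) (htr_of_polyC J hJ htr) f]
  exact algHom_eq_on_adjoin_simple (σ q₀) (σ (Degree.i0 N)) (jC N)
    (by rw [hJ q₀, hJ (Degree.i0 N)]) _

/-- trace formula -/
theorem trace_of_embeddingsC (f : FC N) (q₀ : I0 N) :
    σ q₀ ((Algebra.trace ℂ⟮jC N⟯ (FC N) f : ℂ⟮jC N⟯) : FC N) = ∑ q, σ q f := by
  rw [← emb_trace_eq_sum (i₀ := Degree.i0 N) (hj_of_hJC J hJ) hinj (RNC N).toSubring
    (adjoin_RNC N) (htr_of_polyC J hJ htr) f]
  exact algHom_eq_on_adjoin_simple (σ q₀) (σ (Degree.i0 N)) (jC N)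
    (by rw [hJ q₀, hJ (Degree.i0 N)]) _

/-- every `ℂ`-embedding of `FC N` with the same value at `j` is one of the `σ q` -/
theorem algHom_mem_range_of_embeddingsC (τ : FC N →ₐ[ℂ] L) (hτ : τ (jC N) = J) :
    ∃ q, τ = σ q :=
  algHom_mem_range_of_fixes (i₀ := Degree.i0 N) (hj_of_hJC J hJ) hinj (RNC N).toSubring
    (adjoin_RNC N) (htr_of_polyC J hJ htr) τ (by rw [hτ, hJ (Degree.i0 N)])

end Glue

section CuspShape

variable {N : ℕ} [NeZero N] {σ : I0 N → (FC N →ₐ[ℂ] LaurentSeries ℂ)}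

/-- an element of `qExpand ℂ N '' ℂ[j]` is a polynomial in `j(q^N)` -/
theorem exists_poly_of_mem_imageC {y : LaurentSeries ℂ}
    (hy : y ∈ qExpand ℂ N '' (Algebra.adjoin ℂ {jqModC ℂ} : Set (LaurentSeries ℂ))) :
    ∃ P : ℂ[X], aeval (qExpand ℂ N (jqModC ℂ)) P = y := by
  obtain ⟨x, hx, rfl⟩ := hy
  rw [SetLike.mem_coe, Algebra.adjoin_singleton_eq_range_aeval] at hx
  obtain ⟨P, rfl⟩ := hx
  refine ⟨P, ?_⟩
  have := Polynomial.aeval_algHom_apply (qExpandAlgHomC ℂ N) (jqModC ℂ) P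
  simpa using this

/-- the trace hypothesis from the hypothesis on all coefficients of `∏ (X - σ q a)` -/
theorem htr_of_hsymC
    (hsym : ∀ a ∈ RNC N, ∀ m, (∏ q, (X - C (σ q a))).coeff m ∈
      qExpand ℂ N '' (Algebra.adjoin ℂ {jqModC ℂ} : Set (LaurentSeries ℂ))) :
    ∀ a ∈ RNC N, ∃ P : ℂ[X], aeval (qExpand ℂ N (jqModC ℂ)) P = ∑ q, σ q a := by
  intro a ha
  have hpos : 0 < (Finset.univ : Finset (I0 N)).card := Finset.card_pos.mpr Finset.univ_nonempty
  have h1 := Polynomial.prod_X_sub_C_coeff_card_pred (Finset.univ : Finset (I0 N))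
    (fun q => σ q a) hpos
  obtain ⟨P, hP⟩ := exists_poly_of_mem_imageC (hsym a ha ((Finset.univ : Finset (I0 N)).card - 1))
  rw [h1] at hP
  exact ⟨-P, by rw [map_neg, hP, neg_neg]⟩

end CuspShape

end Fermat.Agent.GJ.Dict.Cusp
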