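import Mathlib
import Fermat.Agent.GJ.J2.Dict.CuspDegreeC
import Fermat.Agent.S24_helper62.CuspEmb
import Fermat.Agent.S24_helper76.CuspOrbit
import Fermat.Agent.S24.Norm

/-!
# GATE-J / J2-DICT-4 (helper71), part 2: the cusp embeddings of `FC N` and the places over `j = ∞`

Port to `ℂ` of `S24_helper62/CuspEmb.lean` and of the `ℚ̄`-specific sections of
`S24_helper76/CuspOrbit.lean`, followed by the orbit lemma at `j = ∞`.

* `cuspSigmaC N q : FC N →ₐ[ℂ] LaurentSeries ℂ` : the expansion in `t = q^{1/N}` along the coset `q`;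
* `cuspSigmaC_jdC`, `cuspSigmaC_jC`, `cuspSigmaC_injective`, `cuspSigmaC_T_smul_apply`,
  `cuspSigmaC_sym`;
* `finrank_FC`, `finiteDimensional_FC` : `[FC N : ℂ(j)] = [SL₂(ℤ) : Γ₀(N)]`;
* `cuspDataC N`, `cuspPlaceC N q`, `cuspMultC N q` with
  `order_cuspSigmaC : (σ_q f).order = cuspMultC N q * (cuspPlaceC N q).ord f`;
* `cuspOrbitEquivC`-type statement `exists_cuspEquivC`: the places over `j = ∞` are in bijection with
  the `T`-orbits on `SL₂(ℤ)/Γ₀(N)`; exhaustion `exists_eq_cuspPlaceC`.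
-/

set_option autoImplicit false

noncomputable section

namespace Fermat.Agent.GJ.Dict.Cusp

open ModularCurve HahnSeries IntermediateField Polynomial AlgebraicCurve MulAction
open Fermat.Agent.S28 Fermat.Agent.S28.CuspExp Fermat.Agent.S28.Assemble
open Fermat.Agent.S24 Fermat.Agent.GJ.Dict Fermat.Agent.S24_helper62
open Fermat.Agent.S24_helper76.CuspOrbit
open scoped MatrixGroups

section Roots

variable (N : ℕ) [NeZero N]

/-- `exp(2πi/N)` as a unit of `ℂ` -/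
def zetaC : ℂˣ :=
  Units.mk0 (Complex.exp (2 * Real.pi * Complex.I / N)) (Complex.exp_ne_zero _)

omit [NeZero N] in
theorem coe_zetaC : ((zetaC N : ℂˣ) : ℂ) = Complex.exp (2 * Real.pi * Complex.I / N) := rfl

theorem zetaC_isPrimitiveRoot : IsPrimitiveRoot (zetaC N) N := by
  rw [← IsPrimitiveRoot.coe_units_iff]
  exact Complex.isPrimitiveRoot_exp N (NeZero.ne N)

theorem zetaC_pow : zetaC N ^ N = 1 := (zetaC_isPrimitiveRoot N).pow_eq_one

theorem coe_xi_zetaC {D : ℕ} (hD : D ∣ N) (B : ℤ) :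
    ((xi (zetaC N) N D B : ℂˣ) : ℂ) = rootExp B D := by
  have hD0 : (D : ℂ) ≠ 0 := by
    have : D ≠ 0 := fun h => NeZero.ne N (Nat.eq_zero_of_zero_dvd (h ▸ hD))
    exact_mod_cast this
  have hN0 : (N : ℂ) ≠ 0 := by exact_mod_cast NeZero.ne N
  rw [xi, Units.val_zpow_eq_zpow_val, coe_zetaC, ← Complex.exp_int_mul, rootExp]
  congr 1
  obtain ⟨m, rfl⟩ := hD
  have hD' : 0 < D := Nat.pos_of_ne_zero (by rintro rfl; simp at hD0)
  rw [Nat.mul_div_cancel_left m hD']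
  have hm0 : (m : ℂ) ≠ 0 := by
    rintro h
    apply hN0
    push_cast
    rw [h, mul_zero]
  push_cast
  field_simp

end Roots

section Input

variable (N : ℕ) [NeZero N]

theorem hzetaC : ∀ D B : ℕ, D ∣ N → ∃ u : ℂˣ,
    (RingHom.id ℂ) (algebraMap ℂ ℂ (u : ℂ)) =
      Complex.exp (2 * Real.pi * Complex.I * B / D) := by
  intro D B hD
  refine ⟨xi (zetaC N) N D B, ?_⟩
  rw [Algebra.algebraMap_self, RingHom.id_apply, RingHom.id_apply, coe_xi_zetaC N hD, rootExp]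
  push_cast
  rfl

theorem hDC : ∀ D : ℕ, D ∣ N → IsUnit ((D : ℕ) : ℂ) := by
  intro D hD
  have : D ≠ 0 := fun h => NeZero.ne N (Nat.eq_zero_of_zero_dvd (h ▸ hD))
  exact isUnit_iff_ne_zero.mpr (by exact_mod_cast this)

/-- the cusp input of T28 over `k = 𝒪 = ℂ` -/
def cuspInpC : CuspInput ℂ N ℂ :=
  cuspInputOfAnalytic N (RingHom.id ℂ) (hzetaC N) (hDC N) (analyticFacts N)

/-- `FC N ≤ bigField` -/
theorem FC_le_bigField : FCfield N ≤ bigField ℂ N := by
  rw [FC_eq_adjoin, bigField]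
  apply IntermediateField.adjoin.mono
  rintro _ ⟨d, rfl⟩
  exact ⟨d.1, inferInstance, d.2, Or.inl rfl⟩

/-- the cusp embeddings of `FC N`: expansion in `t = q^{1/N}` along the coset `q` -/
def cuspSigmaC (q : I0 N) : FC N →ₐ[ℂ] LaurentSeries ℂ :=
  ((cuspInpC N).σ q).comp (IntermediateField.inclusion (FC_le_bigField N))

theorem xiO_eqC (q : I0 N) (d : {d : ℕ // d ∣ N}) :
    xiO N (RingHom.id ℂ) (hzetaC N) q d =
      xi (zetaC N) N (herm N q d).Dn (herm N q d).B := by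
  apply Units.ext
  have h := xiO_spec N (RingHom.id ℂ) (hzetaC N) q d
  rw [Algebra.algebraMap_self, RingHom.id_apply, RingHom.id_apply] at h
  rw [h, coe_xi_zetaC N (herm_Dn_dvd N q d), (herm N q d).coe_Dn (div_pos' N d)]

/-- **the cusp embeddings on the generators** -/
theorem cuspSigmaC_jdC (q : I0 N) {d : ℕ} [NeZero d] (hd : d ∣ N) :
    cuspSigmaC N q (jdC N d hd) = hermiteSer (zetaC N) N (herm N q ⟨d, hd⟩) := by
  have hmem : genFam ℂ N (⟨d, hd⟩, 0) ∈ bigField ℂ N := FC_le_bigField N (jdC N d hd).2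
  have h1 : cuspSigmaC N q (jdC N d hd) =
      (cuspInpC N).σ q ⟨genFam ℂ N (⟨d, hd⟩, 0), hmem⟩ := rfl
  rw [h1, (cuspInpC N).σ_gen q (⟨d, hd⟩, 0) hmem]
  show sK N (RingHom.id ℂ) (hzetaC N) (hDC N) q (⟨d, hd⟩, 0) = _
  rw [sK_eq]
  show cuspJ ℂ _ _ = _
  have : NeZero ((herm N q ⟨d, hd⟩).expo N) :=
    neZero_expo N (Nat.pos_of_ne_zero (NeZero.ne N)) hd _
  rw [hermiteSer, jCusp_eq, cuspJ, ← xiO_eqC]
  congr 1

/-- (C1) all the cusp embeddings agree at `j`, with value `j(t^N)` -/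
theorem cuspSigmaC_jC (q : I0 N) : cuspSigmaC N q (jC N) = qExpand ℂ N (jqModC ℂ) := by
  rw [jC, cuspSigmaC_jdC, hermiteSer_d_one]

/-- (C2) the cusp embeddings are pairwise distinct -/
theorem cuspSigmaC_injective : Function.Injective (cuspSigmaC N) := by
  intro q q' h
  have h1 : cuspSigmaC N q' (jdC N N dvd_rfl) = cuspSigmaC N q (jdC N N dvd_rfl) := by rw [h]
  rw [cuspSigmaC_jdC, cuspSigmaC_jdC] at h1
  have h2 := mem_Gamma0_of_hermiteSer_eq (zetaC_isPrimitiveRoot N)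
    (Nat.pos_of_ne_zero (NeZero.ne N)) _ _ h1
  rw [rep, rep, inv_inv] at h2
  rw [← QuotientGroup.out_eq' q, ← QuotientGroup.out_eq' q', QuotientGroup.eq]
  have h3 := inv_mem h2
  rwa [mul_inv_rev, inv_inv] at h3

end Input

section Equivariance

variable (N : ℕ) [NeZero N]

/-- the rotation `t ↦ c t` as a `ℂ`-algebra endomorphism of `ℂ((t))` -/
def scaleAlgHomC (c : ℂˣ) : LaurentSeries ℂ →ₐ[ℂ] LaurentSeries ℂ :=
  { scaleHom ℂ c with
    commutes' := fun a => by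
      show scaleHom ℂ c (algebraMap ℂ (LaurentSeries ℂ) a) = _
      rw [EvalBridge.algebraMap_laurent_eq_C, Fermat.Agent.S28.CuspExp.scaleHom_C] }

theorem scaleAlgHomC_apply (c : ℂˣ) (x : LaurentSeries ℂ) :
    scaleAlgHomC c x = scaleHom ℂ c x := rfl

/-- (C4) compatibility of the cusp embeddings with `T`: `σ_{T q} = (t ↦ ζ⁻¹ t) ∘ σ_q` -/
theorem cuspSigmaC_T_smul (q : I0 N) :
    cuspSigmaC N (ModularGroup.T • q) = (scaleAlgHomC (zetaC N)⁻¹).comp (cuspSigmaC N q) := by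
  apply algHom_ext_FC
  intro d _ hd
  rw [AlgHom.comp_apply, scaleAlgHomC_apply, cuspSigmaC_jdC, cuspSigmaC_jdC]
  obtain ⟨γ, hγ, hrep⟩ := rep_T_smul N q
  exact hermiteSer_of_eq (zetaC_pow N) (Nat.pos_of_ne_zero (NeZero.ne N)) hd
    ((Int.natCast_dvd_natCast.mpr hd).trans hγ) hrep _ _

theorem cuspSigmaC_T_smul_apply (q : I0 N) (f : FC N) :
    cuspSigmaC N (ModularGroup.T • q) f = scaleHom ℂ (zetaC N)⁻¹ (cuspSigmaC N q f) := by
  rw [cuspSigmaC_T_smul]
  rfl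

end Equivariance

section Sym

variable (N : ℕ) [NeZero N]

theorem coe_mem_bigAlg_of_mem_RNC {a : FC N} (ha : a ∈ RNC N) :
    (a : LaurentSeries ℂ) ∈ bigAlg ℂ N := by
  induction ha using Algebra.adjoin_induction with
  | mem x hx =>
    obtain ⟨d, hne, hd, rfl⟩ := hx
    apply Algebra.subset_adjoin
    exact ⟨d, hne, hd, Or.inl rfl⟩
  | algebraMap c => exact Subalgebra.algebraMap_mem _ c
  | add x y _ _ hx hy => exact Subalgebra.add_mem _ hx hy
  | mul x y _ _ hx hy => exact Subalgebra.mul_mem _ hx hy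

/-- (C3) the elementary symmetric functions of the cusp expansions of an element of
`ℂ[j(q^d) : d ∣ N]` are polynomials in `j` -/
theorem cuspSigmaC_sym (a : FC N) (ha : a ∈ RNC N) (m : ℕ) :
    (∏ q : I0 N, (Polynomial.X - Polynomial.C (cuspSigmaC N q a))).coeff m ∈
      qExpand ℂ N '' (Algebra.adjoin ℂ {jqModC ℂ} : Set (LaurentSeries ℂ)) := by
  have := (cuspInpC N).toDatum.sym (IntermediateField.inclusion (FC_le_bigField N) a)
    (coe_mem_bigAlg_of_mem_RNC N ha) m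
  exact this

theorem htrC_cusp : ∀ a ∈ RNC N, ∃ P : ℂ[X],
    Polynomial.aeval (qExpand ℂ N (jqModC ℂ)) P = ∑ q, cuspSigmaC N q a :=
  htr_of_hsymC (fun a ha m => cuspSigmaC_sym N a ha m)

/-- `FC N / ℂ(j)` is finite -/
theorem finiteDimensional_FC : FiniteDimensional ℂ⟮jC N⟯ (FC N) :=
  finiteDimensional_of_embeddingsC (cuspSigmaC_injective N) _ (cuspSigmaC_jC N) (htrC_cusp N)

/-- `[FC N : ℂ(j)] = [SL₂(ℤ) : Γ₀(N)]` -/
theorem finrank_FC : Module.finrank ℂ⟮jC N⟯ (FC N) = Fintype.card (I0 N) :=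
  finrank_of_embeddingsC (cuspSigmaC_injective N) _ (cuspSigmaC_jC N) (htrC_cusp N)

/-- the norm to `ℂ(j)` is the product of the cusp expansions -/
theorem cuspSigmaC_norm (f : FC N) (q₀ : I0 N) :
    cuspSigmaC N q₀ (Algebra.norm ℂ⟮jC N⟯ f : ℂ⟮jC N⟯) = ∏ q, cuspSigmaC N q f :=
  norm_of_embeddingsC (cuspSigmaC_injective N) _ (cuspSigmaC_jC N) (htrC_cusp N) f q₀

/-- the cusp embeddings are all the `ℂ`-embeddings `FC N → ℂ((t))` with `j ↦ j(t^N)` -/
theorem exists_eq_cuspSigmaC (τ : FC N →ₐ[ℂ] LaurentSeries ℂ)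
    (hτ : τ (jC N) = qExpand ℂ N (jqModC ℂ)) : ∃ q, τ = cuspSigmaC N q :=
  algHom_mem_range_of_embeddingsC (cuspSigmaC_injective N) _ (cuspSigmaC_jC N) (htrC_cusp N) τ hτ

end Sym

section Orbit

variable (N : ℕ) [NeZero N]

/-- the orbit data at `j = ∞`: the valuations `ord_t ∘ σ_q`, common value `N` at `j⁻¹` -/
def cuspDataC : OrbitData ℂ ((jC N)⁻¹) (I0 N) where
  V q := IntVal.comap (cuspSigmaC N q) (orderIntVal ℂ)
  e₀ := N
  he₀ := NeZero.pos N
  hx0 := inv_ne_zero (jC_ne_zero N)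
  hVx q := by
    rw [IntVal.comap_apply, map_inv₀, cuspSigmaC_jC, IntVal.map_inv, orderIntVal_apply,
      order_qExpand_jqModC, neg_neg]
    have h := order_qExpand_jqModC N ℂ
    intro h0
    rw [h0, HahnSeries.order_zero] at h
    have : (N : ℤ) ≠ 0 := by exact_mod_cast NeZero.ne N
    omega

theorem cuspDataC_V (q : I0 N) (f : FC N) : (cuspDataC N).V q f = (cuspSigmaC N q f).order := rfl

theorem cuspDataC_e₀ : (cuspDataC N).e₀ = N := rfl

/-- the norm hypothesis of the orbit lemma at the cusp -/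
theorem hnormC [FiniteDimensional ℂ⟮jC N⟯ (FC N)] (f : FC N) (hf : f ≠ 0) (i₀ : I0 N) :
    ∑ i, (cuspDataC N).V i f =
      (cuspDataC N).V i₀ (algebraMap ℂ⟮jC N⟯ (FC N) (Algebra.norm ℂ⟮jC N⟯ f)) :=
  hnorm_of_prod ℂ⟮jC N⟯ (orderIntVal ℂ) (cuspSigmaC N)
    (fun f i₀ => cuspSigmaC_norm N f i₀) f hf i₀

theorem hsymmC (i : I0 N) (f : FC N) :
    (cuspDataC N).V (ModularGroup.T • i) f = (cuspDataC N).V i f :=
  order_sigma_smul (cuspSigmaC N) ModularGroup.T (zetaC N)⁻¹ (cuspSigmaC_T_smul_apply N) i f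

theorem hgC (i : I0 N) : ModularGroup.T ^ (cuspDataC N).e₀ • i = i :=
  pow_smul_eq_of_injective (cuspSigmaC N) ModularGroup.T (zetaC N)⁻¹ (cuspSigmaC_T_smul_apply N)
    (cuspSigmaC_injective N) (zetaC_isPrimitiveRoot N).inv.pow_eq_one i

theorem hdivC (i : I0 N) (h : ℕ) (hh : h ∣ (cuspDataC N).e₀) (hi : ModularGroup.T ^ h • i = i)
    (f : FC N) (hf : f ≠ 0) : (((cuspDataC N).e₀ / h : ℕ) : ℤ) ∣ (cuspDataC N).V i f := by
  have hζ : IsPrimitiveRoot (zetaC N)⁻¹ N := (zetaC_isPrimitiveRoot N).inv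
  have hh' : h ∣ N := hh
  have h0 : h ≠ 0 := fun h0 => NeZero.ne N (by rw [h0, zero_dvd_iff] at hh'; exact hh')
  have hord : orderOf ((zetaC N)⁻¹ ^ h) = N / h := by
    rw [orderOf_pow_of_dvd h0 (by rw [← hζ.eq_orderOf]; exact hh'), ← hζ.eq_orderOf]
  have := dvd_order_of_pow_smul_eq (cuspSigmaC N) ModularGroup.T (zetaC N)⁻¹
    (cuspSigmaC_T_smul_apply N) hi hf
  rw [hord] at this
  exact this

/-- the place of `FC N` at the cusp `q⁻¹ ∞` (`q` a coset of `Γ₀(N)`) -/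
def cuspPlaceC (q : I0 N) : Place ℂ (FC N) := ((cuspDataC N).place q).1

/-- the ratio `N / width` at the cusp `q⁻¹ ∞` -/
def cuspMultC (q : I0 N) : ℤ := (cuspDataC N).mult q

theorem cuspMultC_pos (q : I0 N) : 0 < cuspMultC N q := (cuspDataC N).mult_pos q

theorem ord_jC_inv_cuspPlaceC_pos (q : I0 N) : 0 < (cuspPlaceC N q).ord (jC N)⁻¹ :=
  ((cuspDataC N).place q).2

theorem ord_jC_cuspPlaceC_neg (q : I0 N) : (cuspPlaceC N q).ord (jC N) < 0 := by
  have h := ord_jC_inv_cuspPlaceC_pos N q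
  rw [Place.ord_inv] at h
  omega

/-- **the order of the cusp expansion** in `t = q^{1/N}` is `N / width` times the order at the
cusp place -/
theorem order_cuspSigmaC (q : I0 N) {f : FC N} (hf : f ≠ 0) :
    (cuspSigmaC N q f).order = cuspMultC N q * (cuspPlaceC N q).ord f :=
  (cuspDataC N).eq_mult_mul_ord q hf

theorem cuspMultC_mul_ord_jC_inv (q : I0 N) :
    cuspMultC N q * (cuspPlaceC N q).ord (jC N)⁻¹ = N :=
  (cuspDataC N).mult_mul_ord_x q

theorem transcendental_jC_inv : Transcendental ℂ (jC N)⁻¹ :=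
  Norm.transcendental_inv (transcendental_jC N)

/-- **The orbit lemma at `j = ∞`**: the places of `FC N` over `j = ∞` correspond to the orbits of
`T` on `SL₂(ℤ)/Γ₀(N)`; the ramification index is the size of the orbit (the width). -/
theorem exists_cuspEquivC :
    ∃ φ : orbitRel.Quotient (Subgroup.zpowers ModularGroup.T) (I0 N) ≃ Fibre ℂ (jC N)⁻¹,
      (∀ q : I0 N, φ (Quotient.mk'' q) = (cuspDataC N).place q) ∧
      ∀ o, ((φ o).1.ord (jC N)⁻¹ : ℤ) = Nat.card o.orbit := by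
  have hfd : FiniteDimensional ℂ⟮jC N⟯ (FC N) := finiteDimensional_FC N
  have hk : ℂ⟮jC N⟯ = ℂ⟮(jC N)⁻¹⟯ := (Norm.adjoin_simple_inv (K := ℂ) (jC N)).symm
  have hfd' : FiniteDimensional ℂ⟮(jC N)⁻¹⟯ (FC N) := hk ▸ hfd
  obtain ⟨hfin, hN, hWA⟩ := Norm.fibre_package (jC N)⁻¹ (transcendental_jC_inv N) ℂ⟮jC N⟯ hk
  exact Fermat.Agent.S24.orbit_lemma ℂ⟮jC N⟯ (jC N)⁻¹ hN hWA ModularGroup.T (cuspDataC N)
    (fun f hf i₀ => hnormC N f hf i₀) (hsymmC N) (hgC N) (hdivC N)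

/-- **Exhaustion**: every place at which `j` has a pole is a cusp place. -/
theorem exists_eq_cuspPlaceC (w : Place ℂ (FC N)) (hw : w.ord (jC N) < 0) :
    ∃ q : I0 N, w = cuspPlaceC N q := by
  obtain ⟨φ, hφ, -⟩ := exists_cuspEquivC N
  have hw' : 0 < w.ord (jC N)⁻¹ := by rw [Place.ord_inv]; omega
  obtain ⟨o, ho⟩ := φ.surjective ⟨w, hw'⟩
  induction o using Quotient.inductionOn with | _ q => ?_
  refine ⟨q, ?_⟩
  have h1 : φ (Quotient.mk _ q) = (cuspDataC N).place q := hφ q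
  rw [h1] at ho
  exact (congrArg Subtype.val ho).symm

/-- two cusp places agree iff the cosets are in the same `T`-orbit -/
theorem cuspPlaceC_eq_iff (q q' : I0 N) :
    cuspPlaceC N q = cuspPlaceC N q' ↔
      q ∈ MulAction.orbit (Subgroup.zpowers ModularGroup.T) q' := by
  obtain ⟨φ, hφ, -⟩ := exists_cuspEquivC N
  have h1 : φ (Quotient.mk'' q) = (cuspDataC N).place q := hφ q
  have h2 : φ (Quotient.mk'' q') = (cuspDataC N).place q' := hφ q'
  constructor
  · intro h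
    have h3 : φ (Quotient.mk'' q) = φ (Quotient.mk'' q') := by
      rw [h1, h2]
      exact Subtype.ext h
    have h4 := φ.injective h3
    exact MulAction.orbitRel_apply.mp (Quotient.exact' h4)
  · intro h
    have h4 : (Quotient.mk'' q : orbitRel.Quotient (Subgroup.zpowers ModularGroup.T) (I0 N)) =
        Quotient.mk'' q' := Quotient.sound' (MulAction.orbitRel_apply.mpr h)
    have h3 : (cuspDataC N).place q = (cuspDataC N).place q' := by
      rw [← h1, ← h2, h4]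
    exact congrArg Subtype.val h3

/-- the ramification index at a cusp place is the width (the size of the `T`-orbit) -/
theorem ord_jC_inv_cuspPlaceC (q : I0 N) :
    (cuspPlaceC N q).ord (jC N)⁻¹ =
      Nat.card (MulAction.orbit (Subgroup.zpowers ModularGroup.T) q) := by
  obtain ⟨φ, hφ, hord⟩ := exists_cuspEquivC N
  have h1 : φ (Quotient.mk'' q) = (cuspDataC N).place q := hφ q
  have h2 := hord (Quotient.mk'' q)
  rw [h1] at h2
  rw [cuspPlaceC, h2, MulAction.orbitRel.Quotient.orbit_mk]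

/-- `cuspMultC * width = N` -/
theorem cuspMultC_mul_width (q : I0 N) :
    cuspMultC N q * (Nat.card (MulAction.orbit (Subgroup.zpowers ModularGroup.T) q) : ℤ) = N := by
  rw [← ord_jC_inv_cuspPlaceC, cuspMultC_mul_ord_jC_inv]

end Orbit

end Fermat.Agent.GJ.Dict.Cusp
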