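import Mathlib
import Fermat.Agent.GJ.J2.Dict.CuspC
import Fermat.Agent.S28.AnalyticInputCE

/-!
# GATE-J / J2-DICT-4 (helper71), part 3: the analytic meaning of the cusp embeddings

`cuspSigmaC N q f` is the Laurent expansion in `t = exp(2πiτ/N)` of the meromorphic function
`SigC N g f = (realizeC N f) ∘ g⁻¹` (`q = g Γ₀(N)`).

* `HasCuspExp.comp_T` : the translation `τ ↦ τ + 1` acts on expansions by `t ↦ ζ_N t`;
* `HasMerExp N m L` : `m : Mer` is a quotient of two holomorphic functions with cusp expansions,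
  the quotient of the expansions being `L`; `unique`, `mul`, `inv`, `pow`, `compM_T`;
* `hasMerExp_SigC` : **the bridge**;
* `dvd_ord_cuspPlaceC_of_pow` : the consequence for Kummer theory.
-/

set_option autoImplicit false

noncomputable section

namespace Fermat.Agent.GJ.Dict.Cusp

open ModularCurve HahnSeries UpperHalfPlane
open Fermat.Agent.S28 Fermat.Agent.S28.CuspExp Fermat.Agent.S28.Assemble
open Fermat.Agent.S24 Fermat.Agent.GJ.Dict Fermat.Agent.S24_helper62 Fermat.Agent.S24_helper82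
open scoped MatrixGroups Manifold

local notation "𝕢" => Function.Periodic.qParam

section Translate

variable {N : ℕ} [NeZero N]

theorem natCast_pos_real' (N : ℕ) [NeZero N] : (0 : ℝ) < (N : ℝ) := by
  exact_mod_cast Nat.pos_of_ne_zero (NeZero.ne N)

/-- `τ ↦ τ + 1` multiplies `t = exp(2πiτ/N)` by `ζ_N` -/
theorem qParam_T_smul (N : ℕ) [NeZero N] (τ : ℍ) :
    𝕢 (N : ℝ) ((ModularGroup.T • τ : ℍ) : ℂ) = (zetaC N : ℂ) * 𝕢 (N : ℝ) (τ : ℂ) := by
  rw [UpperHalfPlane.modular_T_smul, UpperHalfPlane.coe_vadd, coe_zetaC]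
  unfold Function.Periodic.qParam
  rw [← Complex.exp_add]
  congr 1
  have hN : (N : ℂ) ≠ 0 := by exact_mod_cast NeZero.ne N
  push_cast
  field_simp

theorem norm_zetaC (N : ℕ) [NeZero N] : ‖(zetaC N : ℂ)‖ = 1 :=
  Complex.norm_eq_one_of_pow_eq_one
    (by rw [← Units.val_pow_eq_pow_val, zetaC_pow, Units.val_one]) (NeZero.ne N)

/-- the translation `τ ↦ τ + 1` acts on cusp expansions in `t = 𝕢_N` by `t ↦ ζ_N t` -/
theorem HasCuspExp.comp_T {f : ℍ → ℂ} {L : LaurentSeries ℂ} (hf : HasCuspExp (N : ℝ) f L) :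
    HasCuspExp (N : ℝ) (fun τ => f (ModularGroup.T • τ)) (scaleHom ℂ (zetaC N) L) := by
  obtain ⟨M, p, hp, rfl, hf⟩ := hf
  have hζ : ‖(zetaC N : ℂ)‖ ≤ 1 := (norm_zetaC N).le
  refine ⟨M, PowerSeries.C (((zetaC N) ^ (-(M : ℤ)) : ℂˣ) : ℂ) *
    PowerSeries.rescale (zetaC N : ℂ) p, (conv_C _).mul (conv_rescale hp hζ), ?_, fun τ => ?_⟩
  · rw [lsOf, map_mul, Fermat.Agent.S28.scaleHom_single, scaleHom_ofPowerSeries, mul_one,
      lsOf_eq_single_mul]
  · have hq := norm_qParam_lt_one' (natCast_pos_real' N) τ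
    have h1 := hf (ModularGroup.T • τ)
    rw [evalDisc_mul (conv_C _) (conv_rescale hp hζ) hq, evalDisc_C,
      evalDisc_rescale hp hζ hq, ← qParam_T_smul, ← h1, qParam_T_smul, mul_pow]
    have hξM : (((zetaC N) ^ (-(M : ℤ)) : ℂˣ) : ℂ) * (zetaC N : ℂ) ^ M = 1 := by
      rw [← Units.val_pow_eq_pow_val, ← Units.val_mul, zpow_neg, zpow_natCast, inv_mul_cancel,
        Units.val_one]
    calc f (ModularGroup.T • τ) * 𝕢 (N : ℝ) τ ^ M
        = ((((zetaC N) ^ (-(M : ℤ)) : ℂˣ) : ℂ) * (zetaC N : ℂ) ^ M) *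
            (f (ModularGroup.T • τ) * 𝕢 (N : ℝ) τ ^ M) := by rw [hξM, one_mul]
      _ = _ := by ring

theorem IsCE.comp_T {f : ℍ → ℂ} (hf : IsCE (N : ℝ) f) :
    IsCE (N : ℝ) (fun τ => f (ModularGroup.T • τ)) :=
  (HasCuspExp.comp_T hf.hasCuspExp).isCE

theorem cuspExp_comp_T {f : ℍ → ℂ} (hf : IsCE (N : ℝ) f) :
    cuspExp (N : ℝ) (fun τ => f (ModularGroup.T • τ)) =
      scaleHom ℂ (zetaC N) (cuspExp (N : ℝ) f) :=
  (HasCuspExp.comp_T hf.hasCuspExp).cuspExp_eq (natCast_pos_real' N)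

end Translate

section MerExp

variable (N : ℕ) [NeZero N]

/-- `m : Mer` is a quotient `a / b` of two holomorphic functions with cusp expansions in
`t = exp(2πiτ/N)`, and `L` is the quotient of the two expansions. -/
def HasMerExp (m : Mer) (L : LaurentSeries ℂ) : Prop :=
  ∃ a b : Hol, b ≠ 0 ∧ IsCE (N : ℝ) (a : ℍ → ℂ) ∧ IsCE (N : ℝ) (b : ℍ → ℂ) ∧
    algebraMap Hol Mer b * m = algebraMap Hol Mer a ∧
    cuspExp (N : ℝ) (b : ℍ → ℂ) * L = cuspExp (N : ℝ) (a : ℍ → ℂ)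

variable {N}

omit [NeZero N] in
theorem cuspExp_hol_ne_zero {b : Hol} (hb : b ≠ 0) (hb' : IsCE (N : ℝ) (b : ℍ → ℂ)) :
    cuspExp (N : ℝ) (b : ℍ → ℂ) ≠ 0 := fun h0 =>
  hb ((coe_eq_zero_iff b).mp (hb'.eq_zero_of_cuspExp_eq_zero h0))

theorem cuspExp_hol_mul {a b : Hol} (ha : IsCE (N : ℝ) (a : ℍ → ℂ))
    (hb : IsCE (N : ℝ) (b : ℍ → ℂ)) :
    cuspExp (N : ℝ) ((a * b : Hol) : ℍ → ℂ) =
      cuspExp (N : ℝ) (a : ℍ → ℂ) * cuspExp (N : ℝ) (b : ℍ → ℂ) :=
  cuspExp_mul (natCast_pos_real' N) ha hb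

theorem isCE_hol_mul {a b : Hol} (ha : IsCE (N : ℝ) (a : ℍ → ℂ))
    (hb : IsCE (N : ℝ) (b : ℍ → ℂ)) : IsCE (N : ℝ) ((a * b : Hol) : ℍ → ℂ) :=
  ha.mul (natCast_pos_real' N) hb

omit [NeZero N] in
theorem isCE_hol_one : IsCE (N : ℝ) ((1 : Hol) : ℍ → ℂ) := isCE_const _ 1

theorem cuspExp_hol_one : cuspExp (N : ℝ) ((1 : Hol) : ℍ → ℂ) = 1 := by
  have h : ((1 : Hol) : ℍ → ℂ) = fun _ => (1 : ℂ) := rfl
  rw [h, cuspExp_const (natCast_pos_real' N), map_one]

omit [NeZero N] in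
theorem isCE_hol_zero : IsCE (N : ℝ) ((0 : Hol) : ℍ → ℂ) := isCE_const _ 0

theorem cuspExp_hol_zero : cuspExp (N : ℝ) ((0 : Hol) : ℍ → ℂ) = 0 := by
  have h : ((0 : Hol) : ℍ → ℂ) = fun _ => (0 : ℂ) := rfl
  rw [h, cuspExp_const (natCast_pos_real' N), map_zero]

namespace HasMerExp

/-- **uniqueness** of the expansion -/
theorem unique {m : Mer} {L L' : LaurentSeries ℂ} (h : HasMerExp N m L) (h' : HasMerExp N m L') :
    L = L' := by
  obtain ⟨a, b, hb, ha', hb', hm, hL⟩ := h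
  obtain ⟨c, d, hd, hc', hd', hm', hL'⟩ := h'
  have h1 : a * d = c * b := by
    apply IsFractionRing.injective Hol Mer
    rw [map_mul, map_mul, ← hm, ← hm']
    ring
  have h2 : cuspExp (N : ℝ) (a : ℍ → ℂ) * cuspExp (N : ℝ) (d : ℍ → ℂ) =
      cuspExp (N : ℝ) (c : ℍ → ℂ) * cuspExp (N : ℝ) (b : ℍ → ℂ) := by
    rw [← cuspExp_hol_mul ha' hd', ← cuspExp_hol_mul hc' hb', h1]
  have hb0 := cuspExp_hol_ne_zero hb hb'
  have hd0 := cuspExp_hol_ne_zero hd hd'
  apply mul_left_cancel₀ (mul_ne_zero hb0 hd0)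
  calc cuspExp (N : ℝ) (b : ℍ → ℂ) * cuspExp (N : ℝ) (d : ℍ → ℂ) * L
      = (cuspExp (N : ℝ) (b : ℍ → ℂ) * L) * cuspExp (N : ℝ) (d : ℍ → ℂ) := by ring
    _ = (cuspExp (N : ℝ) (d : ℍ → ℂ) * L') * cuspExp (N : ℝ) (b : ℍ → ℂ) := by
        rw [hL, hL', h2]
    _ = _ := by ring

/-- holomorphic functions with a cusp expansion -/
theorem of_hol (A : Hol) (hA : IsCE (N : ℝ) (A : ℍ → ℂ)) :
    HasMerExp N (algebraMap Hol Mer A) (cuspExp (N : ℝ) (A : ℍ → ℂ)) :=
  ⟨A, 1, one_ne_zero, hA, isCE_hol_one, by rw [map_one, one_mul], by rw [cuspExp_hol_one, one_mul]⟩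

theorem zero : HasMerExp N (0 : Mer) 0 :=
  ⟨0, 1, one_ne_zero, isCE_hol_zero, isCE_hol_one, by rw [map_zero, mul_zero],
    by rw [cuspExp_hol_zero, mul_zero]⟩

theorem one : HasMerExp N (1 : Mer) 1 := by
  have h := of_hol (N := N) 1 isCE_hol_one
  rwa [map_one, cuspExp_hol_one] at h

theorem const (c : ℂ) : HasMerExp N (algebraMap ℂ Mer c) (HahnSeries.C c) := by
  have h1 : ((algebraMap ℂ Hol c : Hol) : ℍ → ℂ) = fun _ => c := rfl
  have h := of_hol (N := N) (algebraMap ℂ Hol c) (by rw [h1]; exact isCE_const _ c)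
  rwa [h1, cuspExp_const (natCast_pos_real' N), ← IsScalarTower.algebraMap_apply] at h

theorem mul {m m' : Mer} {L L' : LaurentSeries ℂ} (h : HasMerExp N m L)
    (h' : HasMerExp N m' L') : HasMerExp N (m * m') (L * L') := by
  obtain ⟨a, b, hb, ha', hb', hm, hL⟩ := h
  obtain ⟨c, d, hd, hc', hd', hm', hL'⟩ := h'
  refine ⟨a * c, b * d, mul_ne_zero hb hd, isCE_hol_mul ha' hc', isCE_hol_mul hb' hd', ?_, ?_⟩
  · rw [map_mul, map_mul, ← hm, ← hm']
    ring
  · rw [cuspExp_hol_mul hb' hd', cuspExp_hol_mul ha' hc', ← hL, ← hL']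
    ring

theorem eq_zero_iff {m : Mer} {L : LaurentSeries ℂ} (h : HasMerExp N m L) : L = 0 ↔ m = 0 := by
  obtain ⟨a, b, hb, ha', hb', hm, hL⟩ := h
  have hb0 := cuspExp_hol_ne_zero hb hb'
  have hbM : algebraMap Hol Mer b ≠ 0 := algebraMap_ne_zero hb
  constructor
  · intro h0
    rw [h0, mul_zero] at hL
    have ha0 : a = 0 := (coe_eq_zero_iff a).mp (ha'.eq_zero_of_cuspExp_eq_zero hL.symm)
    rw [ha0, map_zero] at hm
    exact (mul_eq_zero.mp hm).resolve_left hbM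
  · intro h0
    rw [h0, mul_zero] at hm
    have ha0 : a = 0 := by
      apply IsFractionRing.injective Hol Mer
      rw [← hm, map_zero]
    rw [ha0, cuspExp_hol_zero] at hL
    exact (mul_eq_zero.mp hL).resolve_left hb0

theorem inv {m : Mer} {L : LaurentSeries ℂ} (h : HasMerExp N m L) : HasMerExp N m⁻¹ L⁻¹ := by
  by_cases hm0 : m = 0
  · have hL0 : L = 0 := h.eq_zero_iff.mpr hm0
    rw [hm0, hL0, inv_zero, inv_zero]
    exact zero
  · have hL0 : L ≠ 0 := fun h0 => hm0 (h.eq_zero_iff.mp h0)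
    obtain ⟨a, b, hb, ha', hb', hm, hL⟩ := h
    have hbM : algebraMap Hol Mer b ≠ 0 := algebraMap_ne_zero hb
    have ha : a ≠ 0 := by
      rintro rfl
      rw [map_zero] at hm
      exact (mul_ne_zero hbM hm0) hm
    refine ⟨b, a, ha, hb', ha', ?_, ?_⟩
    · rw [← hm]
      field_simp
    · rw [← hL]
      field_simp

theorem div {m m' : Mer} {L L' : LaurentSeries ℂ} (h : HasMerExp N m L)
    (h' : HasMerExp N m' L') : HasMerExp N (m / m') (L / L') := by
  rw [div_eq_mul_inv, div_eq_mul_inv]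
  exact h.mul h'.inv

theorem pow {m : Mer} {L : LaurentSeries ℂ} (h : HasMerExp N m L) (n : ℕ) :
    HasMerExp N (m ^ n) (L ^ n) := by
  induction n with
  | zero => rw [pow_zero, pow_zero]; exact one
  | succ n ih => rw [pow_succ, pow_succ]; exact ih.mul h

/-- the translation `τ ↦ τ + 1` acts on the expansions by `t ↦ ζ_N t` -/
theorem compM_T {m : Mer} {L : LaurentSeries ℂ} (h : HasMerExp N m L) :
    HasMerExp N (compM ModularGroup.T m) (scaleHom ℂ (zetaC N) L) := by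
  obtain ⟨a, b, hb, ha', hb', hm, hL⟩ := h
  refine ⟨compSL ModularGroup.T a, compSL ModularGroup.T b, compSL_ne_zero _ hb,
    IsCE.comp_T ha', IsCE.comp_T hb', ?_, ?_⟩
  · rw [← compM_algebraMap, ← compM_algebraMap, ← map_mul, hm]
  · have h1 : ((compSL ModularGroup.T a : Hol) : ℍ → ℂ) =
        fun τ => (a : ℍ → ℂ) (ModularGroup.T • τ) := rfl
    have h2 : ((compSL ModularGroup.T b : Hol) : ℍ → ℂ) =
        fun τ => (b : ℍ → ℂ) (ModularGroup.T • τ) := rfl
    rw [h1, h2, cuspExp_comp_T ha', cuspExp_comp_T hb', ← map_mul, hL]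

theorem compM_T_pow {m : Mer} {L : LaurentSeries ℂ} (h : HasMerExp N m L) (n : ℕ) :
    HasMerExp N (compM (ModularGroup.T ^ n) m) (scaleHom ℂ ((zetaC N) ^ n) L) := by
  induction n with
  | zero =>
    rw [pow_zero, pow_zero, compM_one, Fermat.Agent.S24_helper76.CuspOrbit.scaleHom_one_apply]
    exact h
  | succ n ih =>
    rw [pow_succ, compM_mul, pow_succ',
      ← Fermat.Agent.S24_helper76.CuspOrbit.scaleHom_scaleHom]
    exact ih.compM_T

/-- the form with the predicates `IsMeroCusp` / `laurentExp` of `S28/MeroCusp.lean` -/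
theorem of_isMeroCusp {m : Mer} {L : LaurentSeries ℂ} (a b : Hol) (hb : b ≠ 0)
    (ha' : IsMeroCusp (N : ℝ) (a : ℍ → ℂ)) (hb' : IsMeroCusp (N : ℝ) (b : ℍ → ℂ))
    (hm : algebraMap Hol Mer b * m = algebraMap Hol Mer a)
    (hL : laurentExp (N : ℝ) (b : ℍ → ℂ) * L = laurentExp (N : ℝ) (a : ℍ → ℂ)) :
    HasMerExp N m L := by
  have hh := natCast_pos_real' N
  refine ⟨a, b, hb, (isMeroCusp_iff_isCE hh).mp ha', (isMeroCusp_iff_isCE hh).mp hb', hm, ?_⟩
  rw [← ha'.laurentExp_eq_cuspExp hh, ← hb'.laurentExp_eq_cuspExp hh, hL]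

theorem exists_isMeroCusp {m : Mer} {L : LaurentSeries ℂ} (h : HasMerExp N m L) :
    ∃ a b : Hol, b ≠ 0 ∧ IsMeroCusp (N : ℝ) (a : ℍ → ℂ) ∧ IsMeroCusp (N : ℝ) (b : ℍ → ℂ) ∧
      algebraMap Hol Mer b * m = algebraMap Hol Mer a ∧
      laurentExp (N : ℝ) (b : ℍ → ℂ) * L = laurentExp (N : ℝ) (a : ℍ → ℂ) := by
  have hh := natCast_pos_real' N
  obtain ⟨a, b, hb, ha', hb', hm, hL⟩ := h
  refine ⟨a, b, hb, ha'.isMeroCusp hh, hb'.isMeroCusp hh, hm, ?_⟩
  rw [ha'.laurentExp_eq hh, hb'.laurentExp_eq hh, hL]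

end HasMerExp

end MerExp

section Bridge

variable (N : ℕ) [NeZero N]

theorem cuspSigmaC_jdC_eq_sK (q : I0 N) {d : ℕ} [NeZero d] (hd : d ∣ N) :
    cuspSigmaC N q (jdC N d hd) =
      sK N (RingHom.id ℂ) (hzetaC N) (hDC N) q (⟨d, hd⟩, 0) := by
  have hmem : genFam ℂ N (⟨d, hd⟩, 0) ∈ bigField ℂ N := FC_le_bigField N (jdC N d hd).2
  have h1 : cuspSigmaC N q (jdC N d hd) =
      (cuspInpC N).σ q ⟨genFam ℂ N (⟨d, hd⟩, 0), hmem⟩ := rfl
  rw [h1, (cuspInpC N).σ_gen q (⟨d, hd⟩, 0) hmem]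
  rfl

/-- the translate of `j(d z)` along `rep q` has a cusp expansion, which is `σ_q (j(q^d))` -/
theorem isCE_compSL_jDilHol (q : I0 N) {d : ℕ} [NeZero d] (hd : d ∣ N) :
    IsCE (N : ℝ) ((compSL (rep N q) (jDilHol d (Nat.pos_of_ne_zero (NeZero.ne d))) : Hol) : ℍ → ℂ) ∧
    cuspExp (N : ℝ) ((compSL (rep N q) (jDilHol d (Nat.pos_of_ne_zero (NeZero.ne d))) : Hol) :
      ℍ → ℂ) = cuspSigmaC N q (jdC N d hd) := by
  have h1 := (analyticFacts N).isMC_gen (rep N q) (⟨d, hd⟩, 0)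
  have h2 := exp_eq_sK N (RingHom.id ℂ) (hzetaC N) (hDC N) (analyticFacts N) q (⟨d, hd⟩, 0)
  rw [coeffMap_id, ← cuspSigmaC_jdC_eq_sK] at h2
  exact ⟨h1, h2⟩

/-- **the bridge on `ℂ[j(q^d)]`**: the translates of the realisation are holomorphic with a cusp
expansion, which is the formal cusp embedding. -/
theorem exists_hol_SigC_of_mem_RNC (q : I0 N) {a : FC N} (ha : a ∈ RNC N) :
    ∃ A : Hol, IsCE (N : ℝ) (A : ℍ → ℂ) ∧ SigC N (Quotient.out q) a = algebraMap Hol Mer A ∧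
      cuspExp (N : ℝ) (A : ℍ → ℂ) = cuspSigmaC N q a := by
  have hh := natCast_pos_real' N
  induction ha using Algebra.adjoin_induction with
  | mem x hx =>
    obtain ⟨d, hne, hd, rfl⟩ := hx
    obtain ⟨h1, h2⟩ := isCE_compSL_jDilHol N q hd
    refine ⟨_, h1, ?_, h2⟩
    rw [SigC_apply, realizeC_jdC, compM_algebraMap]
    rfl
  | algebraMap c =>
    have h1 : ((algebraMap ℂ Hol c : Hol) : ℍ → ℂ) = fun _ => c := rfl
    refine ⟨algebraMap ℂ Hol c, by rw [h1]; exact isCE_const _ c, ?_, ?_⟩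
    · rw [AlgHom.commutes, ← IsScalarTower.algebraMap_apply]
    · rw [h1, cuspExp_const hh, AlgHom.commutes, EvalBridge.algebraMap_laurent_eq_C]
  | add x y _ _ hx hy =>
    obtain ⟨A, hA, hA1, hA2⟩ := hx
    obtain ⟨B, hB, hB1, hB2⟩ := hy
    refine ⟨A + B, hA.add hh hB, ?_, ?_⟩
    · have e1 : SigC N (Quotient.out q) (x + y) =
          SigC N (Quotient.out q) x + SigC N (Quotient.out q) y :=
        (SigC N (Quotient.out q)).toRingHom.map_add x y
      have e2 : algebraMap Hol Mer (A + B) = algebraMap Hol Mer A + algebraMap Hol Mer B :=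
        map_add _ _ _
      rw [e1, e2, hA1, hB1]
    · have e1 : cuspSigmaC N q (x + y) = cuspSigmaC N q x + cuspSigmaC N q y := map_add _ _ _
      rw [e1, ← hA2, ← hB2]
      exact cuspExp_add hh hA hB
  | mul x y _ _ hx hy =>
    obtain ⟨A, hA, hA1, hA2⟩ := hx
    obtain ⟨B, hB, hB1, hB2⟩ := hy
    refine ⟨A * B, hA.mul hh hB, ?_, ?_⟩
    · have e1 : SigC N (Quotient.out q) (x * y) =
          SigC N (Quotient.out q) x * SigC N (Quotient.out q) y :=
        (SigC N (Quotient.out q)).toRingHom.map_mul x y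
      have e2 : algebraMap Hol Mer (A * B) = algebraMap Hol Mer A * algebraMap Hol Mer B :=
        map_mul _ _ _
      rw [e1, e2, hA1, hB1]
    · have e1 : cuspSigmaC N q (x * y) = cuspSigmaC N q x * cuspSigmaC N q y := map_mul _ _ _
      rw [e1, ← hA2, ← hB2]
      exact cuspExp_mul hh hA hB

theorem hasMerExp_SigC_of_mem_RNC (q : I0 N) {a : FC N} (ha : a ∈ RNC N) :
    HasMerExp N (SigC N (Quotient.out q) a) (cuspSigmaC N q a) := by
  obtain ⟨A, hA, hA1, hA2⟩ := exists_hol_SigC_of_mem_RNC N q ha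
  rw [hA1, ← hA2]
  exact HasMerExp.of_hol A hA

/-- every element of `FC N` is a quotient of two elements of `ℂ[j(q^d)]` -/
theorem exists_div_of_RNC (f : FC N) : ∃ r ∈ RNC N, ∃ s ∈ RNC N, f = r / s := by
  have h : f ∈ IntermediateField.adjoin ℂ (genSetC N) := by
    rw [fieldGenC]
    exact IntermediateField.mem_top
  exact IntermediateField.mem_adjoin_iff_div.mp h

/-- **The bridge** (representatives `Quotient.out q`): `cuspSigmaC N q f` is the expansion in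
`t = exp(2πiτ/N)` of `(realizeC N f) ∘ (out q)⁻¹`. -/
theorem hasMerExp_SigC_out (q : I0 N) (f : FC N) :
    HasMerExp N (SigC N (Quotient.out q) f) (cuspSigmaC N q f) := by
  obtain ⟨r, hr, s, hs, rfl⟩ := exists_div_of_RNC N f
  have e1 : SigC N (Quotient.out q) (r / s) =
      SigC N (Quotient.out q) r / SigC N (Quotient.out q) s :=
    map_div₀ (SigC N (Quotient.out q)).toRingHom r s
  have e2 : cuspSigmaC N q (r / s) = cuspSigmaC N q r / cuspSigmaC N q s := map_div₀ _ _ _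
  rw [e1, e2]
  exact (hasMerExp_SigC_of_mem_RNC N q hr).div (hasMerExp_SigC_of_mem_RNC N q hs)

/-- **The bridge**: for every `g ∈ SL₂(ℤ)`, `cuspSigmaC N (g Γ₀(N)) f` is the expansion in
`t = exp(2πiτ/N)` of `SigC N g f = (realizeC N f) ∘ g⁻¹`. -/
theorem hasMerExp_SigC (g : SL(2, ℤ)) (f : FC N) :
    HasMerExp N (SigC N g f) (cuspSigmaC N (g : I0 N) f) := by
  have h := hasMerExp_SigC_out N (g : I0 N) f
  have h1 : ((Quotient.out (g : I0 N) : SL(2, ℤ)) : I0 N) = (g : I0 N) :=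
    QuotientGroup.out_eq' _
  rwa [SigC_eq_of_coset_eq N h1 f] at h

end Bridge

section Kummer

variable (N : ℕ) [NeZero N]

/-- the width of the cusp `(out q)⁻¹ ∞`: the size of the `T`-orbit of the coset `q` -/
def widthC (q : I0 N) : ℕ := Nat.card (MulAction.orbit (Subgroup.zpowers ModularGroup.T) q)

theorem widthC_eq_minimalPeriod (q : I0 N) :
    widthC N q = Function.minimalPeriod (ModularGroup.T • ·) q := by
  classical
  have : Fintype (MulAction.orbit (Subgroup.zpowers ModularGroup.T) q) := Fintype.ofFinite _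
  rw [widthC, Nat.card_eq_fintype_card, MulAction.minimalPeriod_eq_card]
  exact Fintype.card_congr (Equiv.refl _)

theorem T_pow_smul_eq_iff (q : I0 N) (n : ℕ) : ModularGroup.T ^ n • q = q ↔ widthC N q ∣ n := by
  rw [widthC_eq_minimalPeriod]
  exact MulAction.pow_smul_eq_iff_minimalPeriod_dvd

theorem T_pow_widthC_smul (q : I0 N) : ModularGroup.T ^ widthC N q • q = q :=
  (T_pow_smul_eq_iff N q _).mpr dvd_rfl

theorem widthC_dvd (q : I0 N) : widthC N q ∣ N := (T_pow_smul_eq_iff N q N).mp (hgC N q)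

theorem widthC_pos (q : I0 N) : 0 < widthC N q :=
  Nat.pos_of_dvd_of_pos (widthC_dvd N q) (Nat.pos_of_ne_zero (NeZero.ne N))

theorem cuspMultC_mul_widthC (q : I0 N) : cuspMultC N q * (widthC N q : ℤ) = N :=
  cuspMultC_mul_width N q

theorem cuspMultC_eq (q : I0 N) : cuspMultC N q = ((N / widthC N q : ℕ) : ℤ) := by
  obtain ⟨k, hk⟩ := widthC_dvd N q
  have hW := widthC_pos N q
  have h1 := cuspMultC_mul_widthC N q
  have h2 : N / widthC N q = k := Nat.div_eq_of_eq_mul_right hW hk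
  rw [h2]
  have h3 : ((widthC N q : ℕ) : ℤ) ≠ 0 := by exact_mod_cast hW.ne'
  have h4 : (N : ℤ) = (widthC N q : ℤ) * (k : ℤ) := by exact_mod_cast hk
  apply mul_right_cancel₀ h3
  rw [h1, h4]
  ring

theorem ord_jC_cuspPlaceC (q : I0 N) : (cuspPlaceC N q).ord (jC N) = -(widthC N q : ℤ) := by
  have h := ord_jC_inv_cuspPlaceC N q
  rw [AlgebraicCurve.Place.ord_inv] at h
  rw [widthC]
  omega

/-- the order of any expansion of a translate of `realizeC N f` is `(N / width)` times the order of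
`f` at the cusp place -/
theorem order_of_hasMerExp (g : SL(2, ℤ)) {f : FC N} (hf : f ≠ 0) {L : LaurentSeries ℂ}
    (hL : HasMerExp N (SigC N g f) L) :
    L.order = cuspMultC N (g : I0 N) * (cuspPlaceC N (g : I0 N)).ord f := by
  rw [hL.unique (hasMerExp_SigC N g f)]
  exact order_cuspSigmaC N _ hf

/-- an expansion fixed by `t ↦ ζ_N^width t` has order divisible by `N / width` -/
theorem cuspMultC_dvd_order_of_fixed (q : I0 N) {L : LaurentSeries ℂ}
    (hfix : scaleHom ℂ ((zetaC N) ^ widthC N q) L = L) : cuspMultC N q ∣ L.order := by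
  by_cases hL0 : L = 0
  · rw [hL0, HahnSeries.order_zero]
    exact dvd_zero _
  · have h1 := Fermat.Agent.S24_helper76.CuspOrbit.dvd_order_of_scaleHom_fixed
      ((zetaC N) ^ widthC N q) hL0 hfix
    have hζ := zetaC_isPrimitiveRoot N
    have hord : orderOf ((zetaC N) ^ widthC N q) = N / widthC N q := by
      rw [orderOf_pow_of_dvd (widthC_pos N q).ne' (by rw [← hζ.eq_orderOf]; exact widthC_dvd N q),
        ← hζ.eq_orderOf]
    rw [hord, ← cuspMultC_eq] at h1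
    exact h1

/-- **Kummer divisibility at the cusps.**  Let `u ∈ FC N`, `g ∈ SL₂(ℤ)`, and let `h : Mer` be a
`p`-th root of `SigC N g u = (realizeC N u) ∘ g⁻¹` which is meromorphic at `∞` (has an expansion in
`t = exp(2πiτ/N)`) and is invariant under `τ ↦ τ + width`.  Then `p` divides the order of `u` at the
cusp place `cuspPlaceC N (g Γ₀(N))`. -/
theorem dvd_ord_cuspPlaceC_of_pow {p : ℕ} (g : SL(2, ℤ)) {u : FC N} (hu : u ≠ 0) {h : Mer}
    {L : LaurentSeries ℂ} (hL : HasMerExp N h L) (hpow : h ^ p = SigC N g u)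
    (hinv : compM (ModularGroup.T ^ widthC N (g : I0 N)) h = h) :
    (p : ℤ) ∣ (cuspPlaceC N (g : I0 N)).ord u := by
  have e1 : L ^ p = cuspSigmaC N (g : I0 N) u := by
    have h1 := hL.pow p
    rw [hpow] at h1
    exact h1.unique (hasMerExp_SigC N g u)
  have e2 : scaleHom ℂ ((zetaC N) ^ widthC N (g : I0 N)) L = L := by
    have h1 := hL.compM_T_pow (widthC N (g : I0 N))
    rw [hinv] at h1
    exact h1.unique hL
  obtain ⟨k, hk⟩ := cuspMultC_dvd_order_of_fixed N (g : I0 N) e2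
  have h3 := order_cuspSigmaC N (g : I0 N) hu
  rw [← e1, HahnSeries.order_pow, hk] at h3
  refine ⟨k, ?_⟩
  have hm : cuspMultC N (g : I0 N) ≠ 0 := (cuspMultC_pos N _).ne'
  apply mul_left_cancel₀ hm
  rw [← h3, nsmul_eq_mul]
  ring

end Kummer

end Fermat.Agent.GJ.Dict.Cusp
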