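import Fermat.Agent.GJ.J2.Dict.InteriorAsmC
import Fermat.Agent.GJ.J2.KumCore

/-!
# GATE-J / J2 (P) PDIV, interior half

If `realizeC N u = h ^ p` with `h : Mer` invariant under the elements of `Γ₀(N)` having a fixed
point in `ℍ` (e.g. `h` has a multiplier `ζ^ψ` with `ψ` killing the elements of finite order), then
`p ∣ P.ord u` for every place `P` of `ℂ(X₀(N))` at which `j` has no pole.
-/

set_option autoImplicit false

noncomputable section

namespace Fermat.Agent.GJ.Dict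

open UpperHalfPlane AlgebraicCurve CongruenceSubgroup
open Fermat.Agent.S24 Fermat.Agent.S24_helper82
open Fermat.Agent.S20_helper25 (Stab mem_Stab)
open scoped MatrixGroups

variable (N : ℕ) [NeZero N]

omit [NeZero N] in
/-- an element of `SL(2, ℤ)` with a fixed point in `ℍ` has finite order -/
theorem isOfFinOrder_of_smul_eq {γ : SL(2, ℤ)} {τ : ℍ} (h : γ • τ = τ) : IsOfFinOrder γ := by
  have hfin : Finite (Stab τ) := by
    apply Nat.finite_of_card_ne_zero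
    rcases Fermat.Agent.S20_helper25.card_Stab τ with h | h | h <;> rw [h] <;> norm_num
  have h1 : IsOfFinOrder (⟨γ, mem_Stab.mpr h⟩ : Stab τ) := isOfFinOrder_of_finite _
  rw [← orderOf_pos_iff] at h1 ⊢
  rwa [Subgroup.orderOf_mk] at h1

omit [NeZero N] in
theorem isOfFinOrder_Gamma0_of_smul_eq {γ : SL(2, ℤ)} (hγ : γ ∈ Gamma0 N) {τ : ℍ}
    (h : γ • τ = τ) : IsOfFinOrder (⟨γ, hγ⟩ : Gamma0 N) := by
  have h1 := isOfFinOrder_of_smul_eq h
  rw [← orderOf_pos_iff] at h1 ⊢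
  rwa [Subgroup.orderOf_mk]

/-- **(P), interior half, general form.** -/
theorem dvd_ord_of_pow_eq_interior {p : ℕ} {u : FC N} (hu : u ≠ 0) {h : Mer}
    (hpow : realizeC N u = h ^ p)
    (hell : ∀ γ ∈ Gamma0 N, ∀ τ : ℍ, γ • τ = τ → compM γ h = h)
    (P : Place ℂ (FC N)) (hP : ¬ P.ord (jC N) < 0) : (p : ℤ) ∣ P.ord u := by
  obtain ⟨τ, rfl⟩ := exists_placeAt_eq N P hP
  obtain ⟨γ, hγ, hfix, hprim⟩ := eAt_spec N τ
  have h1 := ordM_realizeC N τ hu
  rw [hpow, ordM_pow] at h1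
  obtain ⟨m, hm⟩ := dvd_ordM_of_fixed hfix hprim (hell γ hγ τ hfix)
  rw [Int.toNat_of_nonneg (eAt_pos N τ).le] at hm
  rw [hm] at h1
  have hne : eAt N τ ≠ 0 := (eAt_pos N τ).ne'
  have h2 : eAt N τ * ((placeAt N τ).ord u) = eAt N τ * ((p : ℤ) * m) := by
    rw [← h1]; ring
  exact ⟨m, mul_left_cancel₀ hne h2⟩

open Fermat.Agent.GJ.KumCore Fermat.Agent.GJ.HeckeMer in
/-- **(P), interior half, for a Kummer datum** whose `ψ` kills the elements of finite order. -/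
theorem dvd_ord_of_datum_interior {p : ℕ} [NeZero p] {ζ : ℂ}
    {ψ : Additive (Gamma0 N) →+ ZMod p} {h : Mer} {u : FC N}
    (D : IsKumDatum (realizeC N : FC N →+* Mer) ζ ψ h u)
    (hfin : ∀ g : Gamma0 N, IsOfFinOrder g → ψ (Additive.ofMul g) = 0)
    (P : Place ℂ (FC N)) (hP : ¬ P.ord (jC N) < 0) : (p : ℤ) ∣ P.ord u := by
  have hu : u ≠ 0 := D.ne_zero
  have hpow : realizeC N u = h ^ p := D.2.2
  have hmult : HasMult ζ ψ h := D.2.1
  have hell : ∀ γ ∈ Gamma0 N, ∀ τ : ℍ, γ • τ = τ → compM γ h = h := by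
    intro γ hγ τ hfix
    have h1 := hmult ⟨γ, hγ⟩
    rw [hfin ⟨γ, hγ⟩ (isOfFinOrder_Gamma0_of_smul_eq N hγ hfix), zmodPow_zero, map_one,
      one_mul] at h1
    exact h1
  exact dvd_ord_of_pow_eq_interior N hu hpow hell P hP

end Fermat.Agent.GJ.Dict
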