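import Mathlib
import Fermat.Agent.GJ.J2.Dict.CuspAnC
import Fermat.Agent.GJ.J2.RootCusp
import Fermat.Agent.S28.CuspOrder

/-!
# GATE-J / J2-DICT-4 (helper71), part 4: orders at `i∞` (bridge to `Root.MerOrdAtImInfty`)

* `HasCuspExp.hasOrdAtImInfty` : a function with a nonzero cusp expansion `L` in `t = 𝕢_h` is
  `t ^ L.order * u(t)` near `i∞`, `u` analytic and nonvanishing at `0`;
* `HasMerExp.merOrdAtImInfty` : the same for quotients;
* `cuspBridge` : `Root.MerOrdAtImInfty N (SigC N (out q) f) (cuspSigmaC N q f).order`.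
-/

set_option autoImplicit false

noncomputable section

namespace Fermat.Agent.GJ.Dict.Cusp

open ModularCurve HahnSeries UpperHalfPlane Filter Topology PowerSeries
open Fermat.Agent.S28 Fermat.Agent.S28.CuspExp
open Fermat.Agent.S24 Fermat.Agent.GJ.Dict Fermat.Agent.S24_helper82 Fermat.Agent.GJ.Root
open scoped MatrixGroups Manifold

local notation "𝕢" => Function.Periodic.qParam

section PS

/-- the quotient of a convergent power series by the power of `X` dividing it is convergent -/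
theorem conv_divXPowOrder {p : PowerSeries ℂ} (hp : Conv p) : Conv (divXPowOrder p) := by
  intro q hq
  by_cases hq0 : q = 0
  · subst hq0
    refine summable_of_ne_finset_zero (s := {0}) fun n hn => ?_
    have : n ≠ 0 := by simpa using hn
    simp [this]
  · have h1 := (hp q hq).comp_injective (add_left_injective p.order.toNat)
    have h2 := h1.mul_left ((q ^ p.order.toNat)⁻¹)
    refine h2.congr fun n => ?_
    simp only [Function.comp_apply]
    rw [coeff_divXPowOrder, _root_.pow_add]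
    field_simp

theorem order_lsOf {M : ℕ} {p : PowerSeries ℂ} (hp : p ≠ 0) :
    (lsOf M p).order = (p.order.toNat : ℤ) - M := by
  have hc : constantCoeff (divXPowOrder p) ≠ 0 := fun h =>
    hp (constantCoeff_divXPowOrder_eq_zero_iff.mp h)
  have h1 : lsOf M p = HahnSeries.single ((p.order.toNat : ℤ) - M) (1 : ℂ) *
      HahnSeries.ofPowerSeries ℤ ℂ (divXPowOrder p) := by
    conv_lhs => rw [← X_pow_order_mul_divXPowOrder (f := p)]
    rw [lsOf, map_mul, HahnSeries.ofPowerSeries_X_pow, ← mul_assoc, HahnSeries.single_mul_single]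
    have e : -(M : ℤ) + (p.order.toNat : ℤ) = (p.order.toNat : ℤ) - M := by ring
    rw [e, one_mul]
  rw [h1, HahnSeries.order_single_mul_of_isRegular isRegular_one
    (CuspOrder.ofPowerSeries_ne_zero_of_constantCoeff ℂ hc),
    CuspOrder.order_ofPowerSeries_of_constantCoeff ℂ hc, add_zero]

end PS

section Ord

variable {h : ℝ}

theorem tendsto_qParam_atImInfty (hh : 0 < h) :
    Tendsto (fun τ : ℍ => 𝕢 h (τ : ℂ)) atImInfty (𝓝 0) := by
  have := (Function.Periodic.qParam_tendsto hh).mono_right nhdsWithin_le_nhds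
  exact this.comp (UpperHalfPlane.tendsto_coe_atImInfty)

/-- a function with a nonzero cusp expansion `L` is `t ^ L.order * u(t)` near `i∞` -/
theorem HasCuspExp.hasOrdAtImInfty (hh : 0 < h) {f : ℍ → ℂ} {L : LaurentSeries ℂ}
    (hf : HasCuspExp h f L) (hL : L ≠ 0) : HasOrdAtImInfty h f L.order := by
  obtain ⟨M, p, hp, rfl, hfe⟩ := hf
  have hp0 : p ≠ 0 := by
    rintro rfl
    apply hL
    rw [lsOf, map_zero, mul_zero]
  have hc : constantCoeff (divXPowOrder p) ≠ 0 := fun h0 =>
    hp0 (constantCoeff_divXPowOrder_eq_zero_iff.mp h0)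
  have hp' := conv_divXPowOrder hp
  refine ⟨evalDisc (divXPowOrder p), ?_, ?_, Eventually.of_forall fun τ => ?_⟩
  · exact hp'.differentiableOn.analyticAt (Metric.ball_mem_nhds 0 one_pos)
  · rw [evalDisc_zero_right]
    exact hc
  · have hq := norm_qParam_lt_one' hh τ
    have hq0 := qParam_ne_zero' h τ
    have h1 := hfe τ
    rw [← X_pow_order_mul_divXPowOrder (f := p), evalDisc_mul (conv_X_pow _) hp' hq,
      evalDisc_X_pow] at h1
    rw [order_lsOf hp0, zpow_sub₀ hq0, zpow_natCast, zpow_natCast]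
    field_simp
    linear_combination h1

theorem IsCE.hasOrdAtImInfty (hh : 0 < h) {f : ℍ → ℂ} (hf : IsCE h f) (hf0 : f ≠ 0) :
    HasOrdAtImInfty h f (cuspExp h f).order :=
  HasCuspExp.hasOrdAtImInfty hh hf.hasCuspExp fun h0 => hf0 (hf.eq_zero_of_cuspExp_eq_zero h0)

end Ord

section Mer

variable {N : ℕ} [NeZero N]

/-- **from expansions to orders at `i∞`** -/
theorem HasMerExp.merOrdAtImInfty {m : Mer} {L : LaurentSeries ℂ} (hm : HasMerExp N m L)
    (hL : L ≠ 0) : MerOrdAtImInfty (N : ℝ) m L.order := by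
  have hh := natCast_pos_real' N
  have hm0 : m ≠ 0 := fun h0 => hL (hm.eq_zero_iff.mpr h0)
  obtain ⟨a, b, hb, ha', hb', hmul, hLe⟩ := hm
  have hbM : algebraMap Hol Mer b ≠ 0 := algebraMap_ne_zero hb
  have ha : a ≠ 0 := by
    rintro rfl
    rw [map_zero] at hmul
    exact (mul_ne_zero hbM hm0) hmul
  have ha0 : (a : ℍ → ℂ) ≠ 0 := fun h0 => ha ((coe_eq_zero_iff a).mp h0)
  have hb0 : (b : ℍ → ℂ) ≠ 0 := fun h0 => hb ((coe_eq_zero_iff b).mp h0)
  have h1 := IsCE.hasOrdAtImInfty hh ha' ha0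
  have h2 := IsCE.hasOrdAtImInfty hh hb' hb0
  have h3 := MerOrdAtImInfty.of_hol hh h1 h2
  have e1 : algebraMap Hol Mer a / algebraMap Hol Mer b = m := by
    rw [← hmul]
    field_simp
  have e2 : (cuspExp (N : ℝ) (a : ℍ → ℂ)).order - (cuspExp (N : ℝ) (b : ℍ → ℂ)).order =
      L.order := by
    rw [← hLe, HahnSeries.order_mul (cuspExp_hol_ne_zero hb hb') hL]
    omega
  rwa [e1, e2] at h3

variable (N)

/-- **helper49's `CuspBridge N`**: the order at `i∞` (in `t = exp(2πiτ/N)`) of the translate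
`(realizeC N f) ∘ (out q)⁻¹` is the order of the formal cusp embedding. -/
theorem cuspBridge (q : I0 N) (f : FC N) (hf : f ≠ 0) :
    MerOrdAtImInfty (N : ℝ) (SigC N (Quotient.out q) f) (cuspSigmaC N q f).order :=
  (hasMerExp_SigC_out N q f).merOrdAtImInfty
    ((map_ne_zero (cuspSigmaC N q).toRingHom).mpr hf)

theorem cuspBridge' (g : SL(2, ℤ)) (f : FC N) (hf : f ≠ 0) :
    MerOrdAtImInfty (N : ℝ) (SigC N g f) (cuspSigmaC N (g : I0 N) f).order :=
  (hasMerExp_SigC N g f).merOrdAtImInfty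
    ((map_ne_zero (cuspSigmaC N (g : I0 N)).toRingHom).mpr hf)

/-- in terms of the cusp place: the order at `i∞` of `(realizeC N f) ∘ g⁻¹` is `(N / width)` times
the order of `f` at the cusp place -/
theorem merOrdAtImInfty_SigC (g : SL(2, ℤ)) (f : FC N) (hf : f ≠ 0) :
    MerOrdAtImInfty (N : ℝ) (SigC N g f)
      (cuspMultC N (g : I0 N) * (cuspPlaceC N (g : I0 N)).ord f) := by
  rw [← order_cuspSigmaC N _ hf]
  exact cuspBridge' N g f hf

end Mer

end Fermat.Agent.GJ.Dict.Cusp
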