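import Fermat.Agent.RR.CharZero
import Fermat.Agent.GJ.J2.Dict.InteriorAsmC

/-!
# GATE-J / J2-DICT (E5): `ℂ(X₀(N))` is a curve in the sense of the RR package

Instances of `HasPrincipalDivisors`, `FiniteResidues`, `Nonempty (Place _ _)`, `deg = 1` and
Riemann's theorem for `FC N = laurentBaseChange ℂ (modularFunctionFieldFull N)` over `ℂ`
(the `ℂ`-version of `RR/ModularBar.lean`), from `IsGen ℂ (jC N)` (`Dict/DegreeC.lean`).
-/

set_option autoImplicit false

noncomputable section

open AlgebraicCurve ModularCurve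

namespace Fermat.Agent.GJ.Dict.CurveC

open Fermat.Agent.S24 Fermat.Agent.RRh45 Fermat.Agent.RR Fermat.Agent.GJ.Dict

variable (N : ℕ) [NeZero N]

theorem hasPrincipalDivisors : HasPrincipalDivisors ℂ (FC N) :=
  FF1.hasPrincipalDivisors (K := ℂ) (jC N)

theorem finiteResidues : FiniteResidues ℂ (FC N) :=
  CharZero.finiteResidues (K := ℂ) (jC N)

theorem nonempty_place : Nonempty (Place ℂ (FC N)) :=
  ⟨placeAt N UpperHalfPlane.I⟩

theorem deg_eq_one (v : Place ℂ (FC N)) : v.deg = 1 :=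
  PlaceB.deg_eq_one v (jC N)

/-- **Riemann's theorem for `ℂ(X₀(N))`.** -/
theorem riemann :
    ∃ g : ℤ, (∀ D : Divisor ℂ (FC N),
        Divisor.degree D + 1 - Module.finrank ℂ (riemannRochSpace D) ≤ g) ∧
      (∃ D₀ : Divisor ℂ (FC N),
        Divisor.degree D₀ + 1 - Module.finrank ℂ (riemannRochSpace D₀) = g) ∧
      ∃ c : ℤ, ∀ D : Divisor ℂ (FC N),
        c ≤ Divisor.degree D →
          (Module.finrank ℂ (riemannRochSpace D) : ℤ) = Divisor.degree D + 1 - g :=
  CharZero.riemann (K := ℂ) (jC N)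

end Fermat.Agent.GJ.Dict.CurveC
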