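import Fermat.Agent.S24.LOC
import Fermat.Agent.S24.ModularDefs
import Fermat.Agent.S24.LocalOrder
import Fermat.Agent.S24_helper82.HolOrd
import Fermat.Agent.S24.Comb
import Fermat.Agent.GJ.J2.Dict.RealizeC

/-!
# S24, row 99: the `OrbitData` of `LOC.orbit_lemma` at the finite values `c` of `j`

Input: an abstract *realization* of the function field `F_N` of `X₀(N)` over `ℚ̄` by meromorphic
functions on the upper half plane (`Mer = Frac(Hol)` of `S24_helper82`).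
Output: for a point `τ₀` with `j(τ₀) = ι c`, the family of valuations
`V_[g] f = ord_{g⁻¹ τ₀} (R f)` indexed by the cosets `[g] ∈ SL₂(ℤ)/Γ₀(N)`, together with all the
hypotheses of `LOC.orbit_lemma` for the action of a generator `s` of the stabiliser of `τ₀`.
-/

set_option autoImplicit false

noncomputable section

namespace Fermat.Agent.GJ.Dict.Interior

open UpperHalfPlane MulAction
open Fermat.Agent.S24 Fermat.Agent.S24_helper82 Fermat.Agent.GJ.Dict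
open Fermat.Agent.LevelOne_helper29 (jInv jInv_smul mdifferentiable_jInv)
open Fermat.Agent.S20_helper25 (Stab mem_Stab card_Stab_smul)
open scoped MatrixGroups

/-- A realization of the function field `F_N` by meromorphic functions on `ℍ`. -/
structure RealizationC (N : ℕ) [NeZero N] where
  /-- the embedding of the constants -/
  ι : ℂ →+* ℂ
  /-- the realization homomorphism -/
  R : FC N →+* Mer
  R_const : ∀ a : ℂ, R (algebraMap ℂ (FC N) a) = algebraMap ℂ Mer (ι a)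
  /-- the `j`-function as a holomorphic function -/
  jH : Hol
  jH_apply : ∀ τ : ℍ, (jH : ℍ → ℂ) τ = jInv τ
  R_j : R (jC N) = algebraMap Hol Mer jH
  R_inv : ∀ γ ∈ CongruenceSubgroup.Gamma0 N, ∀ f : FC N, compM γ (R f) = R f

variable {N : ℕ} [NeZero N] (Z : RealizationC N)

namespace RealizationC

theorem R_ne_zero {f : FC N} (hf : f ≠ 0) : Z.R f ≠ 0 := (map_ne_zero Z.R).mpr hf

/-- the valuation "order at the point `p`" on `F_N` -/
def valAt (p : ℍ) : IntVal ℂ (FC N) where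
  toFun f := ordM p (Z.R f)
  map_mul' {f g} hf hg := by
    rw [map_mul]
    exact ordM_mul p (Z.R_ne_zero hf) (Z.R_ne_zero hg)
  map_add' {f g} hf hg hfg := by
    rw [map_add]
    refine min_ordM_le_add p (Z.R_ne_zero hf) (Z.R_ne_zero hg) ?_
    rw [← map_add]
    exact Z.R_ne_zero hfg
  map_algebraMap' c hc := by
    rw [Z.R_const]
    exact ordM_const p ((map_ne_zero Z.ι).mpr hc)

@[simp] theorem valAt_apply (p : ℍ) (f : FC N) : Z.valAt p f = ordM p (Z.R f) := rfl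

theorem valAt_smul_of_mem {γ : SL(2, ℤ)} (hγ : γ ∈ CongruenceSubgroup.Gamma0 N) (p : ℍ)
    (f : FC N) : Z.valAt (γ • p) f = Z.valAt p f := by
  rw [valAt_apply, valAt_apply, ← ordM_compM, Z.R_inv γ hγ]

/-- the valuation attached to the coset `i = [g]`: order at `g⁻¹ τ₀` -/
def V (τ₀ : ℍ) (i : I0 N) : IntVal ℂ (FC N) := Z.valAt ((Quotient.out i)⁻¹ • τ₀)

/-- `V [g]` can be computed with any representative. -/
theorem V_mk (τ₀ : ℍ) (g : SL(2, ℤ)) (f : FC N) :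
    Z.V τ₀ (QuotientGroup.mk g : I0 N) f = ordM (g⁻¹ • τ₀) (Z.R f) := by
  obtain ⟨h, hh⟩ := QuotientGroup.mk_out_eq_mul (CongruenceSubgroup.Gamma0 N) g
  have h1 : (Quotient.out (QuotientGroup.mk g : I0 N))⁻¹ • τ₀ = (h : SL(2, ℤ))⁻¹ • (g⁻¹ • τ₀) := by
    rw [hh, mul_inv_rev, mul_smul]
  show Z.valAt ((Quotient.out (QuotientGroup.mk g : I0 N))⁻¹ • τ₀) f = _
  rw [h1, Z.valAt_smul_of_mem (inv_mem h.2)]
  rfl

/-- the function `j - a` as an element of `Hol` -/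
def jSub (a : ℂ) : Hol := Z.jH - algebraMap ℂ Hol a

theorem jSub_apply (a : ℂ) (τ : ℍ) : (Z.jSub a : ℍ → ℂ) τ = jInv τ - a := by
  show (Z.jH : ℍ → ℂ) τ - a = _
  rw [Z.jH_apply]

theorem jSub_ne_zero (a : ℂ) : Z.jSub a ≠ 0 := by
  intro h
  obtain ⟨z, hz⟩ := Fermat.Agent.S24.LocalOrder.exists_jInv_eq (a + 1)
  have := Z.jSub_apply a z
  rw [h, hz] at this
  simp at this

theorem R_sub_const (c : ℂ) :
    Z.R (jC N - algebraMap ℂ (FC N) c) = algebraMap Hol Mer (Z.jSub (Z.ι c)) := by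
  rw [map_sub, Z.R_j, Z.R_const, jSub, map_sub, ← IsScalarTower.algebraMap_apply ℂ Hol Mer]

include Z in
theorem sub_const_ne_zero (c : ℂ) : jC N - algebraMap ℂ (FC N) c ≠ 0 := by
  intro h
  have h1 := Z.R_sub_const c
  rw [h, map_zero] at h1
  exact algebraMap_ne_zero (Z.jSub_ne_zero (Z.ι c)) h1.symm

/-- the order of `j - j(p)` at `p` -/
theorem ordNat_jSub (p : ℍ) : ordNat p (Z.jSub (jInv p)) = Nat.card (Stab p) / 2 := by
  have h1 := coe_ordNat (Z.jSub_ne_zero (jInv p)) p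
  have h2 : ordAt p (Z.jSub (jInv p) : ℍ → ℂ) = ((Nat.card (Stab p) / 2 : ℕ) : ℕ∞) := by
    rw [← Fermat.Agent.S24.LocalOrder.ordAt_eq_card_Stab p]
    have : (Z.jSub (jInv p) : ℍ → ℂ) = fun z => jInv z - jInv p :=
      funext fun z => Z.jSub_apply _ z
    rw [this]
    rfl
  rw [h2] at h1
  exact_mod_cast h1

theorem valAt_sub_const {τ₀ : ℍ} {c : ℂ} (hc : jInv τ₀ = Z.ι c) (g : SL(2, ℤ)) :
    Z.valAt (g • τ₀) (jC N - algebraMap ℂ (FC N) c) = (Nat.card (Stab τ₀) / 2 : ℕ) := by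
  rw [valAt_apply, Z.R_sub_const, ordM_algebraMap _ (Z.jSub_ne_zero _), ← hc, ← jInv_smul g τ₀,
    Z.ordNat_jSub, card_Stab_smul]


theorem half_card_Stab_pos (τ₀ : ℍ) : 0 < Nat.card (Stab τ₀) / 2 := by
  rcases Fermat.Agent.S20_helper25.card_Stab τ₀ with h | h | h <;> rw [h] <;> norm_num

/-- **Row 99.** The orbit data at the finite value `c = j(τ₀)`. -/
def orbitData {τ₀ : ℍ} {c : ℂ} (hc : jInv τ₀ = Z.ι c) :
    OrbitData ℂ (jC N - algebraMap ℂ (FC N) c) (I0 N) where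
  V := Z.V τ₀
  e₀ := Nat.card (Stab τ₀) / 2
  he₀ := half_card_Stab_pos τ₀
  hx0 := Z.sub_const_ne_zero c
  hVx _ := Z.valAt_sub_const hc _

@[simp] theorem orbitData_V {τ₀ : ℍ} {c : ℂ} (hc : jInv τ₀ = Z.ι c) :
    (Z.orbitData hc).V = Z.V τ₀ := rfl

@[simp] theorem orbitData_e₀ {τ₀ : ℍ} {c : ℂ} (hc : jInv τ₀ = Z.ι c) :
    (Z.orbitData hc).e₀ = Nat.card (Stab τ₀) / 2 := rfl

/-- `hsymm` of `LOC.orbit_lemma`: the valuations are constant on the orbits of the stabiliser. -/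
theorem V_smul {τ₀ : ℍ} {s : SL(2, ℤ)} (hs : s • τ₀ = τ₀) (i : I0 N) (f : FC N) :
    Z.V τ₀ (s • i) f = Z.V τ₀ i f := by
  induction i using QuotientGroup.induction_on with
  | H g =>
    rw [MulAction.Quotient.smul_mk, Z.V_mk, Z.V_mk, smul_eq_mul, mul_inv_rev, mul_smul]
    have : s⁻¹ • τ₀ = τ₀ := by rw [inv_smul_eq_iff, hs]
    rw [this]

omit [NeZero N] in
theorem neg_one_smul_coset (i : I0 N) : (-1 : SL(2, ℤ)) • i = i := by
  induction i using QuotientGroup.induction_on with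
  | H g =>
    rw [MulAction.Quotient.smul_mk, QuotientGroup.eq, smul_eq_mul]
    have : (-1 * g)⁻¹ * g = -1 := by
      have h : (-1 : SL(2, ℤ))⁻¹ = -1 := by decide
      rw [mul_inv_rev, h]
      simp
    rw [this, CongruenceSubgroup.Gamma0_mem]
    simp

omit [NeZero N] in
/-- `hg` of `LOC.orbit_lemma` -/
theorem pow_smul_coset {s : SL(2, ℤ)} {e : ℕ} (hs : s ^ e = 1 ∨ s ^ e = -1) (i : I0 N) :
    s ^ e • i = i := by
  rcases hs with h | h
  · rw [h, one_smul]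
  · rw [h, neg_one_smul_coset]

/-- the rotation lemma on cosets: if `s` fixes `τ₀`, has multiplier a primitive `k`-th root of
unity at the conjugate points, and fixes the coset `i`, then `k ∣ V i f`. -/
theorem dvd_V_of_fixed {τ₀ : ℍ} {s : SL(2, ℤ)} (hs : s • τ₀ = τ₀) {k : ℕ}
    (hk : ∀ g : SL(2, ℤ), IsPrimitiveRoot (mult (g⁻¹ * s * g) (g⁻¹ • τ₀)) k)
    {i : I0 N} (hi : s • i = i) (f : FC N) : (k : ℤ) ∣ Z.V τ₀ i f := by
  induction i using QuotientGroup.induction_on with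
  | H g =>
    rw [MulAction.Quotient.smul_mk, QuotientGroup.eq, smul_eq_mul] at hi
    have hmem : g⁻¹ * s * g ∈ CongruenceSubgroup.Gamma0 N := by
      have := inv_mem hi
      simpa [mul_assoc] using this
    have hfix : (g⁻¹ * s * g) • (g⁻¹ • τ₀) = g⁻¹ • τ₀ := by
      rw [mul_smul, mul_smul, smul_inv_smul, hs]
    rw [Z.V_mk]
    exact dvd_ordM_of_fixed hfix (hk g) (Z.R_inv _ hmem f)

theorem trace_conj (g s : SL(2, ℤ)) :
    (g⁻¹ * s * g) 0 0 + (g⁻¹ * s * g) 1 1 = s 0 0 + s 1 1 := by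
  have h1 : Matrix.trace ((g⁻¹ * s * g : SL(2, ℤ)) : Matrix (Fin 2) (Fin 2) ℤ)
      = Matrix.trace (s : Matrix (Fin 2) (Fin 2) ℤ) := by
    rw [Matrix.SpecialLinearGroup.coe_mul, Matrix.SpecialLinearGroup.coe_mul,
      Matrix.trace_mul_cycle, ← Matrix.SpecialLinearGroup.coe_mul, mul_inv_cancel]
    simp
  rw [Matrix.trace_fin_two, Matrix.trace_fin_two] at h1
  exact h1

/-- `hdiv` of `LOC.orbit_lemma`, from the trace of the generator `s` of the stabiliser. -/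
theorem hdiv_of_trace {τ₀ : ℍ} {s : SL(2, ℤ)} (hs : s • τ₀ = τ₀)
    (h2 : Nat.card (Stab τ₀) / 2 = 2 → s 0 0 + s 1 1 = 0)
    (h3 : Nat.card (Stab τ₀) / 2 = 3 → (s 0 0 + s 1 1) ^ 2 = 1)
    (i : I0 N) (h : ℕ) (hh : h ∣ Nat.card (Stab τ₀) / 2) (hi : s ^ h • i = i) (f : FC N) :
    ((Nat.card (Stab τ₀) / 2 / h : ℕ) : ℤ) ∣ Z.V τ₀ i f := by
  have hfixg : ∀ g : SL(2, ℤ), (g⁻¹ * s * g) • (g⁻¹ • τ₀) = g⁻¹ • τ₀ := fun g => by
    rw [mul_smul, mul_smul, smul_inv_smul, hs]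
  rcases Fermat.Agent.S20_helper25.card_Stab τ₀ with hc | hc | hc
  · -- `e₀ = 1`
    have he : Nat.card (Stab τ₀) / 2 = 1 := by rw [hc]
    rw [he] at hh ⊢
    rw [Nat.dvd_one] at hh
    subst hh
    simp
  · -- `e₀ = 2`
    have he : Nat.card (Stab τ₀) / 2 = 2 := by rw [hc]
    rw [he] at hh ⊢
    rcases (Nat.dvd_prime Nat.prime_two).mp hh with rfl | rfl
    · rw [pow_one] at hi
      refine Z.dvd_V_of_fixed hs (k := 2) (fun g => ?_) hi f
      refine isPrimitiveRoot_mult_of_trace_zero (hfixg g) ?_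
      rw [trace_conj]
      exact h2 he
    · simp
  · -- `e₀ = 3`
    have he : Nat.card (Stab τ₀) / 2 = 3 := by rw [hc]
    rw [he] at hh ⊢
    rcases (Nat.dvd_prime Nat.prime_three).mp hh with rfl | rfl
    · rw [pow_one] at hi
      refine Z.dvd_V_of_fixed hs (k := 3) (fun g => ?_) hi f
      refine isPrimitiveRoot_mult_of_trace_sq_one (hfixg g) ?_
      rw [trace_conj]
      exact h3 he
    · simp

theorem ordM_prod (p : ℍ) {ι' : Type*} (t : Finset ι') (a : ι' → Mer) (ha : ∀ i ∈ t, a i ≠ 0) :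
    ordM p (∏ i ∈ t, a i) = ∑ i ∈ t, ordM p (a i) := by
  classical
  induction t using Finset.induction_on with
  | empty => simp
  | insert i t hi ih =>
    rw [Finset.prod_insert hi, Finset.sum_insert hi,
      ordM_mul p (ha i (Finset.mem_insert_self i t))
        (Finset.prod_ne_zero_iff.mpr fun j hj => ha j (Finset.mem_insert_of_mem hj)),
      ih fun j hj => ha j (Finset.mem_insert_of_mem hj)]

theorem V_eq_ordM_compM (τ₀ : ℍ) (i : I0 N) (f : FC N) :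
    Z.V τ₀ i f = ordM τ₀ (compM (Quotient.out i)⁻¹ (Z.R f)) := by
  rw [ordM_compM]
  rfl

/-- `hnorm` of `LOC.orbit_lemma`, from the product formula for the conjugate embeddings
`f ↦ (R f) ∘ gᵢ⁻¹` (the shape of `S24_helper66.emb_norm_eq_prod`). -/
theorem hnorm_of_prod (τ₀ : ℍ) (k : IntermediateField ℂ (FC N))
    (hprod : ∀ (f : FC N) (i₀ : I0 N),
      compM (Quotient.out i₀)⁻¹ (Z.R (algebraMap k (FC N) (Algebra.norm k f)))
        = ∏ i : I0 N, compM (Quotient.out i)⁻¹ (Z.R f))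
    (f : FC N) (hf : f ≠ 0) (i₀ : I0 N) :
    ∑ i : I0 N, Z.V τ₀ i f = Z.V τ₀ i₀ (algebraMap k (FC N) (Algebra.norm k f)) := by
  rw [Z.V_eq_ordM_compM τ₀ i₀, hprod f i₀, ordM_prod]
  · exact Finset.sum_congr rfl fun i _ => Z.V_eq_ordM_compM τ₀ i f
  · intro i _
    exact (map_ne_zero (compM (Quotient.out i)⁻¹)).mpr (Z.R_ne_zero hf)


/-! ### The conclusions of the orbit lemma at the finite values of `j` -/

section Final

open AlgebraicCurve

variable {τ₀ : ℍ} {c : ℂ} (hc : jInv τ₀ = Z.ι c)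
  (k : IntermediateField ℂ (FC N)) [FiniteDimensional k (FC N)]

include hc

/-- **The orbit lemma at `j = c`**: the places of `F_N` above `j = c` correspond to the orbits of
a generator `s` of the stabiliser of `τ₀` (`j(τ₀) = c`) on `SL₂(ℤ)/Γ₀(N)`, the ramification index
being the size of the orbit. -/
theorem orbit_equiv [Finite (Fibre ℂ (jC N - algebraMap ℂ (FC N) c))]
    (hN : ∀ f : FC N, f ≠ 0 → ∀ w₀ : Place ℂ (FC N),
      0 < w₀.ord (jC N - algebraMap ℂ (FC N) c) →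
      w₀.ord (algebraMap k (FC N) (Algebra.norm k f)) =
        w₀.ord (jC N - algebraMap ℂ (FC N) c) *
          ∑ᶠ w : Fibre ℂ (jC N - algebraMap ℂ (FC N) c), w.1.ord f)
    (hWA : ∀ w : Fibre ℂ (jC N - algebraMap ℂ (FC N) c), ∃ f : FC N, f ≠ 0 ∧
      w.1.ord f = 1 ∧ ∀ w' : Fibre ℂ (jC N - algebraMap ℂ (FC N) c), w' ≠ w →
        w'.1.ord f = 0)
    (hprod : ∀ (f : FC N) (i₀ : I0 N),
      compM (Quotient.out i₀)⁻¹ (Z.R (algebraMap k (FC N) (Algebra.norm k f)))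
        = ∏ i : I0 N, compM (Quotient.out i)⁻¹ (Z.R f))
    {s : SL(2, ℤ)} (hs : s • τ₀ = τ₀)
    (hpow : s ^ (Nat.card (Stab τ₀) / 2) = 1 ∨ s ^ (Nat.card (Stab τ₀) / 2) = -1)
    (h2 : Nat.card (Stab τ₀) / 2 = 2 → s 0 0 + s 1 1 = 0)
    (h3 : Nat.card (Stab τ₀) / 2 = 3 → (s 0 0 + s 1 1) ^ 2 = 1) :
    ∃ φ : orbitRel.Quotient (Subgroup.zpowers s) (I0 N) ≃
        Fibre ℂ (jC N - algebraMap ℂ (FC N) c),
      (∀ i : I0 N, φ (Quotient.mk'' i) = (Z.orbitData hc).place i) ∧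
      ∀ o, ((φ o).1.ord (jC N - algebraMap ℂ (FC N) c) : ℤ) = Nat.card o.orbit :=
  orbit_lemma k _ hN hWA s (Z.orbitData hc)
    (fun f hf i₀ => Z.hnorm_of_prod τ₀ k hprod f hf i₀)
    (fun i f => Z.V_smul hs i f)
    (fun i => pow_smul_coset hpow i)
    (fun i h hh hi f _ => Z.hdiv_of_trace hs h2 h3 i h hh hi f)

/-- number of places above `j = c` = number of orbits of `s` -/
theorem card_fibre [Finite (Fibre ℂ (jC N - algebraMap ℂ (FC N) c))]
    (hN : ∀ f : FC N, f ≠ 0 → ∀ w₀ : Place ℂ (FC N),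
      0 < w₀.ord (jC N - algebraMap ℂ (FC N) c) →
      w₀.ord (algebraMap k (FC N) (Algebra.norm k f)) =
        w₀.ord (jC N - algebraMap ℂ (FC N) c) *
          ∑ᶠ w : Fibre ℂ (jC N - algebraMap ℂ (FC N) c), w.1.ord f)
    (hWA : ∀ w : Fibre ℂ (jC N - algebraMap ℂ (FC N) c), ∃ f : FC N, f ≠ 0 ∧
      w.1.ord f = 1 ∧ ∀ w' : Fibre ℂ (jC N - algebraMap ℂ (FC N) c), w' ≠ w →
        w'.1.ord f = 0)
    (hprod : ∀ (f : FC N) (i₀ : I0 N),
      compM (Quotient.out i₀)⁻¹ (Z.R (algebraMap k (FC N) (Algebra.norm k f)))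
        = ∏ i : I0 N, compM (Quotient.out i)⁻¹ (Z.R f))
    {s : SL(2, ℤ)} (hs : s • τ₀ = τ₀)
    (hpow : s ^ (Nat.card (Stab τ₀) / 2) = 1 ∨ s ^ (Nat.card (Stab τ₀) / 2) = -1)
    (h2 : Nat.card (Stab τ₀) / 2 = 2 → s 0 0 + s 1 1 = 0)
    (h3 : Nat.card (Stab τ₀) / 2 = 3 → (s 0 0 + s 1 1) ^ 2 = 1) :
    Nat.card (Fibre ℂ (jC N - algebraMap ℂ (FC N) c)) = numOrbits (permOf N s) := by
  obtain ⟨φ, -⟩ := Z.orbit_equiv hc k hN hWA hprod hs hpow h2 h3
  rw [← Nat.card_congr φ, Fermat.Agent.S24.Comb.numOrbits_permOf]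


end Final

/-! ### The three cases -/

section Cases

open AlgebraicCurve ModularGroup
open scoped Modular

variable (k : IntermediateField ℂ (FC N)) [FiniteDimensional k (FC N)]

/-- **`j = 1728`**: the places above `1728` are counted by the orbits of `S`. -/
theorem card_fibre_1728 {c : ℂ} (hc : Z.ι c = 1728)
    [Finite (Fibre ℂ (jC N - algebraMap ℂ (FC N) c))]
    (hN : ∀ f : FC N, f ≠ 0 → ∀ w₀ : Place ℂ (FC N),
      0 < w₀.ord (jC N - algebraMap ℂ (FC N) c) →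
      w₀.ord (algebraMap k (FC N) (Algebra.norm k f)) =
        w₀.ord (jC N - algebraMap ℂ (FC N) c) *
          ∑ᶠ w : Fibre ℂ (jC N - algebraMap ℂ (FC N) c), w.1.ord f)
    (hWA : ∀ w : Fibre ℂ (jC N - algebraMap ℂ (FC N) c), ∃ f : FC N, f ≠ 0 ∧
      w.1.ord f = 1 ∧ ∀ w' : Fibre ℂ (jC N - algebraMap ℂ (FC N) c), w' ≠ w →
        w'.1.ord f = 0)
    (hprod : ∀ (f : FC N) (i₀ : I0 N),
      compM (Quotient.out i₀)⁻¹ (Z.R (algebraMap k (FC N) (Algebra.norm k f)))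
        = ∏ i : I0 N, compM (Quotient.out i)⁻¹ (Z.R f)) :
    Nat.card (Fibre ℂ (jC N - algebraMap ℂ (FC N) c)) = numOrbits (permOf N S) := by
  have hcard : Nat.card (Stab UpperHalfPlane.I) / 2 = 2 := by
    rw [Fermat.Agent.S20_helper25.card_Stab_I]
  have hc' : jInv UpperHalfPlane.I = Z.ι c := by
    rw [hc]; exact Fermat.Agent.LevelOne_helper29.jInv_I
  refine Z.card_fibre hc' k hN hWA hprod (s := S)
    (mem_Stab.mp Fermat.Agent.S20_helper25.S_mem_Stab_I) ?_ (fun _ => by decide) ?_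
  · rw [hcard]; exact Or.inr Fermat.Agent.S20_helper25.S_sq
  · intro h; rw [hcard] at h; omega

/-- **`j = 0`**: the places above `0` are counted by the orbits of `S * T`. -/
theorem card_fibre_zero {c : ℂ} (hc : Z.ι c = 0)
    [Finite (Fibre ℂ (jC N - algebraMap ℂ (FC N) c))]
    (hN : ∀ f : FC N, f ≠ 0 → ∀ w₀ : Place ℂ (FC N),
      0 < w₀.ord (jC N - algebraMap ℂ (FC N) c) →
      w₀.ord (algebraMap k (FC N) (Algebra.norm k f)) =
        w₀.ord (jC N - algebraMap ℂ (FC N) c) *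
          ∑ᶠ w : Fibre ℂ (jC N - algebraMap ℂ (FC N) c), w.1.ord f)
    (hWA : ∀ w : Fibre ℂ (jC N - algebraMap ℂ (FC N) c), ∃ f : FC N, f ≠ 0 ∧
      w.1.ord f = 1 ∧ ∀ w' : Fibre ℂ (jC N - algebraMap ℂ (FC N) c), w' ≠ w →
        w'.1.ord f = 0)
    (hprod : ∀ (f : FC N) (i₀ : I0 N),
      compM (Quotient.out i₀)⁻¹ (Z.R (algebraMap k (FC N) (Algebra.norm k f)))
        = ∏ i : I0 N, compM (Quotient.out i)⁻¹ (Z.R f)) :
    Nat.card (Fibre ℂ (jC N - algebraMap ℂ (FC N) c)) = numOrbits (permOf N (S * T)) := by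
  have hcard : Nat.card (Stab ρ) / 2 = 3 := by
    rw [Fermat.Agent.S20_helper25.card_Stab_rho]
  have hc' : jInv ρ = Z.ι c := by
    rw [hc]; exact Fermat.Agent.LevelOne_helper29.jInv_rho
  refine Z.card_fibre hc' k hN hWA hprod (s := S * T)
    (mem_Stab.mp Fermat.Agent.S20_helper25.ST_mem_Stab_rho) ?_ ?_ (fun _ => by decide)
  · rw [hcard]; exact Or.inr Fermat.Agent.S20_helper25.ST_pow_three
  · intro h; rw [hcard] at h; omega

/-- **generic `c`**: all places above `c ≠ 0, 1728` are unramified, and there are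
`[SL₂(ℤ) : Γ₀(N)]` of them. -/
theorem unramified_generic {c : ℂ} (h0 : Z.ι c ≠ 0) (h1 : Z.ι c ≠ 1728)
    [Finite (Fibre ℂ (jC N - algebraMap ℂ (FC N) c))]
    (hN : ∀ f : FC N, f ≠ 0 → ∀ w₀ : Place ℂ (FC N),
      0 < w₀.ord (jC N - algebraMap ℂ (FC N) c) →
      w₀.ord (algebraMap k (FC N) (Algebra.norm k f)) =
        w₀.ord (jC N - algebraMap ℂ (FC N) c) *
          ∑ᶠ w : Fibre ℂ (jC N - algebraMap ℂ (FC N) c), w.1.ord f)
    (hWA : ∀ w : Fibre ℂ (jC N - algebraMap ℂ (FC N) c), ∃ f : FC N, f ≠ 0 ∧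
      w.1.ord f = 1 ∧ ∀ w' : Fibre ℂ (jC N - algebraMap ℂ (FC N) c), w' ≠ w →
        w'.1.ord f = 0)
    (hprod : ∀ (f : FC N) (i₀ : I0 N),
      compM (Quotient.out i₀)⁻¹ (Z.R (algebraMap k (FC N) (Algebra.norm k f)))
        = ∏ i : I0 N, compM (Quotient.out i)⁻¹ (Z.R f)) :
    (∀ w : Fibre ℂ (jC N - algebraMap ℂ (FC N) c),
        w.1.ord (jC N - algebraMap ℂ (FC N) c) = 1) ∧
      Nat.card (Fibre ℂ (jC N - algebraMap ℂ (FC N) c)) = Fintype.card (I0 N) := by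
  obtain ⟨τ₀, hτ₀⟩ := Fermat.Agent.S24.LocalOrder.exists_jInv_eq (Z.ι c)
  have hcard : Nat.card (Stab τ₀) = 2 := by
    refine Fermat.Agent.S20_helper25.card_Stab_of_generic (fun g hg => h1 ?_) (fun g hg => h0 ?_)
    · rw [← hτ₀]; exact (Fermat.Agent.S24.LocalOrder.jInv_eq_1728_iff_orbit τ₀).mpr ⟨g, hg⟩
    · rw [← hτ₀]; exact (Fermat.Agent.S24.LocalOrder.jInv_eq_zero_iff_orbit τ₀).mpr ⟨g, hg⟩
  refine unramified_of_norm k _ hN hWA (Z.orbitData hτ₀) ?_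
    (fun f hf i₀ => Z.hnorm_of_prod τ₀ k hprod f hf i₀)
  rw [orbitData_e₀, hcard]

end Cases

end RealizationC

end Fermat.Agent.GJ.Dict.Interior
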